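import Fermat.Agent.PSEMI.OrdinaryUnit
import Fermat.Agent.PSEMI.Ord.UnitIdentity
import Fermat.Agent.PSEMI.Ord.ResComm
import Fermat.Agent.PSEMI.Ord.New
import Fermat.Agent.Assembly.Stabilise
import Fermat.Agent.Lifting.Index
import Fermat.Agent.Lifting.PointP

/-!
# A congruent form has the sign as eigenvalue at a multiplicative `p` outside its level

After stabilisation the unit eigenvalue of `U_p` is a root of the residual characteristic
polynomial of every Frobenius element at `p`; for a multiplicative curve the only common root is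
the sign.
-/

set_option autoImplicit false

noncomputable section

open WeierstrassCurve Polynomial IsLocalRing CongruenceSubgroup ModularFormClass
open scoped WeierstrassCurve.Affine Matrix

namespace FermatAgent.PSEMI

open FermatAgent.Period (parRank)
open MatLim

local notation "ZC" => integralClosure ℤ ℂ
local notation "GQ" => AlgebraicClosure ℚ ≃ₐ[ℚ] AlgebraicClosure ℚ

/-- A Frobenius element times inertia is a Frobenius element. -/
theorem isFrobeniusAt_mul_inertia {q : ℕ} {A : ValuationSubring (AlgebraicClosure ℚ)} {F σ : GQ}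
    (hF : A.IsFrobeniusAt F q) (hσ : σ ∈ A.inertiaSubgroupIn ℚ) : A.IsFrobeniusAt (F * σ) q := by
  obtain ⟨τ, hτ, rfl⟩ := hσ
  refine ⟨mul_mem hF.mem_decompositionSubgroup τ.2, fun x => ?_⟩
  rw [show (⟨F * (A.decompositionSubgroup ℚ).subtype τ, _⟩ : A.decompositionSubgroup ℚ) =
    ⟨F, hF.mem_decompositionSubgroup⟩ * τ from rfl, mul_smul]
  have h1 : τ • x = x :=
    congrArg (fun f : RingAut (ResidueField A) => f x) (MonoidHom.mem_ker.mp hτ)
  rw [h1]
  exact hF.smul_residue_eq x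

variable {p : ℕ} [hp : Fact p.Prime]

/-- A scalar congruent to a natural number has its residual value. -/
theorem theta_scalar_eq_natCast {κ : Type} [Fintype κ] [DecidableEq κ] {T : Type} [CommRing T]
    [IsLocalRing T] (A : HeckePart p κ T) (hpT : (p : ResidueField T) = 0) {x : ℤ_[p]} {n : ℕ}
    (h : PadicInt.toZModPow 1 x = (n : ZMod (p ^ 1))) :
    A.θ ⟨_, A.scalar x⟩ = (n : ResidueField T) := by
  let f : ℤ_[p] →+* ResidueField T :=
    A.θ.comp ((algebraMap ℤ_[p] (Matrix κ κ ℤ_[p])).codRestrict A.R0 A.scalar)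
  show f x = _
  obtain ⟨c, hc⟩ : (p : ℤ_[p]) ∣ x - n := by
    rw [← Ideal.mem_span_singleton, ← pow_one (p : ℤ_[p]), ← PadicInt.ker_toZModPow,
      RingHom.mem_ker, map_sub, map_natCast, h, sub_self]
  rw [sub_eq_iff_eq_add.mp hc, map_add, map_mul, map_natCast, hpT, zero_mul, zero_add, map_natCast]

/-- What an element of nonzero residual value kills modulo each power of `p`, the idempotent of the
eigensystem kills. -/
theorem idem_mul_eq_zero {κ : Type} [Fintype κ] [DecidableEq κ] {T : Type} [CommRing T]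
    [IsLocalRing T] (H : HeckePart p κ T) {e : H.R0} (he : e * e = e)
    (hmin : ∀ f : H.R0, f * f = f → H.θ f = 1 → e * f = e) {Y : Matrix κ κ ℤ_[p]}
    (h : ∀ k, ∃ x : H.R0, H.θ x ≠ 0 ∧ mred k ((x : Matrix κ κ ℤ_[p]) * Y) = 0) :
    (e : Matrix κ κ ℤ_[p]) * Y = 0 := mred_ext fun k => by
  obtain ⟨x, hx, h0⟩ := h k
  obtain ⟨y, hy⟩ := HeckePart.exists_inv he hmin hx
  have e1 : (e : Matrix κ κ ℤ_[p]) =
      ((y * e : H.R0) : Matrix κ κ ℤ_[p]) * (x : Matrix κ κ ℤ_[p]) := by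
    rw [← Subring.coe_mul]
    refine congrArg Subtype.val ?_
    conv_lhs => rw [← hy]
    ring
  rw [e1, mul_assoc, map_mul, h0, mul_zero, map_zero]

variable {N : ℕ} [NeZero N]

local notation "MatN" => Matrix (Fin (parRank (Gamma0 N))) (Fin (parRank (Gamma0 N))) ℤ_[p]

/-- **The unit eigenvalue at `p ∣∣ N` is a residual root of every Frobenius element at `p`.** -/
theorem root_of_unit (hpN : p ∣ N) (hp2N : ¬ p ^ 2 ∣ N) {T : Type} [CommRing T] [IsLocalRing T]
    (A : HeckeAct p (Fin (parRank (Gamma0 N))) T GQ) (hAG : A.G = ES.galMat p N)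
    (hcyc : A.cyc = ES.padCyclo p) (hU : matU p N ∈ A.R0)
    (hθ : A.toHeckePart.θ ⟨_, hU⟩ ≠ 0) (h2 : (2 : ResidueField T) ≠ 0)
    (hpT : (p : ResidueField T) = 0)
    {P0 : ValuationSubring (AlgebraicClosure ℚ)} (hP0 : P0.LiesOverPrime p) {σ0 : GQ}
    (hσ0 : σ0 ∈ P0.inertiaSubgroupIn ℚ) (hw1 : (wVal p σ0 : ResidueField T) ≠ 1)
    (hw0 : (wVal p σ0 : ResidueField T) ≠ 0) {F : GQ} (hF : P0.IsFrobeniusAt F p) :
    A.toHeckePart.θ ⟨_, hU⟩ ^ 2 - A.toHeckePart.θ (A.τ F) * A.toHeckePart.θ ⟨_, hU⟩ +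
      A.toHeckePart.θ (A.d F) = 0 := by
  set θ := A.toHeckePart.θ
  set u0 : A.R0 := ⟨matU p N, hU⟩
  obtain ⟨e, he, heφ, hmin⟩ := A.toHeckePart.exists_idem
  have hEE : (e : MatN) * (e : MatN) = (e : MatN) := congrArg Subtype.val he
  have hd : θ (A.d σ0) = (wVal p σ0 : ResidueField T) := by
    refine theta_scalar_eq_natCast A.toHeckePart hpT ?_
    rw [hcyc]; exact toZModPow_padCyclo_eq_wVal σ0
  have htr0 := trace_inertia_of_unit hpN hp2N A hAG hcyc hU hθ h2 hP0 hσ0
  have hτ : ∀ g, θ (A.τ g) = residue T (A.M g).trace := fun g => congrArg (residue T) (A.tr g)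
  have hdet : ∀ g, θ (A.d g) = residue T (A.M g).det := fun g => congrArg (residue T) (A.det g)
  -- a commutator with residual trace different from two
  set r : GQ →* Matrix (Fin 2) (Fin 2) (ResidueField T) :=
    (residue T).mapMatrix.toMonoidHom.comp A.M
  have hr : ∀ g, (r g).trace = residue T (A.M g).trace := fun g => by
    show ((A.M g).map (residue T)).trace = _
    simp [Matrix.trace_fin_two]
  obtain ⟨g1, hg1⟩ := exists_trace_commutator_ne r A.span_residue (g0 := σ0)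
    (w := (wVal p σ0 : ResidueField T))
    (by rw [hr, htr0, ← hdet, hd, add_comm]) (by
      show ((residue T).mapMatrix (A.M σ0)).det = _
      rw [← RingHom.map_det, ← hdet, hd]) hw0 hw1
  set g2 := σ0 * g1 * σ0⁻¹ * g1⁻¹
  set c : A.R0 := A.τ g2 - 2
  set r0 : A.R0 := A.τ σ0 - (1 + (wVal p σ0 : A.R0))
  have hc : θ c ≠ 0 := by
    rw [map_sub, map_ofNat, sub_ne_zero, hτ, ← hr]; exact hg1
  have hr0 : θ r0 = 0 := by
    rw [map_sub, map_add, map_one, map_natCast, hτ, htr0, ← hdet, hd, add_comm, sub_self]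
  have hgal : ∀ g, ES.galTrace N p g = (A.τ g : MatN) := fun g => by
    rw [A.τ_eq, hAG, hcyc]; rfl
  have hc' : commOp p N σ0 g1 = (c : MatN) := by
    rw [commOp, hgal, AddSubgroupClass.coe_sub]
    rfl
  have hr' : rootOp p N σ0 (wVal p σ0) = (r0 : MatN) := by
    rw [rootOp, hgal, AddSubgroupClass.coe_sub, Subring.coe_add, Subring.coe_one,
      SubringClass.coe_natCast]
  have hw' : PadicInt.toZModPow 1 (ES.padCyclo p σ0) ≠ 1 := fun h => hw1 (by
    rw [← hd]
    show θ ⟨_, A.scalar (A.cyc σ0)⟩ = 1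
    rw [← Nat.cast_one, theta_scalar_eq_natCast A.toHeckePart hpT (n := 1)]
    rw [hcyc, h, Nat.cast_one])
  set G0 := ES.galMat p N σ0
  set χ : MatN := algebraMap ℤ_[p] MatN (ES.padCyclo p σ0)
  -- the two identities on the part of `e`
  have kill : ∀ X : MatN, OrdOp p N P0 X → (e : MatN) * ((G0 - χ) * X) = 0 := fun X hX =>
    idem_mul_eq_zero A.toHeckePart he hmin fun k => by
      obtain ⟨i, hi, hk⟩ := exists_kill_unitPart hpN hp2N hP0 hσ0 hw' g1 X hX k
      have h0 := hk 0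
      rw [zero_add, mul_one, hc', hr'] at h0
      refine ⟨u0 ^ i * c ^ i * (1 - r0 ^ i), ?_, ?_⟩
      · rw [map_mul, map_mul, map_pow, map_pow, map_sub θ 1, map_one, map_pow, hr0, zero_pow hi.ne',
          sub_zero, mul_one]
        exact mul_ne_zero (pow_ne_zero _ hθ) (pow_ne_zero _ hc)
      · rw [← mul_assoc]
        simpa only [u0, Subring.coe_mul, SubmonoidClass.coe_pow, AddSubgroupClass.coe_sub,
          Subring.coe_one] using h0
  have hcG : ∀ g, ∀ z : A.R0, Commute (ES.galMat p N g) (z : MatN) := fun g z => by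
    have := A.commG g z z.2
    rwa [hAG] at this
  set GF := ES.galMat p N F
  set L : MatN := (G0 - χ) * (e : MatN)
  have hLe : L = (e : MatN) * (G0 - χ) :=
    ((hcG σ0 e).sub_left (Algebra.commute_algebraMap_left _ _)).eq
  have hLF : L * GF = (u0 : MatN) * L := by
    have h := kill _ (Or.inr ⟨F, hF, rfl⟩)
    rw [← mul_assoc, ← hLe, mul_sub, sub_eq_zero] at h
    rw [← h]
    show (G0 - χ) * (e : MatN) * (u0 : MatN) = _
    rw [← mul_assoc (u0 : MatN), mul_assoc (G0 - χ), (A.comm _ e.2 _ u0.2).eq, ← mul_assoc,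
      (((hcG σ0 u0).sub_left (Algebra.commute_algebraMap_left _ _))).eq]
  have hLR : ∀ z : A.R0, Commute L (z : MatN) := fun z =>
    ((hcG σ0 z).sub_left (Algebra.commute_algebraMap_left _ _)).mul_left (A.comm _ e.2 _ z.2)
  set rF : A.R0 := u0 * u0 - A.τ F * u0 + A.d F
  have hrL : (rF : MatN) * L = 0 := by
    have q := A.quad F
    rw [hAG] at q
    have h := congrArg (L * ·) q
    rw [mul_zero] at h
    rw [← h]
    show ((u0 : MatN) * u0 - (A.τ F : MatN) * u0 + algebraMap ℤ_[p] MatN (A.cyc F)) * L =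
      L * (GF * GF - (A.τ F : MatN) * GF + algebraMap ℤ_[p] MatN (A.cyc F))
    rw [mul_add L, mul_sub L, ← mul_assoc L GF, hLF, mul_assoc (u0 : MatN) L, hLF,
      ← mul_assoc L (A.τ F : MatN), (hLR (A.τ F)).eq, mul_assoc (A.τ F : MatN) L, hLF,
      ← Algebra.commutes (A.cyc F) L]
    simp only [sub_mul, add_mul, mul_assoc]
  have goal : θ rF = θ u0 ^ 2 - θ (A.τ F) * θ u0 + θ (A.d F) := by
    rw [map_add, map_sub, map_mul, map_mul, sq]
  by_contra hne
  rw [← goal] at hne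
  have hL0 : L = 0 := by
    have e1 : L = (e : MatN) * L := by rw [hLe, ← mul_assoc, hEE]
    rw [e1]
    exact idem_mul_eq_zero A.toHeckePart he hmin fun k => ⟨rF, hne, by rw [hrL, map_zero]⟩
  have h0 : A.G σ0 * (e : MatN) = χ * (e : MatN) := by
    rw [hAG, ← sub_eq_zero, ← sub_mul]; exact hL0
  have he0 : (e : MatN) = 0 := A.eq_zero_of_eigen he heφ hmin (RingHom.id MatN) hEE σ0
    (α := A.d σ0) (β := A.τ σ0 - A.d σ0) (add_sub_cancel _ _) (by
      rw [map_sub, map_sub, hτ, htr0, ← hdet, hd, ← sub_add, sub_ne_zero.symm]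
      intro h
      apply hw1
      linear_combination h) fun h => by
        simp only [RingHom.id_apply]
        rw [(A.commG h e e.2).eq, ← mul_assoc, h0]
        show χ * (e : MatN) * A.G h = algebraMap ℤ_[p] MatN (A.cyc σ0) * ((e : MatN) * A.G h)
        rw [hcyc, mul_assoc]
  have : θ e = 0 := by rw [show e = 0 from Subtype.ext he0, map_zero]
  rw [show θ e = residue T (A.φ e) from rfl, heφ, map_one] at this
  exact one_ne_zero this

omit hp in
/-- The roots of the polynomial at a prime of an algebraic integer, one of them in a given prime. -/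
theorem exists_roots_of_mem {𝔪 : Ideal ZC} (hmax : 𝔪.IsMaximal) (hmem : (p : ZC) ∈ 𝔪) (a : ZC) :
    ∃ α β : ZC, α + β = a ∧ α * β = (p : ZC) ∧ β ∈ 𝔪 := by
  obtain ⟨z, hz⟩ := IsAlgClosed.exists_root (X ^ 2 - C (a : ℂ) * X + C (p : ℂ)) (by
    have : (X ^ 2 - C (a : ℂ) * X + C (p : ℂ)).degree = 2 := by compute_degree!
    rw [this]; norm_num)
  rw [IsRoot, eval_add, eval_sub, eval_mul, eval_pow, eval_X, eval_C, eval_C] at hz
  have hint : IsIntegral ZC z := ⟨X ^ 2 - C a * X + C (p : ZC), by monicity!, by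
    simp only [eval₂_add, eval₂_sub, eval₂_mul, eval₂_pow, eval₂_X, eval₂_C]
    exact hz⟩
  have : Algebra.IsIntegral ℤ ZC := ⟨fun x => IsIntegralClosure.isIntegral ℤ ℂ x⟩
  let x : ZC := ⟨z, isIntegral_trans z hint⟩
  have hxy : x * (a - x) = (p : ZC) := Subtype.ext (by push_cast; linear_combination -hz)
  rcases hmax.isPrime.mem_or_mem (hxy ▸ hmem : x * (a - x) ∈ 𝔪) with h | h
  · exact ⟨a - x, x, sub_add_cancel _ _, by rw [mul_comm]; exact hxy, h⟩
  · exact ⟨x, a - x, add_sub_cancel _ _, hxy, h⟩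

/-- A ring map to characteristic `p` reads an integer of `ℤ_p` modulo `p`. -/
theorem map_eq_natCast_of_mod {K : Type} [CommRing K] (f : ℤ_[p] →+* K) (hpK : (p : K) = 0)
    {x : ℤ_[p]} {n : ℕ} (h : PadicInt.toZModPow 1 x = (n : ZMod (p ^ 1))) : f x = n := by
  obtain ⟨c, hc⟩ : (p : ℤ_[p]) ∣ x - n := by
    rw [← Ideal.mem_span_singleton, ← pow_one (p : ℤ_[p]), ← PadicInt.ker_toZModPow,
      RingHom.mem_ker, map_sub, map_natCast, h, sub_self]
  rw [sub_eq_iff_eq_add.mp hc, map_add, map_mul, map_natCast, hpK, zero_mul, zero_add, map_natCast]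

/-- An element inverting the roots of unity of order `p` has residual value minus one. -/
theorem wVal_cast_eq_neg_one {K : Type} [CommRing K] (hpK : (p : K) = 0) {σ : GQ}
    (hσ : ∀ μ : AlgebraicClosure ℚ, μ ^ p = 1 → σ μ = μ ^ ((-1 : (ZMod p)ˣ) : ZMod p).val) :
    (wVal p σ : K) = -1 := by
  have : NeZero (p ^ 1) := ⟨pow_ne_zero 1 hp.out.ne_zero⟩
  obtain ⟨ζ, hζ⟩ := ES.exists_primitive_qbar p 1
  have h := ES.toZModPow_padCyclo_eq p (g := σ) hζ
    (hσ ζ (by have := hζ.pow_eq_one; rwa [pow_one] at this))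
  have hv : wVal p σ = ((-1 : (ZMod p)ˣ) : ZMod p).val := by
    rw [wVal, h, ZMod.val_natCast, Nat.mod_eq_of_lt]
    rw [pow_one]; exact ZMod.val_lt _
  have hp1 : ((-1 : (ZMod p)ˣ) : ZMod p).val + 1 = p := by
    rw [Units.val_neg, Units.val_one, ZMod.neg_val, ZMod.val_one, if_neg one_ne_zero,
      Nat.sub_add_cancel hp.out.one_le]
  rw [hv, eq_neg_iff_add_eq_zero, ← Nat.cast_one (R := K), ← Nat.cast_add, hp1, hpK]

/-- Minus one is different from one and zero in odd characteristic. -/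
theorem wVal_cast_ne {K : Type} [Field K] (hpK : (p : K) = 0) (h2 : (2 : K) ≠ 0) {σ : GQ}
    (hσ : ∀ μ : AlgebraicClosure ℚ, μ ^ p = 1 → σ μ = μ ^ ((-1 : (ZMod p)ˣ) : ZMod p).val) :
    (wVal p σ : K) ≠ 1 ∧ (wVal p σ : K) ≠ 0 := by
  rw [wVal_cast_eq_neg_one hpK hσ]
  exact ⟨fun h => h2 (by linear_combination -h), neg_ne_zero.mpr one_ne_zero⟩

variable {W : WeierstrassCurve ℤ} {M : ℕ} {g : CuspForm (Gamma0 M) 2} {𝔪 : Ideal ZC}

/-- **The eigenvalue at a multiplicative `p` outside the level is the sign.** -/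
theorem congr_multSign_p (hΔ : W.Δ ≠ 0) (hW : W.IsSemistableModel) (hp2 : p ≠ 2)
    (hirr : W.ModRepIsIrreducible p) (hM : Squarefree M) (hpM : ¬ p ∣ M)
    (hbad : ¬ W.IsGoodPrimeFor p) (hcg : Assembly.Congr W p M g 𝔪) :
    ∃ a : ZC, (a : ℂ) = qCoeff g p ∧ a - ((Lifting.frobVal W p : ℤ) : ZC) ∈ 𝔪 := by
  classical
  have : NeZero M := ⟨hM.ne_zero⟩
  have : NeZero (M * p) := ⟨mul_ne_zero (NeZero.ne M) hp.out.ne_zero⟩
  have := hcg.2.1
  let : Field (ZC ⧸ 𝔪) := Ideal.Quotient.field 𝔪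
  have := Assembly.charP_quotient hp.out hcg.2.1 hcg.2.2.1
  let k := AlgebraicClosure (ZC ⧸ 𝔪)
  have : CharP k p := charP_of_injective_algebraMap' (ZC ⧸ 𝔪) p
  let ι : ZC →+* k := (algebraMap (ZC ⧸ 𝔪) k).comp (Ideal.Quotient.mk 𝔪)
  have hι : ∀ x, ι x = 0 ↔ x ∈ 𝔪 := fun x => by
    rw [RingHom.comp_apply, map_eq_zero, Ideal.Quotient.eq_zero_iff_mem]
  obtain ⟨a, ha, haunit⟩ := ordinaryUnit W p M g 𝔪 hΔ hW hp.out hp2 hirr hM hpM (Or.inl hbad) hcg
  obtain ⟨α, β, hsum, hprod, hβ⟩ := exists_roots_of_mem hcg.2.1 hcg.2.2.1 a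
  have hαa : ι α = ι a := by
    rw [← hsum, map_add, (hι β).mpr hβ, add_zero]
  obtain ⟨g', hg', hg'p, hg'ℓ⟩ := Assembly.exists_stabilisation hcg.1 hp.out hpM
    (α := (α : ℂ)) (β := (β : ℂ)) (by rw [← ha, ← hsum]; rfl)
    (by exact_mod_cast congrArg Subtype.val hprod)
  set c := ZMod.castHom (dvd_refl p) k
  obtain ⟨A, b, a', hU, hAG, hcyc, hAM, ha', hφ⟩ := exists_torAct hΔ hp2 hirr (dvd_mul_right M p)
    hcg ι (fun x => (hι x).mpr) hg' hg'ℓ
  have ha'α : a' = α := Subtype.ext (ha'.trans hg'p)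
  have hθU : A.toHeckePart.θ ⟨_, hU⟩ = residue k (ι a) := by
    show residue k (A.φ ⟨_, hU⟩) = _
    rw [hφ, ha'α, hαa]
  have hιa : ι a ≠ 0 := fun h => haunit ((hι a).mp h)
  have h2k : (2 : k) ≠ 0 := by
    rw [← Nat.cast_ofNat (R := k) (n := 2), Ne, CharP.cast_eq_zero_iff k p,
      Nat.prime_dvd_prime_iff_eq hp.out Nat.prime_two]
    exact hp2
  have h2R : (2 : ResidueField k) ≠ 0 := by
    rw [← map_ofNat (residue k) 2, Ne, map_eq_zero]; exact h2k
  have hpR : (p : ResidueField k) = 0 := by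
    rw [← map_natCast (residue k), CharP.cast_eq_zero, map_zero]
  obtain ⟨P, hP⟩ := GaloisBasic.exists_liesOverPrime hp.out
  obtain ⟨σ0, hσ0, hσw⟩ := RT.exists_inertia_cyclotomic hp.out hP (-1 : (ZMod p)ˣ)
  obtain ⟨U, hD, hI, hFr⟩ := Lifting.exists_adapted_tateMat (p := p) hΔ hW hp2 hbad P hP
  set N := Lifting.tateMat (p := p) hΔ
  set z : ℤ_[p] →+* k := c.comp PadicInt.toZMod
  have hch : ∀ σ, (matRho (Assembly.torRepK W hΔ p k) b σ).trace = z (N σ).trace ∧
      (matRho (Assembly.torRepK W hΔ p k) b σ).det = z (N σ).det := fun σ => by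
    rw [(trace_det_matRho hΔ b σ).1, (trace_det_matRho hΔ b σ).2, galoisTrace_eq_toZMod hΔ,
      Lifting.det_tateMat]
    exact ⟨rfl, rfl⟩
  -- at a Frobenius element
  set s : k := ((Assembly.multSign W p : ℤ) : k)
  have hs : s * s = 1 := by
    show ((Assembly.multSign W p : ℤ) : k) * _ = 1
    rw [← Int.cast_mul, ← sq, Lifting.multSign_sq_p hΔ hW hbad, Int.cast_one]
  have hroot : ∀ F, P.IsFrobeniusAt F p →
      ι a = s ∨ ι a = z (ES.padCyclo p F) * s := by
    intro F hF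
    set Y : Matrix (Fin 2) (Fin 2) ℤ_[p] := U.1 * N F * (U⁻¹).1
    have h10 : Y 1 0 = 0 := (hD F hF.mem_decompositionSubgroup).1
    have h11 : Y 1 1 = (Assembly.multSign W p : ℤ_[p]) := hFr F hF
    have hdet : (N F).det = ES.padCyclo p F := Lifting.det_tateMat hΔ F
    have hY : Y.det = (N F).det := Matrix.det_units_conj U _
    have hYt : Y.trace = (N F).trace := Matrix.trace_units_conj U _
    rw [Matrix.det_fin_two, h10, mul_zero, sub_zero, h11, hdet] at hY
    rw [Matrix.trace_fin_two, h11] at hYt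
    have h := root_of_unit (dvd_mul_left p M) (fun h => hpM (Nat.dvd_of_mul_dvd_mul_right hp.out.pos
      (by rwa [← pow_two]))) A hAG hcyc hU (by rw [hθU, Ne, map_eq_zero]; exact hιa)
      h2R hpR hP hσ0 (wVal_cast_ne hpR h2R hσw).1 (wVal_cast_ne hpR h2R hσw).2 hF
    rw [hθU, show A.toHeckePart.θ (A.τ F) = residue k (A.M F).trace from congrArg _ (A.tr F),
      show A.toHeckePart.θ (A.d F) = residue k (A.M F).det from congrArg _ (A.det F), ← map_pow,
      ← map_mul, ← map_sub, ← map_add, map_eq_zero, hAM, (hch F).1, (hch F).2, hdet, ← hYt,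
      map_add, map_intCast] at h
    have e := congrArg z hY
    rw [map_mul, map_intCast] at e
    have h' : (ι a - s) * (ι a - z (ES.padCyclo p F) * s) = 0 := by
      linear_combination h + (ι a * s) * e + (z (ES.padCyclo p F) - ι a * z (Y 0 0)) * hs
    rcases mul_eq_zero.mp h' with h' | h'
    · exact Or.inl (sub_eq_zero.mp h')
    · exact Or.inr (sub_eq_zero.mp h')
  refine ⟨a, ha, (hι _).mp ?_⟩
  rw [map_sub, map_intCast, Lifting.frobVal_bad hbad]
  push_cast
  rw [CharP.cast_eq_zero, zero_add, mul_one, sub_eq_zero]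
  obtain ⟨F, hF⟩ := GaloisBasic.exists_isFrobeniusAt hp.out hP
  rcases hroot F hF with h | h
  · exact h
  rcases hroot _ (isFrobeniusAt_mul_inertia hF hσ0) with h' | h'
  · exact h'
  · exfalso
    rw [map_mul, map_mul, map_eq_natCast_of_mod z (CharP.cast_eq_zero k p)
      (toZModPow_padCyclo_eq_wVal σ0)] at h'
    refine (wVal_cast_ne (CharP.cast_eq_zero k p) h2k hσw).1 ?_
    have hne : z (ES.padCyclo p F) * s ≠ 0 := h ▸ hιa
    refine mul_left_cancel₀ hne ?_
    rw [mul_one]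
    linear_combination h - h'

end FermatAgent.PSEMI
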