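import Fermat.Agent.ES.Local.Small
import Fermat.Agent.ES.Coeff.Residue
import Fermat.Agent.ES.Coeff.Padic
import Fermat.Agent.Curve.Red.QExpansion

/-!
# Integral Laurent series over complete discrete valuation rings inside a place

`Fine K s`: all coefficients of `s` lie in one of the rings of `K`; such a series has a coefficient
of greatest absolute value and can be reduced.
-/

set_option autoImplicit false

open ModularCurve (coeffMap coeffMap_coeff)

noncomputable section

namespace FermatAgent.PSEMI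

open FermatAgent.ES FermatAgent.Curve.Red

variable {p : ℕ}

/-- Coefficient rings in a place whose residue field is algebraic over `𝔽_p`. -/
structure Coeffs (P : CPlace p) where
  /-- The complete discrete valuation ring attached to a finite set. -/
  R : Set ℂ → Subring ℂ
  mono : Monotone R
  spec : ∀ S : Set ℂ, S.Finite → S ⊆ P.ring → P.IsCDVR (R S) ∧ S ⊆ R S
  resFix : ∀ x : ResField P, ∃ n, 0 < n ∧ x ^ p ^ n = x

variable {P : CPlace p}

/-- The residue map of `P`. -/
abbrev rd : P.ring →+* ResField P := Ideal.Quotient.mk _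

/-- An integral element reduces to zero exactly if its absolute value is `< 1`. -/
theorem rd_eq_zero_iff {x : P.ring} : rd x = 0 ↔ P.abv (x : ℂ) < 1 :=
  Ideal.Quotient.eq_zero_iff_mem.trans ((mem_maxIdeal P).trans P.mem_maxBall)

/-- An integral element reduces to a nonzero element exactly if its absolute value is `1`. -/
theorem rd_ne_zero_iff {x : P.ring} : rd x ≠ 0 ↔ P.abv (x : ℂ) = 1 := by
  rw [Ne, rd_eq_zero_iff, not_lt]
  exact ⟨fun h => le_antisymm x.2 h, fun h => h.ge⟩

/-- A series over a ring is a series over every larger ring. -/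
theorem serIn_mono {A B : Subring ℂ} {s : LaurentSeries ℂ} (h : SerIn A s) (hAB : A ≤ B) :
    SerIn B s := fun k => hAB (h k)

/-! ### Fine series -/

/-- A series with coefficients in the ring of a finite set. -/
def Fine (K : Coeffs P) (s : LaurentSeries ℂ) : Prop :=
  ∃ S : Finset ℂ, (S : Set ℂ) ⊆ P.ring ∧ SerIn (K.R S) s

/-- The coefficient ring of a finite set is a complete discrete valuation ring. -/
theorem Coeffs.isCDVR (K : Coeffs P) {S : Finset ℂ} (hS : (S : Set ℂ) ⊆ P.ring) :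
    P.IsCDVR (K.R S) :=
  (K.spec _ S.finite_toSet hS).1

/-- The coefficient ring of a finite set contains it. -/
theorem Coeffs.subset (K : Coeffs P) {S : Finset ℂ} (hS : (S : Set ℂ) ⊆ P.ring) :
    (S : Set ℂ) ⊆ K.R S :=
  (K.spec _ S.finite_toSet hS).2

variable {K : Coeffs P} {s t : LaurentSeries ℂ}

/-- A fine series is integral. -/
theorem Fine.serIn (h : Fine K s) : SerIn P.ring s := by
  obtain ⟨S, hS, hs⟩ := h
  exact serIn_mono hs (K.isCDVR hS).le

/-- Two fine series have coefficients in a common coefficient ring. -/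
theorem Fine.common (hs : Fine K s) (ht : Fine K t) :
    ∃ S : Finset ℂ, (S : Set ℂ) ⊆ P.ring ∧ SerIn (K.R S) s ∧ SerIn (K.R S) t := by
  classical
  obtain ⟨S, hS, hs⟩ := hs
  obtain ⟨T, hT, ht⟩ := ht
  refine ⟨S ∪ T, by rw [Finset.coe_union]; exact Set.union_subset hS hT,
    serIn_mono hs (K.mono ?_), serIn_mono ht (K.mono ?_)⟩ <;> simp

/-- Sums of fine series are fine. -/
theorem Fine.add (hs : Fine K s) (ht : Fine K t) : Fine K (s + t) := by
  obtain ⟨S, hS, h1, h2⟩ := hs.common ht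
  exact ⟨S, hS, h1.add h2⟩

/-- Differences of fine series are fine. -/
theorem Fine.sub (hs : Fine K s) (ht : Fine K t) : Fine K (s - t) := by
  obtain ⟨S, hS, h1, h2⟩ := hs.common ht
  exact ⟨S, hS, h1.sub h2⟩

/-- Products of fine series are fine. -/
theorem Fine.mul (hs : Fine K s) (ht : Fine K t) : Fine K (s * t) := by
  obtain ⟨S, hS, h1, h2⟩ := hs.common ht
  exact ⟨S, hS, h1.mul h2⟩

/-- Powers of fine series are fine. -/
theorem Fine.pow (hs : Fine K s) (n : ℕ) : Fine K (s ^ n) := by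
  obtain ⟨S, hS, h1⟩ := hs
  exact ⟨S, hS, h1.pow n⟩

/-- Zero is fine. -/
theorem Fine.zero : Fine K (0 : LaurentSeries ℂ) :=
  ⟨∅, by simp, SerIn.zero⟩

/-- One is fine. -/
theorem Fine.one : Fine K (1 : LaurentSeries ℂ) :=
  ⟨∅, by simp, SerIn.one⟩

/-- Integral constants are fine. -/
theorem Fine.C {a : ℂ} (ha : a ∈ P.ring) : Fine K (HahnSeries.C a) :=
  ⟨{a}, by simpa using ha, SerIn.C (K.subset (by simpa using ha) (by simp))⟩

/-! ### Values in a complete discrete valuation ring -/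

variable {O : Subring ℂ}

/-- A uniformiser: every nonzero element of the ring is a unit times one of its powers. -/
theorem exists_unif (hO : P.IsCDVR O) : ∃ π : O, 0 < P.abv (π : ℂ) ∧ P.abv (π : ℂ) < 1 ∧
    ∀ x : O, (x : ℂ) ≠ 0 → ∃ i : ℕ, P.abv (x : ℂ) = P.abv (π : ℂ) ^ i ∧
      ∃ u : O, (x : ℂ) = u * (π : ℂ) ^ i ∧ P.abv (u : ℂ) = 1 := by
  have := hO.dvr
  obtain ⟨π, hπ⟩ := IsDiscreteValuationRing.exists_irreducible O
  refine ⟨π, P.abv.pos fun h => hπ.ne_zero (Subtype.ext h), ?_, fun x hx => ?_⟩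
  · exact lt_of_le_of_ne (hO.le π.2) fun h => hπ.not_isUnit ((hO.isUnit_iff π).mpr h)
  · obtain ⟨i, u, hu⟩ := IsDiscreteValuationRing.eq_unit_mul_pow_irreducible
      (fun h => hx (by rw [h]; rfl) : x ≠ 0) hπ
    have hu1 : P.abv ((u : O) : ℂ) = 1 := (hO.isUnit_iff _).mp u.isUnit
    refine ⟨i, ?_, u, ?_, hu1⟩
    · rw [hu, Subring.coe_mul, SubmonoidClass.coe_pow, map_mul, map_pow, hu1, one_mul]
    · rw [hu, Subring.coe_mul, SubmonoidClass.coe_pow]

/-- The values above a positive bound are finite in number. -/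
theorem finite_values (hO : P.IsCDVR O) {c : ℝ} (hc : 0 < c) :
    {r : ℝ | c ≤ r ∧ ∃ x ∈ O, P.abv x = r}.Finite := by
  obtain ⟨π, hπ0, hπ1, hval⟩ := exists_unif hO
  obtain ⟨N, hN⟩ := exists_pow_lt_of_lt_one hc hπ1
  refine ((Set.finite_Iio N).image fun i => P.abv (π : ℂ) ^ i).subset ?_
  rintro r ⟨hcr, x, hx, rfl⟩
  have hx0 : x ≠ 0 := fun h => by rw [h, map_zero] at hcr; linarith
  obtain ⟨i, hi, -⟩ := hval ⟨x, hx⟩ hx0
  refine ⟨i, ?_, hi.symm⟩
  by_contra hNi
  simp only [Set.mem_Iio, not_lt] at hNi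
  have := pow_le_pow_of_le_one hπ0.le hπ1.le hNi
  simp only at hi
  linarith

/-- A bound `< 1` for the maximal ideal. -/
theorem exists_lt_one_bound (hO : P.IsCDVR O) :
    ∃ ρ, 0 < ρ ∧ ρ < 1 ∧ ∀ x ∈ O, P.abv x < 1 → P.abv x ≤ ρ := by
  obtain ⟨π, hπ0, hπ1, hval⟩ := exists_unif hO
  refine ⟨_, hπ0, hπ1, fun x hx hlt => ?_⟩
  rcases eq_or_ne x 0 with rfl | hx0
  · simp [hπ0.le]
  obtain ⟨i, hi, -⟩ := hval ⟨x, hx⟩ hx0
  simp only at hi
  rcases Nat.eq_zero_or_pos i with rfl | hpos
  · rw [hi, pow_zero] at hlt; exact absurd hlt (lt_irrefl _)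
  · rw [hi]
    simpa using pow_le_pow_of_le_one hπ0.le hπ1.le hpos

/-- The quotient of an element by one of no smaller absolute value lies in the ring. -/
theorem div_mem_of_abv_le (hO : P.IsCDVR O) {x a : ℂ} (hx : x ∈ O) (ha : a ∈ O) (ha0 : a ≠ 0)
    (h : P.abv x ≤ P.abv a) : x / a ∈ O := by
  rcases eq_or_ne x 0 with rfl | hx0
  · simp [O.zero_mem]
  obtain ⟨π, hπ0, hπ1, hval⟩ := exists_unif hO
  obtain ⟨i, hi, u, hu, hu1⟩ := hval ⟨x, hx⟩ hx0
  obtain ⟨j, hj, v, hv, hv1⟩ := hval ⟨a, ha⟩ ha0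
  simp only at hi hj hu hv
  have hji : j ≤ i := by
    by_contra hlt
    have := pow_lt_pow_right_of_lt_one₀ hπ0 hπ1 (not_le.mp hlt)
    linarith
  have hπne : (π : ℂ) ≠ 0 := fun h0 => by rw [h0, map_zero] at hπ0; exact lt_irrefl _ hπ0
  have hvu := hO.unitIn v.2 hv1
  have e : x / a = u * (v : ℂ)⁻¹ * (π : ℂ) ^ (i - j) := by
    rw [hu, hv, ← pow_sub_mul_pow (π : ℂ) hji]
    have := hvu.1
    field_simp
  rw [e]
  exact O.mul_mem (O.mul_mem u.2 hvu.2.2) (O.pow_mem π.2 _)

/-- A nonzero series over the ring has a coefficient of greatest absolute value. -/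
theorem exists_max_coeff (hO : P.IsCDVR O) (hs : SerIn O s) (h0 : s ≠ 0) :
    ∃ n, s.coeff n ≠ 0 ∧ ∀ k, P.abv (s.coeff k) ≤ P.abv (s.coeff n) := by
  obtain ⟨n0, hn0⟩ : ∃ n, s.coeff n ≠ 0 := by
    by_contra h
    push Not at h
    exact h0 (HahnSeries.ext (funext h))
  set c := P.abv (s.coeff n0) with hc
  have hcpos : 0 < c := P.abv.pos hn0
  set T := {r : ℝ | c ≤ r ∧ ∃ k, P.abv (s.coeff k) = r}
  have hfin : T.Finite := (finite_values hO hcpos).subset fun r ⟨hr, k, hk⟩ => ⟨hr, _, hs k, hk⟩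
  obtain ⟨r, ⟨hr, n, hn⟩, hmax⟩ :=
    Set.exists_max_image T id hfin ⟨c, le_rfl, n0, rfl⟩
  refine ⟨n, fun h => by rw [h, map_zero] at hn; linarith, fun k => ?_⟩
  rw [hn]
  rcases le_or_gt c (P.abv (s.coeff k)) with h | h
  · exact hmax _ ⟨h, k, rfl⟩
  · linarith

/-- Extracting the content. -/
theorem exists_content (hO : P.IsCDVR O) (hs : SerIn O s) (h0 : s ≠ 0) :
    ∃ a ∈ O, a ≠ 0 ∧ ∃ s', SerIn O s' ∧ P.UnitCoeff s' ∧ s = HahnSeries.C a * s' ∧
      P.SerLE (P.abv a) s := by
  obtain ⟨n, hn, hmax⟩ := exists_max_coeff hO hs h0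
  refine ⟨_, hs n, hn, HahnSeries.C (s.coeff n)⁻¹ * s, fun k => ?_, ⟨n, ?_⟩, ?_, hmax⟩
  · rw [HahnSeries.C_apply, HahnSeries.coeff_single_mul, sub_zero, inv_mul_eq_div]
    exact div_mem_of_abv_le hO (hs k) (hs n) hn (hmax k)
  · rw [HahnSeries.C_apply, HahnSeries.coeff_single_mul, sub_zero, inv_mul_cancel₀ hn, map_one]
  · rw [← mul_assoc, ← map_mul, mul_inv_cancel₀ hn, map_one, one_mul]

/-- The series over the ring with all coefficients of absolute value `< 1` have a common bound `<
1`. -/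
theorem exists_serLE_of_serLT (hO : P.IsCDVR O) :
    ∃ ρ, 0 < ρ ∧ ρ < 1 ∧ ∀ {s : LaurentSeries ℂ}, SerIn O s → P.SerLT s → P.SerLE ρ s := by
  obtain ⟨ρ, h0, h1, h⟩ := exists_lt_one_bound hO
  exact ⟨ρ, h0, h1, fun hs hlt n => h _ (hs n) (hlt n)⟩

/-! ### Reduction -/

open Classical in
/-- The reduction of a series (zero when it is not integral). -/
def red (s : LaurentSeries ℂ) : LaurentSeries (ResField P) :=
  if h : SerIn P.ring s then coeffMap rd (liftSer P.ring ⟨s, h⟩) else 0

/-- The coefficients of a reduced series are the residues of the coefficients. -/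
theorem coeff_red (h : SerIn P.ring s) (n : ℤ) :
    (red (P := P) s).coeff n = rd ⟨s.coeff n, h n⟩ := by
  rw [red, dif_pos h, coeffMap_coeff]
  rfl

theorem red_eq_hom (h : SerIn P.ring s) :
    red (P := P) s = ((coeffMap rd).comp (liftSer P.ring)) ⟨s, h⟩ := by
  rw [red, dif_pos h]; rfl

/-- Reduction is additive. -/
theorem red_add (hs : SerIn P.ring s) (ht : SerIn P.ring t) :
    red (P := P) (s + t) = red s + red t := by
  rw [red_eq_hom (hs.add ht), red_eq_hom hs, red_eq_hom ht, ← map_add]; rfl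

/-- The reduction of a difference is the difference of the reductions. -/
theorem red_sub (hs : SerIn P.ring s) (ht : SerIn P.ring t) :
    red (P := P) (s - t) = red s - red t := by
  rw [red_eq_hom (hs.sub ht), red_eq_hom hs, red_eq_hom ht, ← map_sub]; rfl

/-- Reduction is multiplicative. -/
theorem red_mul (hs : SerIn P.ring s) (ht : SerIn P.ring t) :
    red (P := P) (s * t) = red s * red t := by
  rw [red_eq_hom (hs.mul ht), red_eq_hom hs, red_eq_hom ht, ← map_mul]; rfl

/-- The reduction of a power is the power of the reduction. -/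
theorem red_pow (hs : SerIn P.ring s) (n : ℕ) : red (P := P) (s ^ n) = red s ^ n := by
  rw [red_eq_hom (hs.pow n), red_eq_hom hs, ← map_pow]; rfl

/-- Zero reduces to zero. -/
theorem red_zero : red (P := P) 0 = 0 := by
  rw [red_eq_hom (SerIn.zero (A := P.ring))]
  exact map_zero _

/-- One reduces to one. -/
theorem red_one : red (P := P) 1 = 1 := by
  rw [red_eq_hom (SerIn.one (A := P.ring))]
  exact map_one _

/-- A constant reduces to its residue. -/
theorem red_C {a : ℂ} (ha : a ∈ P.ring) :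
    red (P := P) (HahnSeries.C a) = HahnSeries.C (rd ⟨a, ha⟩) := by
  ext n
  rw [coeff_red (SerIn.C ha)]
  rcases eq_or_ne n 0 with rfl | hn
  · simp
  · rw [rd_eq_zero_iff.mpr (by simp [hn]), HahnSeries.C_apply, HahnSeries.coeff_single_of_ne hn]

/-- An integral series reduces to zero exactly if all coefficients have absolute value `< 1`. -/
theorem red_eq_zero_iff (hs : SerIn P.ring s) : red (P := P) s = 0 ↔ P.SerLT s := by
  rw [HahnSeries.ext_iff, funext_iff]
  simp only [coeff_red hs, HahnSeries.coeff_zero, rd_eq_zero_iff]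
  rfl

/-- Two integral series have the same reduction exactly if their difference reduces to zero. -/
theorem red_eq_red_iff (hs : SerIn P.ring s) (ht : SerIn P.ring t) :
    red (P := P) s = red t ↔ P.SerLT (s - t) := by
  rw [← sub_eq_zero, ← red_sub hs ht, red_eq_zero_iff (hs.sub ht)]

/-- An integral series has nonzero reduction exactly if some coefficient has absolute value `1`. -/
theorem red_ne_zero_iff (hs : SerIn P.ring s) : red (P := P) s ≠ 0 ↔ P.UnitCoeff s := by
  rw [Ne, red_eq_zero_iff hs]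
  refine ⟨fun h => ?_, fun h hlt => ?_⟩
  · by_contra h'
    exact h (CPlace.serLT_of_not_unitCoeff hs h')
  · obtain ⟨n, hn⟩ := h
    exact (hlt n).ne hn

/-- The image of a coefficient ring in the residue field. -/
def resImage (hO : P.IsCDVR O) : Subfield (ResField P) where
  toSubring := (rd.comp (Subring.inclusion hO.le)).range
  inv_mem' x hx := by
    obtain ⟨a, rfl⟩ := hx
    rcases eq_or_ne (rd (Subring.inclusion hO.le a)) 0 with h | h
    · exact ⟨0, by simp [h]⟩
    · obtain ⟨u, hu⟩ := (hO.isUnit_iff a).mpr (rd_ne_zero_iff.mp h)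
      refine ⟨((u⁻¹ : Oˣ) : O), eq_inv_of_mul_eq_one_left ?_⟩
      show (rd.comp (Subring.inclusion hO.le)) _ * (rd.comp (Subring.inclusion hO.le)) a = 1
      rw [← hu, ← map_mul, Units.inv_mul, map_one]

/-- The members of the residual image are the residues of the elements of the ring. -/
theorem mem_resImage (hO : P.IsCDVR O) {x : ResField P} :
    x ∈ resImage hO ↔ ∃ a : O, rd (Subring.inclusion hO.le a) = x := Iff.rfl

/-- The reduction of a series over the ring has coefficients in the residual image. -/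
theorem coeff_red_mem (hO : P.IsCDVR O) (hs : SerIn O s) (n : ℤ) :
    (red (P := P) s).coeff n ∈ resImage hO := by
  rw [coeff_red (serIn_mono hs hO.le)]
  exact ⟨⟨_, hs n⟩, rfl⟩

/-- The residual image is closed under `p`-th roots. -/
theorem mem_resImage_of_pow (K : Coeffs P) (hO : P.IsCDVR O) {x : ResField P}
    (h : x ^ p ∈ resImage hO) : x ∈ resImage hO := by
  obtain ⟨n, hn, hx⟩ := K.resFix x
  obtain ⟨k, rfl⟩ : ∃ k, n = k + 1 := ⟨n - 1, by omega⟩
  rw [pow_succ', pow_mul] at hx
  rw [← hx]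
  exact pow_mem h _

/-- A series with coefficients in the residual image lifts to a series over the ring. -/
theorem exists_lift (hO : P.IsCDVR O) {h : LaurentSeries (ResField P)}
    (hh : ∀ n, h.coeff n ∈ resImage hO) :
    ∃ s, SerIn O s ∧ red (P := P) s = h ∧ ∀ n, h.coeff n = 0 → s.coeff n = 0 := by
  classical
  choose a ha using fun n => (mem_resImage hO).mp (hh n)
  let c : ℤ → O := fun n => if h.coeff n = 0 then 0 else a n
  let s : LaurentSeries ℂ := ⟨fun n => (c n : ℂ), h.isPWO_support.mono fun n hn hz => hn (by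
    simp only [c, hz, if_true]; rfl)⟩
  have hs : SerIn O s := fun n => (c n).2
  refine ⟨s, hs, HahnSeries.ext (funext fun n => ?_), fun n hn => ?_⟩
  · rw [coeff_red (serIn_mono hs hO.le)]
    show rd (Subring.inclusion hO.le (c n)) = _
    simp only [c]
    split_ifs with hz
    · simp [hz]
    · exact ha n
  · show (c n : ℂ) = 0
    simp only [c, if_pos hn]; rfl

/-- Approximate inverses. -/
theorem exists_invApprox (hO : P.IsCDVR O) (hs : SerIn O s) (hu : P.UnitCoeff s) {ε : ℝ}
    (hε : 0 < ε) : ∃ w, SerIn O w ∧ P.SerLE ε (s * w - 1) ∧ (ε < 1 → P.UnitCoeff w) := by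
  classical
  set F := resImage hO
  have hs' := serIn_mono hs hO.le
  set r : LaurentSeries F := ⟨fun n => ⟨_, coeff_red_mem hO hs n⟩,
    (red (P := P) s).isPWO_support.mono fun n hn hz => hn (Subtype.ext hz)⟩
  have hr : coeffMap F.subtype r = red (P := P) s := HahnSeries.ext (funext fun n => rfl)
  obtain ⟨w0, hw0, hw0r, -⟩ := exists_lift hO (h := coeffMap F.subtype r⁻¹) fun n => by
    rw [coeffMap_coeff]; exact (r⁻¹.coeff n).2
  have hw0' := serIn_mono hw0 hO.le
  have hne : red (P := P) s ≠ 0 := (red_ne_zero_iff hs').mpr hu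
  have hlt : P.SerLT (1 - s * w0) := by
    rw [← red_eq_red_iff SerIn.one (hs'.mul hw0'), red_one, red_mul hs' hw0', hw0r, map_inv₀, hr,
      mul_inv_cancel₀ hne]
  obtain ⟨ρ, hρ0, hρ1, hρ⟩ := exists_serLE_of_serLT hO
  have hle := hρ (SerIn.one.sub (hs.mul hw0)) hlt
  obtain ⟨N, hN⟩ := exists_pow_lt_of_lt_one hε hρ1
  set e := 1 - s * w0 with he
  refine ⟨w0 * ∑ i ∈ Finset.range N, e ^ i,
    hw0.mul (SerIn.sum _ fun i _ => (SerIn.one.sub (hs.mul hw0)).pow i), ?_, fun hε1 => ?_⟩
  · have e1 : s * (w0 * ∑ i ∈ Finset.range N, e ^ i) - 1 = -(e ^ N) := by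
      have := mul_geom_sum (x := e) (n := N)
      linear_combination (-1 : LaurentSeries ℂ) * this - (∑ i ∈ Finset.range N, e ^ i) * he
    rw [e1]
    refine CPlace.SerLE.neg (CPlace.SerLE.mono ?_ hN.le)
    clear hN e1
    induction N with
    | zero => simpa [CPlace.serLE_one_iff] using SerIn.one (A := P.ring)
    | succ k ih => rw [pow_succ, pow_succ]; exact ih.mul (by positivity) hρ0.le hle
  · have hw : SerIn P.ring (w0 * ∑ i ∈ Finset.range N, e ^ i) :=
      serIn_mono (hw0.mul (SerIn.sum _ fun i _ => (SerIn.one.sub (hs.mul hw0)).pow i)) hO.le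
    rw [← red_ne_zero_iff hw]
    intro hz
    have h1 : P.SerLT (s * (w0 * ∑ i ∈ Finset.range N, e ^ i) - 1) := by
      have e1 : s * (w0 * ∑ i ∈ Finset.range N, e ^ i) - 1 = -(e ^ N) := by
        have := mul_geom_sum (x := e) (n := N)
        linear_combination (-1 : LaurentSeries ℂ) * this - (∑ i ∈ Finset.range N, e ^ i) * he
      rw [e1]
      have hNpos : N ≠ 0 := fun h0 => by subst h0; rw [pow_zero] at hN; linarith
      have hle' : P.SerLE (ρ ^ N) (e ^ N) := by
        clear hN e1 hz hw hNpos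
        induction N with
        | zero => simpa [CPlace.serLE_one_iff] using SerIn.one (A := P.ring)
        | succ k ih => rw [pow_succ, pow_succ]; exact ih.mul (by positivity) hρ0.le hle
      intro n
      exact (hle'.neg n).trans_lt (pow_lt_one₀ hρ0.le hρ1 hNpos)
    rw [← red_eq_red_iff (hs'.mul hw) SerIn.one, red_one, red_mul hs' hw, hz, mul_zero] at h1
    exact zero_ne_one h1

/-- A fine series with a unit coefficient has fine inverses up to every `ε`. -/
theorem Fine.exists_invApprox (hs : Fine K s) (hu : P.UnitCoeff s) {ε : ℝ} (hε : 0 < ε)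
    (hε1 : ε < 1) : ∃ w, Fine K w ∧ P.UnitCoeff w ∧ P.SerLE ε (s * w - 1) := by
  obtain ⟨S, hS, h⟩ := hs
  obtain ⟨w, hw, hle, huw⟩ := PSEMI.exists_invApprox (K.isCDVR hS) h hu hε
  exact ⟨w, ⟨S, hS, hw⟩, huw hε1, hle⟩

/-- A fine series with all coefficients of absolute value `< 1` has a bound `< 1`. -/
theorem Fine.exists_serLE_lt_one (hs : Fine K s) (h : P.SerLT s) :
    ∃ ρ, 0 < ρ ∧ ρ < 1 ∧ P.SerLE ρ s := by
  obtain ⟨S, hS, hin⟩ := hs
  obtain ⟨ρ, h0, h1, hρ⟩ := exists_serLE_of_serLT (K.isCDVR hS)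
  exact ⟨ρ, h0, h1, hρ hin h⟩

end FermatAgent.PSEMI
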