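import Fermat.Agent.ES.Ring.Order
import Fermat.Agent.ES.Ring.Basic
import Fermat.Agent.Curve.JFun
import Mathlib.Analysis.Complex.UpperHalfPlane.Manifold

/-!
# Quotients of holomorphic functions on the upper half plane

A periodic quotient of holomorphic functions has the quotient of their expansions as expansion.
-/

set_option autoImplicit false

open UpperHalfPlane Filter Topology
open scoped MatrixGroups Manifold

noncomputable section

namespace FermatAgent.PSEMI

open FermatAgent.ES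

/-- The vanishing order of a translate `f ∣ γ` at `τ` is that of `f` at `γ τ`. -/
theorem vanishOrd_act (γ : SL(2, ℤ)) (f : ℍ → ℂ) (τ : ℍ) :
    vanishOrd (act γ f) τ = vanishOrd f (γ • τ) := by
  set g : GL (Fin 2) ℝ := (γ : GL (Fin 2) ℝ) with hg
  have hdet : 0 < g.val.det := by
    have e : g.val.det = 1 :=
      Matrix.SpecialLinearGroup.det_coe ((Matrix.SpecialLinearGroup.map (Int.castRingHom ℝ)) γ)
    rw [e]; exact one_pos
  set G : ℂ → ℂ := fun w => ((g • ofComplex w : ℍ) : ℂ) with hG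
  have hd := hasStrictDerivAt_smul hdet τ
  have hGa : AnalyticAt ℂ G (τ : ℂ) := by
    refine (DifferentiableOn.analyticAt (s := {z : ℂ | 0 < z.im}) ?_
      (isOpen_upperHalfPlaneSet.mem_nhds τ.im_pos))
    intro w hw
    exact (hasStrictDerivAt_smul hdet ⟨w, hw⟩).hasDerivAt.differentiableAt.differentiableWithinAt
  have hd0 : deriv G (τ : ℂ) ≠ 0 := by
    rw [hd.hasDerivAt.deriv]
    exact div_ne_zero (Complex.ofReal_ne_zero.mpr hdet.ne')
      (pow_ne_zero 2 (denom_ne_zero _ _))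
  have e0 : G (τ : ℂ) = ((γ • τ : ℍ) : ℂ) := by
    show ((g • ofComplex (τ : ℂ) : ℍ) : ℂ) = _
    rw [ofComplex_apply]
    rfl
  show analyticOrderAt _ _ = analyticOrderAt _ _
  rw [← e0, ← analyticOrderAt_comp_of_deriv_ne_zero hGa hd0]
  refine analyticOrderAt_congr (Eventually.of_forall fun w => ?_)
  show f (γ • ofComplex w) = f (ofComplex ((g • ofComplex w : ℍ) : ℂ))
  rw [ofComplex_apply]
  rfl

/-- Division of holomorphic functions with compatible zeros. -/
theorem exists_quotient {u z : ℍ → ℂ} (hu : MDiff u) (hz : MDiff z) (hz0 : z ≠ 0)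
    (hord : ∀ τ, vanishOrd z τ ≤ vanishOrd u τ) : ∃ q : ℍ → ℂ, MDiff q ∧ u = q * z := by
  classical
  set U := u ∘ ofComplex
  set Z := z ∘ ofComplex
  set G : ℂ → ℂ := fun w => limUnder (𝓝[≠] w) fun x => U x / Z x with hGdef
  have key : ∀ τ : ℍ, AnalyticAt ℂ G (τ : ℂ) ∧ u τ = G (τ : ℂ) * z τ := by
    intro τ
    set w0 : ℂ := (τ : ℂ)
    obtain ⟨n, hn⟩ := ENat.ne_top_iff_exists.mp (vanishOrd_ne_top hz hz0 τ)
    obtain ⟨gZ, hgZ, hgZ0, hZeq⟩ :=
      (analyticAt_of_mdiff hz τ).analyticOrderAt_eq_natCast.mp hn.symm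
    obtain ⟨gU, hgU, hUeq⟩ :=
      (natCast_le_analyticOrderAt (analyticAt_of_mdiff hu τ)).mp (hn ▸ hord τ)
    set H : ℂ → ℂ := fun x => gU x / gZ x
    have hH : AnalyticAt ℂ H w0 := hgU.div hgZ hgZ0
    obtain ⟨V, hV, hVo, hmem⟩ := _root_.eventually_nhds_iff.mp
      ((hZeq.and hUeq).and ((hgZ.continuousAt.eventually_ne hgZ0).and
        hH.eventually_continuousAt))
    have hGV : ∀ x ∈ V, G x = H x := by
      intro x hx
      refine Tendsto.limUnder_eq ?_
      refine ((hV x hx).2.2.tendsto.mono_left nhdsWithin_le_nhds).congr' ?_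
      have hne : ∀ᶠ y in 𝓝[≠] x, y ≠ w0 := by
        rcases eq_or_ne x w0 with rfl | hxw
        · exact eventually_mem_nhdsWithin
        · exact eventually_nhdsWithin_of_eventually_nhds (isOpen_ne.mem_nhds hxw)
      filter_upwards [eventually_nhdsWithin_of_eventually_nhds (hVo.mem_nhds hx), hne]
        with y hy hyw
      obtain ⟨⟨hZ, hU⟩, -, -⟩ := hV y hy
      show gU y / gZ y = U y / Z y
      rw [show Z y = _ from hZ, show U y = _ from hU, smul_eq_mul, smul_eq_mul,
        mul_div_mul_left _ _ (pow_ne_zero n (sub_ne_zero.mpr hyw))]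
    refine ⟨hH.congr (mem_of_superset (hVo.mem_nhds hmem) fun x hx => (hGV x hx).symm), ?_⟩
    obtain ⟨⟨hZ, hU⟩, hne, -⟩ := hV w0 hmem
    rw [hGV w0 hmem, show u τ = U w0 by simp [U, w0, ofComplex_apply],
      show z τ = Z w0 by simp [Z, w0, ofComplex_apply], show Z w0 = _ from hZ,
      show U w0 = _ from hU, smul_eq_mul, smul_eq_mul]
    simp only [H]
    field_simp
  refine ⟨fun τ => G (τ : ℂ), ?_, funext fun τ => (key τ).2⟩
  rw [UpperHalfPlane.mdifferentiable_iff]
  intro w hw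
  refine ((key ⟨w, hw⟩).1.differentiableAt.congr_of_eventuallyEq ?_).differentiableWithinAt
  filter_upwards [isOpen_upperHalfPlaneSet.mem_nhds hw] with x hx
  simp [ofComplex_apply_of_im_pos hx]

/-- An expansion for a quotient. -/
theorem exists_hasLExp_quotient {d : ℕ} [NeZero d] {q z : ℍ → ℂ} (hq : MDiff q)
    (hper : ∀ τ : ℍ, q ((d : ℝ) +ᵥ τ) = q τ) {s t : LaurentSeries ℂ} (hz : HasLExp d z s)
    (hs : s ≠ 0) (hqz : HasLExp d (q * z) t) : ∃ r, HasLExp d q r ∧ r * s = t := by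
  obtain ⟨k, c, hc, hsc⟩ := id hz
  obtain ⟨l, e, he, -⟩ := id hqz
  have hc0 : c ≠ 0 := fun h => hs (by simp [hsc, h])
  set o := c.order.toNat
  set c' := c.divXPowOrder
  have hdec : c = PowerSeries.X ^ o * c' := PowerSeries.X_pow_order_mul_divXPowOrder.symm
  have hc'0 : PowerSeries.constantCoeff c' ≠ 0 :=
    fun h0 => hc0 (PowerSeries.constantCoeff_divXPowOrder_eq_zero_iff.mp h0)
  set B : ℍ → ℂ := fun τ => qm d τ ^ k * z τ / qm d τ ^ o
  have hB : Tendsto B atImInfty (𝓝 (PowerSeries.constantCoeff c')) :=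
    (hc.div_qm hdec).tendsto_atImInfty
  set A : ℍ → ℂ := fun τ => qm d τ ^ l * (q * z) τ
  have hAb : IsBoundedAtImInfty A := he.isBounded
  have hqk : IsBoundedAtImInfty (fun τ => qm d τ ^ k) := (HasExp.qm_pow (M := d) k).isBounded
  have hbdd : IsBoundedAtImInfty (fun τ => qm d τ ^ (l + o) * q τ) := by
    have h1 : IsBoundedAtImInfty B⁻¹ := (hB.inv₀ hc'0).isBigO_one ℝ
    have h2 := (hAb.mul hqk).mul h1
    refine h2.congr' ?_ Filter.EventuallyEq.rfl
    filter_upwards [hB.eventually_ne hc'0] with τ hτ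
    have hz0 : z τ ≠ 0 := fun h0 => hτ (by simp [B, h0])
    simp only [Pi.mul_apply, Pi.inv_apply, A, B]
    field_simp [qm_ne_zero]
    ring
  have hperf : Function.Periodic ((fun τ => qm d τ ^ (l + o) * q τ) ∘ ofComplex) (d : ℝ) := by
    refine Curve.periodic_comp_ofComplex_of_vadd fun τ => ?_
    rw [hper τ]
    congr 2
    simp only [qm, UpperHalfPlane.coe_vadd]
    rw [add_comm]
    exact qParam_add_period d (τ : ℂ)
  have hmd : MDiff (fun τ => qm d τ ^ (l + o) * q τ) :=
    (HasExp.qm_pow (M := d) (l + o)).mdifferentiable.mul hq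
  have h := HasExp.exists_of_bounded hperf hmd hbdd
  refine ⟨_, ⟨_, _, h, rfl⟩, ?_⟩
  exact (HasLExp.mul (M := d) ⟨_, _, h, rfl⟩ hz).series_unique hqz

end FermatAgent.PSEMI
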