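import Fermat.Agent.PSEMI.Good
import Mathlib.NumberTheory.ModularForms.Basic

/-!
# Dimensions of spaces of twisted functions

For `φ` of exponent `p`, multiplication by one twisted function and the inequality between zeros
and poles show that the twisted functions with bounded poles fill at least the dimension of
the invariant ones.
-/

set_option autoImplicit false

open UpperHalfPlane
open scoped MatrixGroups Manifold
open FermatAgent.Curve (SGE)

noncomputable section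

namespace FermatAgent.PSEMI

open FermatAgent.ES FermatAgent.Curve.Red

variable {p : ℕ} {P : CPlace p}

/-- Translates of holomorphic functions are holomorphic. -/
theorem mdiff_act {f : ℍ → ℂ} (hf : MDiff f) (γ : SL(2, ℤ)) : MDiff (act γ f) := by
  rw [← slash_zero_eq_act]
  exact hf.slash 0 _

/-- Translates of nonzero functions are nonzero. -/
theorem act_ne_zero {f : ℍ → ℂ} (hf : f ≠ 0) (γ : SL(2, ℤ)) : act γ f ≠ 0 := fun h => hf (by
  have h2 := congrArg (act γ⁻¹) h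
  rwa [← act_mul, mul_inv_cancel, act_one, act_zeroFun] at h2)

/-- Cancellation for holomorphic functions. -/
theorem eq_of_mul_eq_mul {f g z : ℍ → ℂ} (hf : MDiff f) (hg : MDiff g) (hz : MDiff z) (hz0 : z ≠ 0)
    (h : f * z = g * z) : f = g := by
  rw [← sub_eq_zero]
  by_contra hne
  exact mul_ne_zero_of_mdiff hz (hf.sub hg) hne hz0 (by rw [sub_mul, h, sub_self])

namespace Model

variable {D : Model} {K : Coeffs P} {φ ψ : D.Γ →* ℂˣ}

/-- Products of parabolic characters are parabolic. -/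
theorem isParChar_mul (hφ : IsParChar D.Γ φ) (hψ : IsParChar D.Γ ψ) : IsParChar D.Γ (φ * ψ) :=
  fun γ hγ => by rw [MonoidHom.mul_apply, hφ γ hγ, hψ γ hγ, one_mul]

theorem pow_succ_char (φ : D.Γ →* ℂˣ) (i : ℕ) : φ ^ (i + 1) = φ ^ i * φ :=
  MonoidHom.ext fun γ => by simp [pow_succ]

theorem vanishOrd_smul_point {u : ℍ → ℂ} (hu : u ∈ D.Tw φ) (γ : D.Γ) (τ : ℍ) :
    vanishOrd u ((γ : SL(2, ℤ)) • τ) = vanishOrd u τ := by
  rw [← vanishOrd_act, hu.1 γ]
  have e : (φ γ : ℂ) • u = (fun _ : ℍ => (φ γ : ℂ)) * u := funext fun _ => rfl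
  rw [e, vanishOrd_mul mdifferentiable_const (mdiff_of_mem hu),
    (vanishOrd_eq_zero mdifferentiable_const).mpr (φ γ).ne_zero, zero_add]

/-- A finite set of inequivalent points containing a representative of every zero. -/
theorem Good.exists_zeros (G : D.Good K) [hp : Fact p.Prime] (hφ : IsParChar D.Γ φ)
    (hφp : φ ^ p = 1) {z : ℍ → ℂ} (hz : z ∈ D.Tw φ) (hz0 : z ≠ 0) :
    ∃ Z : Finset ℍ, D.Apart Z ∧
      (∀ τ, vanishOrd z τ ≠ 0 → ∃ σ ∈ Z, ∃ γ : D.Γ, (γ : SL(2, ℤ)) • σ = τ) ∧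
      ((∑ τ ∈ Z, (vanishOrd z τ).toNat : ℕ) : ℤ) + ∑ c, (D.E c z).order ≤ 0 := by
  classical
  have hy := pow_mem_fun hz hφp
  have hzm := mdiff_of_mem hz
  have hy0 : z ^ p ≠ 0 := fun h => hz0 (funext fun τ =>
    (pow_eq_zero_iff hp.out.ne_zero).mp (congrFun h τ))
  have hbound : ∀ Z : Finset ℍ, D.Apart Z →
      ((∑ τ ∈ Z, (vanishOrd z τ).toNat : ℕ) : ℤ) + ∑ c, (D.E c z).order ≤ 0 := by
    intro Z hZ
    have h := G.val _ hy hy0 Z hZ
    simp only [vanishOrd_pow hzm, nsmul_eq_mul, ENat.toNat_mul, ENat.toNat_natCast,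
      ← Finset.mul_sum, E_pow hφ hz, Curve.order_pow, Nat.cast_mul] at h
    rw [← mul_add] at h
    exact nonpos_of_mul_nonpos_right h (by exact_mod_cast hp.out.pos) |>.trans le_rfl
  set Q : Finset ℍ → Prop := fun Z => D.Apart Z ∧ ∀ τ ∈ Z, vanishOrd z τ ≠ 0
  have hcard : ∀ Z, Q Z → Z.card ≤ (-∑ c, (D.E c z).order).toNat := by
    intro Z hZ
    have h1 := hbound Z hZ.1
    have h2 : Z.card ≤ ∑ τ ∈ Z, (vanishOrd z τ).toNat := by
      rw [Finset.card_eq_sum_ones]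
      refine Finset.sum_le_sum fun τ hτ => Nat.one_le_iff_ne_zero.mpr fun h => ?_
      rcases ENat.toNat_eq_zero.mp h with h' | h'
      · exact hZ.2 τ hτ h'
      · exact vanishOrd_ne_top hzm hz0 τ h'
    omega
  have hex : ∃ m, ∀ Z, Q Z → Z.card ≤ m := ⟨_, hcard⟩
  obtain ⟨Z, hZ, hmax⟩ : ∃ Z, Q Z ∧ ∀ Z', Q Z' → Z'.card ≤ Z.card := by
    have hne : ∃ Z, Q Z := ⟨∅, by simp [Apart], by simp⟩
    obtain ⟨Z0, hZ0⟩ := hne
    set S := {k | ∃ Z, Q Z ∧ Z.card = k}
    have hS : S.Finite := (Set.finite_Iic _).subset fun k ⟨Z, hZ, hk⟩ => hk ▸ hcard Z hZ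
    obtain ⟨k, ⟨Z, hZ, hk⟩, hmax⟩ := Set.exists_max_image S id hS ⟨_, Z0, hZ0, rfl⟩
    exact ⟨Z, hZ, fun Z' hZ' => hk ▸ hmax _ ⟨Z', hZ', rfl⟩⟩
  refine ⟨Z, hZ.1, fun τ hτ => ?_, hbound Z hZ.1⟩
  by_contra hno
  push Not at hno
  have hnot : τ ∉ Z := fun hmem => hno τ hmem 1 (by simp)
  have hQ : Q (insert τ Z) := by
    refine ⟨?_, fun σ hσ => ?_⟩
    · intro a ha b hb γ hγ
      rcases Finset.mem_insert.mp ha with rfl | ha' <;>
        rcases Finset.mem_insert.mp hb with rfl | hb'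
      · rfl
      · exact absurd (by rw [← hγ, Subgroup.coe_inv, inv_smul_smul]) (hno b hb' γ⁻¹)
      · exact absurd hγ (hno a ha' γ)
      · exact hZ.1 a ha' b hb' γ hγ
    · rcases Finset.mem_insert.mp hσ with rfl | hσ'
      · exact hτ
      · exact hZ.2 σ hσ'
  have := hmax _ hQ
  rw [Finset.card_insert_of_notMem hnot] at this
  omega

/-- The quotient by `z` of a twisted function vanishing where `z` does. -/
theorem exists_div (hlev : CongruenceSubgroup.Gamma D.lev ≤ D.Γ)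
    {z : ℍ → ℂ} (hz : z ∈ D.Tw φ) (hz0 : z ≠ 0) {u : ℍ → ℂ}
    (hu : u ∈ D.Tw (ψ * φ)) (hord : ∀ τ, vanishOrd z τ ≤ vanishOrd u τ) :
    ∃ q ∈ D.Tw ψ, u = q * z := by
  obtain ⟨q, hq, e⟩ := exists_quotient (mdiff_of_mem hu) (mdiff_of_mem hz) hz0 hord
  have hzm := mdiff_of_mem hz
  refine ⟨q, ⟨fun γ => ?_, fun γ => ?_⟩, e⟩
  · have h := hu.1 γ
    rw [e, act_mulFun, hz.1 γ, MonoidHom.mul_apply, Units.val_mul] at h
    refine eq_of_mul_eq_mul (mdiff_act hq _) ?_ hzm hz0 ?_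
    · exact mdifferentiable_const.mul hq
    funext τ
    have h' := congrFun h τ
    simp only [Pi.mul_apply, Pi.smul_apply, smul_eq_mul] at h' ⊢
    refine mul_left_cancel₀ (φ γ).ne_zero ?_
    linear_combination h'
  · obtain ⟨s, hs⟩ := hz.2 γ
    obtain ⟨t, ht⟩ := hu.2 γ
    rw [e, act_mulFun] at ht
    have hs0 : s ≠ 0 := fun h0 => act_ne_zero hz0 γ
      (by rw [h0] at hs; exact hs.eq_of_series HasLExp.zero)
    set g : D.Γ := ⟨γ * ModularGroup.T ^ D.lev * γ⁻¹,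
      hlev ((CongruenceSubgroup.Gamma_normal D.lev).conj_mem _
      (by rw [CongruenceSubgroup.Gamma_mem, T_pow_coe]; simp) γ)⟩
    have hper : act (ModularGroup.T ^ D.lev) (act γ q) = act γ q := by
      refine eq_of_mul_eq_mul (mdiff_act (mdiff_act hq _) _) (mdiff_act hq _) (mdiff_act hzm γ)
        (act_ne_zero hz0 γ) ?_
      have h1 : act (ModularGroup.T ^ D.lev) (act γ z) = act γ z :=
        funext fun τ => by rw [act_T_pow]; exact hs.periodic τ
      have h2 : act (ModularGroup.T ^ D.lev) (act γ q * act γ z) = act γ q * act γ z :=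
        funext fun τ => by rw [act_T_pow]; exact ht.periodic τ
      calc act (ModularGroup.T ^ D.lev) (act γ q) * act γ z
          = act (ModularGroup.T ^ D.lev) (act γ q) * act (ModularGroup.T ^ D.lev) (act γ z) := by
            rw [h1]
        _ = act γ q * act γ z := by rw [← act_mulFun, h2]
    obtain ⟨r, hr, -⟩ := exists_hasLExp_quotient (mdiff_act hq γ) (fun τ => by
      have := congrFun hper τ
      rwa [act_T_pow] at this) hs hs0 ht
    exact ⟨r, hr⟩

theorem Good.finrank_succ_le (G : D.Good K) [hp : Fact p.Prime]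
    (hlev : CongruenceSubgroup.Gamma D.lev ≤ D.Γ)
    (hφ : IsParChar D.Γ φ) (hφp : φ ^ p = 1) {z : ℍ → ℂ} (hz : z ∈ D.Tw φ) (hz0 : z ≠ 0)
    {n0 : ℕ} (hzn : ∀ c, SGE (-(n0 : ℤ)) (D.E c z)) {Z : Finset ℍ}
    (hZ : ∀ τ, vanishOrd z τ ≠ 0 → ∃ σ ∈ Z, ∃ γ : D.Γ, (γ : SL(2, ℤ)) • σ = τ)
    (hψ : IsParChar D.Γ ψ) (hψp : ψ ^ p = 1) {χ : D.Γ →* ℂˣ} (hχ : χ = ψ * φ)
    (hχpar : IsParChar D.Γ χ) (n : ℤ) :
    Module.finrank ℂ (D.Lam hχpar (n + n0)) ≤ Module.finrank ℂ (D.Lam hψ n) +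
      ((∑ τ ∈ Z, (vanishOrd z τ).toNat) + ∑ c, ((D.E c z).order + n0).toNat) := by
  classical
  subst hχ
  have hχp : (ψ * φ) ^ p = 1 := MonoidHom.ext fun γ => by
    have h1 := DFunLike.congr_fun hψp γ
    have h2 := DFunLike.congr_fun hφp γ
    simp only [MonoidHom.pow_apply, MonoidHom.one_apply] at h1 h2
    simp [mul_pow, h1, h2]
  have := G.finiteDimensional hψ hψp n
  have := G.finiteDimensional hχpar hχp (n + n0)
  set m : ℍ → ℕ := fun τ => (vanishOrd z τ).toNat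
  set w : D.C → ℕ := fun c => ((D.E c z).order + n0).toNat
  let A : D.Lam hχpar (n + n0) →ₗ[ℂ] ((Σ τ : Z, Fin (m τ)) → ℂ) :=
    { toFun := fun u x => iteratedDeriv x.2 ((u : ℍ → ℂ) ∘ ofComplex) ((x.1 : ℍ) : ℂ)
      map_add' := fun u v => funext fun x => by
        rw [Pi.add_apply, Submodule.coe_add]
        exact iteratedDeriv_add ((analyticAt_of_mdiff (mdiff_of_mem u.2.1) _).contDiffAt)
          ((analyticAt_of_mdiff (mdiff_of_mem v.2.1) _).contDiffAt)
      map_smul' := fun a u => funext fun x => by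
        rw [Pi.smul_apply, RingHom.id_apply, SetLike.val_smul]
        exact iteratedDeriv_const_smul_field a _ }
  let B : D.Lam hχpar (n + n0) →ₗ[ℂ] ((Σ c : D.C, Fin (w c)) → ℂ) :=
    LinearMap.pi fun x => coeffForm hχpar _ x.1 (-(n + n0) + (x.2 : ℕ))
  let mulz : D.Lam hψ n →ₗ[ℂ] D.Lam hχpar (n + n0) :=
    { toFun := fun q => ⟨(q : ℍ → ℂ) * z, mul_mem q.2.1 hz, fun c => by
        rw [E_mul hψ hφ q.2.1 hz, neg_add]
        exact (q.2.2 c).mul (hzn c)⟩
      map_add' := fun q q' => Subtype.ext (add_mul _ _ _)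
      map_smul' := fun a q => Subtype.ext (smul_mul_assoc _ _ _) }
  have hker : LinearMap.ker (A.prod B) ≤ LinearMap.range mulz := by
    intro u hu
    rw [LinearMap.mem_ker, LinearMap.prod_apply, Function.prod_apply, Prod.mk_eq_zero] at hu
    obtain ⟨hA, hB⟩ := hu
    have hu' := mdiff_of_mem u.2.1
    have hord : ∀ τ, vanishOrd z τ ≤ vanishOrd (u : ℍ → ℂ) τ := by
      intro τ
      rcases eq_or_ne (vanishOrd z τ) 0 with h | h
      · rw [h]; exact bot_le
      obtain ⟨σ, hσ, γ, rfl⟩ := hZ τ h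
      rw [vanishOrd_smul_point hz, vanishOrd_smul_point u.2.1,
        ← ENat.natCast_toNat (vanishOrd_ne_top (mdiff_of_mem hz) hz0 σ)]
      refine (natCast_le_analyticOrderAt_iff_iteratedDeriv_eq_zero
        (analyticAt_of_mdiff hu' σ)).mpr fun i hi => ?_
      exact congrFun hA ⟨⟨σ, hσ⟩, ⟨i, hi⟩⟩
    obtain ⟨q, hq, e⟩ := exists_div hlev hz hz0 u.2.1 hord
    refine ⟨⟨q, hq, fun c => ?_⟩, Subtype.ext e.symm⟩
    intro j hj
    by_contra hne
    have hq0 : D.E c q ≠ 0 := fun h0 => hne (by rw [h0]; rfl)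
    have hz1 : D.E c z ≠ 0 := fun h0 => hz0 (E_injective hφ hz h0)
    have hordq : (D.E c q).order ≤ j := HahnSeries.order_le_of_coeff_ne_zero hne
    have hu0 : D.E c (u : ℍ → ℂ) ≠ 0 := by rw [e, E_mul hψ hφ hq hz]; exact mul_ne_zero hq0 hz1
    have ho : (D.E c (u : ℍ → ℂ)).order = (D.E c q).order + (D.E c z).order := by
      rw [e, E_mul hψ hφ hq hz, HahnSeries.order_mul hq0 hz1]
    have h1 : -(n + n0) ≤ (D.E c (u : ℍ → ℂ)).order := (u.2.2 c).le_order hu0
    have hlt : ((D.E c (u : ℍ → ℂ)).order + (n + n0)).toNat < w c := by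
      simp only [w]; omega
    have h2 := congrFun hB ⟨c, ⟨_, hlt⟩⟩
    simp only [B, LinearMap.pi_apply, coeffForm, LinearMap.coe_mk, AddHom.coe_mk,
      Pi.zero_apply] at h2
    rw [show -(n + n0) + ((((D.E c (u : ℍ → ℂ)).order + (n + n0)).toNat : ℕ) : ℤ) =
      (D.E c (u : ℍ → ℂ)).order by omega] at h2
    exact HahnSeries.coeff_order_eq_zero.not.mpr hu0 h2
  have h := LinearMap.finrank_range_add_finrank_ker (A.prod B)
  have h2 := Submodule.finrank_mono hker
  have h3 := LinearMap.finrank_range_le mulz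
  have h4 := Submodule.finrank_le (LinearMap.range (A.prod B))
  rw [Module.finrank_prod, Module.finrank_fintype_fun_eq_card, Module.finrank_fintype_fun_eq_card,
    Fintype.card_sigma, Fintype.card_sigma] at h4
  simp only [Fintype.card_fin, Finset.sum_coe_sort Z m] at h4
  show _ ≤ _ + (∑ τ ∈ Z, m τ + ∑ c, w c)
  omega

/-- **The dimension of a twisted space.** -/
theorem Good.exists_finrank_le (G : D.Good K) [hp : Fact p.Prime]
    (hlev : CongruenceSubgroup.Gamma D.lev ≤ D.Γ)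
    (hφ : IsParChar D.Γ φ) (hφp : φ ^ p = 1) {z : ℍ → ℂ} (hz : z ∈ D.Tw φ) (hz0 : z ≠ 0) :
    ∃ N0 : ℕ, G.o0 ≤ N0 ∧ ∀ n : ℕ, N0 ≤ n →
      Module.finrank ℂ (D.LamF (n : ℤ)) ≤ Module.finrank ℂ (D.Lam hφ (n : ℤ)) := by
  classical
  obtain ⟨n0, hn0⟩ : ∃ n0 : ℕ, ∀ c, SGE (-(n0 : ℤ)) (D.E c z) := by
    refine ⟨Finset.univ.sup fun c => (-(D.E c z).order).toNat, fun c => ?_⟩
    refine (Curve.sge_order _).mono ?_
    have := Finset.le_sup (f := fun c => (-(D.E c z).order).toNat) (Finset.mem_univ c)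
    omega
  obtain ⟨Z, -, hZ, hdeg⟩ := G.exists_zeros hφ hφp hz hz0
  refine ⟨G.o0 + n0, by omega, fun n hn => ?_⟩
  obtain ⟨m, rfl⟩ : ∃ m, n = m + n0 := ⟨n - n0, by omega⟩
  have hm : G.o0 ≤ m := by omega
  set T := (∑ τ ∈ Z, (vanishOrd z τ).toNat) + ∑ c, ((D.E c z).order + n0).toNat with hT
  have hTle : T ≤ n0 * Fintype.card D.C := by
    have hw : ((∑ c, ((D.E c z).order + n0).toNat : ℕ) : ℤ) =
        ∑ c, (D.E c z).order + (n0 * Fintype.card D.C : ℕ) := by
      push_cast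
      rw [show ((n0 : ℤ) * Fintype.card D.C) = ∑ _c : D.C, (n0 : ℤ) by simp [mul_comm],
        ← Finset.sum_add_distrib]
      refine Finset.sum_congr rfl fun c _ => Int.toNat_of_nonneg ?_
      have := (hn0 c).le_order fun h0 => hz0 (E_injective hφ hz h0)
      omega
    omega
  have hpar := fun i => isParChar_pow hφ i
  have hpw : ∀ i, (φ ^ i) ^ p = 1 := fun i => MonoidHom.ext fun γ => by
    have h2 := DFunLike.congr_fun hφp γ
    simp only [MonoidHom.pow_apply, MonoidHom.one_apply] at h2 ⊢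
    rw [← pow_mul, mul_comm, pow_mul, h2, one_pow]
  set l : ℕ → ℕ := fun i => Module.finrank ℂ (D.Lam (hpar i) ((m + i * n0 : ℕ) : ℤ)) with hl
  have hstep : ∀ i, l (i + 1) ≤ l i + T := by
    intro i
    have h := G.finrank_succ_le hlev hφ hφp hz hz0 hn0 hZ (hpar i) (hpw i) (pow_succ_char φ i)
      (hpar (i + 1)) ((m + i * n0 : ℕ) : ℤ)
    rw [← Nat.cast_add, show m + i * n0 + n0 = m + (i + 1) * n0 by ring] at h
    exact h
  have hle : ∀ a b, a ≤ b → l b ≤ l a + (b - a) * T := by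
    intro a b hab
    induction b, hab using Nat.le_induction with
    | base => simp
    | succ b hab ih =>
      have := hstep b
      rw [Nat.succ_sub hab, Nat.succ_mul]
      omega
  have hcongr : ∀ {χ χ' : D.Γ →* ℂˣ} (h : χ = χ') (h1 : IsParChar D.Γ χ) (h2 : IsParChar D.Γ χ')
      (k : ℤ), Module.finrank ℂ (D.Lam h1 k) = Module.finrank ℂ (D.Lam h2 k) := by
    rintro χ χ' rfl h1 h2 k
    rfl
  have h0 : l 0 = Module.finrank ℂ (D.LamF (m : ℤ)) := by
    simp only [hl]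
    rw [hcongr (MonoidHom.ext fun γ => by simp : φ ^ 0 = 1) (hpar 0) isParChar_one, zero_mul,
      add_zero]
  have hp' : l p = Module.finrank ℂ (D.LamF ((m + p * n0 : ℕ) : ℤ)) :=
    hcongr hφp (hpar p) isParChar_one _
  have h1 : l 1 = Module.finrank ℂ (D.Lam hφ ((m + n0 : ℕ) : ℤ)) := by
    simp only [hl]
    rw [hcongr (MonoidHom.ext fun γ => by simp : φ ^ 1 = φ) (hpar 1) hφ, one_mul]
  have key := G.finrank_add m hm (p * n0)
  have key1 := G.finrank_add m hm n0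
  have hA := hle 1 p hp.out.one_lt.le
  rw [← h1, key1]
  rw [hp', key] at hA
  have hmul : (p - 1) * T ≤ (p - 1) * (n0 * Fintype.card D.C) := Nat.mul_le_mul_left _ hTle
  have hsplit : p * n0 * Fintype.card D.C =
      n0 * Fintype.card D.C + (p - 1) * (n0 * Fintype.card D.C) := by
    have := hp.out.pos
    obtain ⟨q, rfl⟩ : ∃ q, p = q + 1 := ⟨p - 1, by omega⟩
    rw [Nat.add_sub_cancel]
    ring
  omega

end Model

end FermatAgent.PSEMI
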