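import Fermat.Agent.PSEMI.Coef
import Fermat.Agent.ES.Cong.Congruence
import Fermat.Agent.Curve.Laurent
import Mathlib.Algebra.CharP.Lemmas
import Mathlib.RingTheory.LaurentSeries
import Mathlib.RingTheory.RootsOfUnity.Complex

/-!
# Reduced series in characteristic `p`, and the size of `ζ - 1`
-/

set_option autoImplicit false

open FermatAgent.Curve (SGE)

noncomputable section

namespace FermatAgent.PSEMI

open FermatAgent.ES FermatAgent.Curve.Red

variable {p : ℕ} [hp : Fact p.Prime] {P : CPlace p}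

instance charP_resField : CharP (ResField P) p := by
  refine (CharP.charP_iff_prime_eq_zero hp.out).mpr ?_
  rw [← map_natCast (rd : P.ring →+* ResField P), rd_eq_zero_iff]
  exact P.lt_one

instance charP_series : CharP (LaurentSeries (ResField P)) p := by
  refine (CharP.charP_iff_prime_eq_zero hp.out).mpr ?_
  rw [← map_natCast (HahnSeries.C : ResField P →+* LaurentSeries (ResField P)),
    CharP.cast_eq_zero, map_zero]

/-- Coefficients of a `p`-th power. -/
theorem coeff_pow_char (s : LaurentSeries (ResField P)) (i : ℤ) :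
    (s ^ p).coeff (p * i) = s.coeff i ^ p := by
  obtain ⟨k, f, rfl⟩ : ∃ (k : ℤ) (f : PowerSeries (ResField P)),
      s = HahnSeries.single k 1 * HahnSeries.ofPowerSeries ℤ (ResField P) f :=
    ⟨s.order, s.powerSeriesPart, (LaurentSeries.single_order_mul_powerSeriesPart s).symm⟩
  rw [mul_pow, HahnSeries.single_pow, one_pow, ← map_pow, nsmul_eq_mul,
    HahnSeries.coeff_single_mul, HahnSeries.coeff_single_mul, one_mul, one_mul, ← mul_sub]
  rcases le_or_gt 0 (i - k) with h | h
  · lift i - k to ℕ using h with j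
    rw [← Nat.cast_mul, HahnSeries.ofPowerSeries_apply_coeff, HahnSeries.ofPowerSeries_apply_coeff,
      pow_char_series hp.out.ne_zero, PowerSeries.coeff_map, PowerSeries.coeff_expand_mul,
      frobenius_def]
  · have hpi : (p : ℤ) * (i - k) < 0 := mul_neg_of_pos_of_neg (mod_cast hp.out.pos) h
    rw [HahnSeries.ofPowerSeries_apply, HahnSeries.embDomain_of_notMem_range,
      HahnSeries.ofPowerSeries_apply, HahnSeries.embDomain_of_notMem_range,
      zero_pow hp.out.ne_zero]
    · rintro ⟨e, he⟩; simp at he; omega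
    · rintro ⟨e, he⟩; simp at he; omega

/-- A series whose `k`-th power has order at least `k n` has order at least `n`. -/
theorem sge_of_pow {L : Type*} [Field L] {s : LaurentSeries L} {n : ℤ} {k : ℕ} (hk : k ≠ 0)
    (h : SGE (k * n) (s ^ k)) : SGE n s := by
  rcases eq_or_ne s 0 with rfl | hs
  · exact SGE.zero
  refine (Curve.sge_iff).mpr (Or.inr ?_)
  have h1 := h.le_order (pow_ne_zero k hs)
  rw [Curve.order_pow] at h1
  exact le_of_mul_le_mul_left h1 (by omega)

/-- The `k`-th power of a series of order at least `n` has order at least `k n`. -/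
theorem sge_pow {L : Type*} [Field L] {s : LaurentSeries L} {n : ℤ} (h : SGE n s) (k : ℕ) :
    SGE (k * n) (s ^ k) := by
  induction k with
  | zero =>
    intro j hj
    rw [pow_zero, HahnSeries.coeff_one, if_neg]
    simp at hj
    omega
  | succ k ih => rw [pow_succ, Nat.cast_succ, add_mul, one_mul]; exact ih.mul h

omit hp in
/-- Reduction does not lower the order of a series. -/
theorem sge_red {s : LaurentSeries ℂ} {n : ℤ} (hs : SerIn P.ring s) (h : SGE n s) :
    SGE n (red (P := P) s) := fun j hj => by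
  rw [coeff_red hs, rd_eq_zero_iff]
  simp [h j hj]

/-- A primitive `p`-th root of unity. -/
def zp (p : ℕ) : ℂ := Complex.exp (2 * Real.pi * Complex.I / p)

/-- `zp p` is a primitive `p`-th root of unity. -/
theorem zp_spec : IsPrimitiveRoot (zp p) p := Complex.isPrimitiveRoot_exp p hp.out.ne_zero

/-- `ζ - 1` is largest for a primitive `p`-th root of unity `ζ`. -/
theorem abv_root_sub_one_le {a b : ℂ} (ha : a ^ p = 1) (hb : IsPrimitiveRoot b p) :
    P.abv (a - 1) ≤ P.abv (b - 1) := by
  have : NeZero p := ⟨hp.out.ne_zero⟩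
  obtain ⟨i, -, rfl⟩ := hb.eq_pow_of_pow_eq_one ha
  rw [← geom_sum_mul, map_mul]
  refine mul_le_of_le_one_left (P.abv.nonneg _) ?_
  have hb1 : b ∈ P.ring :=
    (P.abv_eq_one_of_pow_eq_one hp.out.ne_zero hb.pow_eq_one).le
  exact P.ring.sum_mem fun j _ => P.ring.pow_mem hb1 j

variable (P) in
/-- The size of `ζ - 1`. -/
def rp : ℝ := P.abv (zp p - 1)

omit hp in
/-- The size of `ζ - 1` is nonnegative. -/
theorem rp_nonneg : 0 ≤ rp P := P.abv.nonneg _

/-- `|ζ - 1| ^ (p - 1) = |p|`. -/
theorem rp_pow : rp P ^ (p - 1) = P.abv p := by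
  obtain ⟨k, hk⟩ : ∃ k, p = k + 1 := ⟨p - 1, by have := hp.out.pos; omega⟩
  have hz := zp_spec (p := p)
  have hprod := IsPrimitiveRoot.prod_one_sub_pow_eq_order (R := ℂ) (n := k) (μ := zp p) (hk ▸ hz)
  have e : ∀ i ∈ Finset.range k, P.abv (1 - zp p ^ (i + 1)) = rp P := by
    intro i hi
    rw [Finset.mem_range] at hi
    have hprim : IsPrimitiveRoot (zp p ^ (i + 1)) p :=
      hz.pow_of_coprime _ ((hp.out.coprime_iff_not_dvd.mpr fun h =>
        by have := Nat.le_of_dvd (by omega) h; omega).symm)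
    rw [← AbsoluteValue.map_neg, neg_sub]
    exact le_antisymm (abv_root_sub_one_le hprim.pow_eq_one hz)
      (abv_root_sub_one_le hz.pow_eq_one hprim)
  have h := congrArg P.abv hprod
  rw [map_prod, Finset.prod_congr rfl e, Finset.prod_const, Finset.card_range] at h
  rw [show p - 1 = k by omega, h]
  congr 1
  rw [hk]; push_cast; ring

/-- The size of `ζ - 1` is positive. -/
theorem rp_pos : 0 < rp P :=
  P.abv.pos (sub_ne_zero.mpr ((zp_spec (p := p)).ne_one hp.out.one_lt))

/-- `|ζ - 1| < 1`. -/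
theorem rp_lt_one : rp P < 1 := by
  by_contra h
  push Not at h
  exact (one_le_pow₀ (n := p - 1) h).not_gt (rp_pow (P := P) ▸ P.lt_one)

/-- `|p| |ζ - 1| = |ζ - 1| ^ p`. -/
theorem abv_p_mul_rp : P.abv p * rp P = rp P ^ p := by
  rw [← rp_pow, ← pow_succ]
  congr 1
  have := hp.out.pos
  omega

/-- `|p| ≤ |ζ - 1|`. -/
theorem abv_p_le_rp : P.abv p ≤ rp P := by
  rw [← rp_pow]
  exact pow_le_of_le_one rp_nonneg rp_lt_one.le (by have := hp.out.two_le; omega)

/-- `|ζ - 1| ^ p < |p|`. -/
theorem pow_p_lt_abv_p : rp P ^ p < P.abv p := by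
  rw [← rp_pow]
  exact pow_lt_pow_right_of_lt_one₀ rp_pos rp_lt_one (by have := hp.out.pos; omega)

/-- The two terms of a binomial expansion compared. -/
theorem abv_p_mul_lt_pow {d : ℝ} (hd : rp P < d) : P.abv p * d < d ^ p := by
  have h0 : 0 < d := rp_pos.trans hd
  rw [← rp_pow, show d ^ p = d ^ (p - 1) * d by
    rw [← pow_succ]; congr 1; have := hp.out.pos; omega]
  exact mul_lt_mul_of_pos_right
    (pow_lt_pow_left₀ hd rp_nonneg (by have := hp.out.two_le; omega)) h0

/-- For `d ≤ |ζ - 1|` both `d ^ p` and `|p| d` are at most `|ζ - 1| ^ p`. -/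
theorem max_le_rp_pow {d : ℝ} (hd0 : 0 ≤ d) (hd : d ≤ rp P) :
    max (d ^ p) (P.abv p * d) ≤ rp P ^ p :=
  max_le (pow_le_pow_left₀ hd0 hd p)
    ((mul_le_mul_of_nonneg_left hd (P.abv.nonneg _)).trans abv_p_mul_rp.le)

/-- `(g + t)^p - g^p - t^p` is divisible by `p g t`. -/
theorem exists_binom {g t : LaurentSeries ℂ} (hg : SerIn P.ring g) (ht : SerIn P.ring t) :
    ∃ q, SerIn P.ring q ∧ (g + t) ^ p = g ^ p + t ^ p + (p : LaurentSeries ℂ) * g * t * q := by
  obtain ⟨r, hr⟩ := exists_add_pow_prime_eq hp.out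
    (⟨g, hg⟩ : Curve.Red.serSub P.ring) ⟨t, ht⟩
  refine ⟨r, r.2, ?_⟩
  have h := congrArg Subtype.val hr
  push_cast at h
  exact h

omit hp in
/-- Multiplication by a natural number multiplies a bound by its absolute value. -/
theorem serLE_natCast_mul {c : ℝ} {s : LaurentSeries ℂ} (m : ℕ) (hs : P.SerLE c s) :
    P.SerLE (P.abv m * c) ((m : LaurentSeries ℂ) * s) := fun n => by
  rw [← map_natCast (HahnSeries.C : ℂ →+* LaurentSeries ℂ), HahnSeries.C_apply,
    HahnSeries.coeff_single_mul, sub_zero, map_mul]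
  exact mul_le_mul_of_nonneg_left (hs n) (P.abv.nonneg _)

end FermatAgent.PSEMI
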