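import Fermat.Agent.PSEMI.Model
import Mathlib.LinearAlgebra.FiniteDimensional.Lemmas
import Fermat.Agent.PSEMI.Coef

/-!
# The axioms of a model, pole filtrations

`Good` asks for bounded expansions, zeros at most poles, monic functions at every cusp, and
reductions closed under `p`-th roots and tested at the basic cusps. It follows that pole spaces
are finite-dimensional, grow linearly, and that reductions with bounded poles lift.
-/

set_option autoImplicit false

open UpperHalfPlane
open scoped MatrixGroups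
open FermatAgent.Curve (SGE)

noncomputable section

namespace FermatAgent.PSEMI

open FermatAgent.ES FermatAgent.Curve.Red

variable {p : ℕ} {P : CPlace p}

namespace Model

variable (D : Model)

/-- Integrality at all cusps. -/
def Integral (P : CPlace p) (u : ℍ → ℂ) : Prop := ∀ c, SerIn P.ring (D.E c u)

/-- The reductions at the cusps. -/
def redT (P : CPlace p) (u : ℍ → ℂ) : D.C → LaurentSeries (ResField P) := fun c => red (D.E c u)

/-- Inequivalence for the group of the model. -/
def Apart (Z : Finset ℍ) : Prop :=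
  ∀ τ ∈ Z, ∀ τ' ∈ Z, ∀ γ : D.Γ, (γ : SL(2, ℤ)) • τ = τ' → τ = τ'

/-- The axioms. -/
structure Good (K : Coeffs P) where
  /-- There is a cusp. -/
  nonempty : Nonempty D.C
  /-- Expansions of invariant functions are bounded over finitely generated rings. -/
  bound : ∀ f ∈ D.Fun, ∀ c, ∃ a : ℂ, a ≠ 0 ∧ Fine K (HahnSeries.C a * D.E c f)
  /-- Zeros do not exceed poles. -/
  val : ∀ y ∈ D.Fun, y ≠ 0 → ∀ Z : Finset ℍ, D.Apart Z →
    ((∑ τ ∈ Z, (vanishOrd y τ).toNat : ℕ) : ℤ) + ∑ c, (D.E c y).order ≤ 0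
  /-- From this pole order on every cusp has a monic function. -/
  o0 : ℕ
  top : ∀ c, ∀ o : ℕ, o0 ≤ o → ∃ f ∈ D.Fun, D.Integral P f ∧ SGE (-(o : ℤ)) (D.E c f) ∧
    P.abv ((D.E c f).coeff (-(o : ℤ))) = 1 ∧ ∀ c', c' ≠ c → SGE (-(o : ℤ) + 1) (D.E c' f)
  /-- The reductions are closed under `p`-th roots. -/
  rootClosed : ∀ a : D.C → LaurentSeries (ResField P),
    (∃ f ∈ D.Fun, D.Integral P f ∧ D.redT P f = a ^ p) →
      ∃ g ∈ D.Fun, D.Integral P g ∧ D.redT P g = a
  /-- The cusps which decide whether a reduction is a `p`-th power. -/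
  basic : Finset D.C
  basic_spec : ∀ f ∈ D.Fun, D.Integral P f →
    (∀ c ∈ basic, ∃ a, D.redT P f c = a ^ p) → ∀ c, ∃ a, D.redT P f c = a ^ p

/-- Twisted functions with pole orders at most `n`. -/
def Lam {φ : D.Γ →* ℂˣ} (hφ : IsParChar D.Γ φ) (n : ℤ) : Submodule ℂ (ℍ → ℂ) where
  carrier := {u | u ∈ D.Tw φ ∧ ∀ c, SGE (-n) (D.E c u)}
  zero_mem' := ⟨Submodule.zero_mem _, fun c => by rw [E_zero]; exact SGE.zero⟩
  add_mem' {u v} hu hv := ⟨add_mem hu.1 hv.1, fun c => by
    rw [E_add hφ hu.1 hv.1]; exact (hu.2 c).add (hv.2 c)⟩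
  smul_mem' a u hu := ⟨Submodule.smul_mem _ a hu.1, fun c j hj => by
    rw [E_smul hφ hu.1, HahnSeries.C_apply, HahnSeries.coeff_single_mul, sub_zero, hu.2 c j hj,
      mul_zero]⟩

/-- Invariant functions with bounded poles. -/
abbrev LamF (n : ℤ) : Submodule ℂ (ℍ → ℂ) := D.Lam (isParChar_one (D := D)) n

variable {D} {K : Coeffs P}

/-- The coefficients of the expansion of a multiple of a twisted function are the multiples of the
coefficients. -/
theorem coeff_E_smul {φ : D.Γ →* ℂˣ} (hφ : IsParChar D.Γ φ) {u : ℍ → ℂ} (hu : u ∈ D.Tw φ) (a : ℂ)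
    (c : D.C) (n : ℤ) : (D.E c (a • u)).coeff n = a * (D.E c u).coeff n := by
  rw [E_smul hφ hu, HahnSeries.C_apply, HahnSeries.coeff_single_mul, sub_zero]

/-- The coefficient at a cusp, as a linear form. -/
def coeffForm {φ : D.Γ →* ℂˣ} (hφ : IsParChar D.Γ φ) (n : ℤ) (c : D.C) (i : ℤ) :
    D.Lam hφ n →ₗ[ℂ] ℂ where
  toFun u := (D.E c (u : ℍ → ℂ)).coeff i
  map_add' u v := by rw [Submodule.coe_add, E_add hφ u.2.1 v.2.1, HahnSeries.coeff_add]
  map_smul' a u := by
    rw [SetLike.val_smul, coeff_E_smul hφ u.2.1, RingHom.id_apply, smul_eq_mul]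

theorem Good.eq_zero_of_vanish (G : D.Good K) [hp : Fact p.Prime] {φ : D.Γ →* ℂˣ}
    (hφ : IsParChar D.Γ φ) (hφp : φ ^ p = 1) {u : ℍ → ℂ} (hu : u ∈ D.Tw φ)
    (h : ∀ c, SGE 1 (D.E c u)) : u = 0 := by
  have := G.nonempty
  by_contra hu0
  have hy := pow_mem_fun hu hφp
  have hy0 : u ^ p ≠ 0 := fun h0 => hu0 (funext fun τ =>
    pow_eq_zero_iff hp.out.ne_zero |>.mp (congrFun h0 τ))
  have hval := G.val _ hy hy0 ∅ (by simp [Apart])
  have hlt : ∀ c, (0 : ℤ) < (D.E c (u ^ p)).order := by
    intro c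
    have hne : D.E c u ≠ 0 := fun h0 => hu0 (E_injective hφ hu h0)
    rw [E_pow hφ hu, Curve.order_pow]
    have := (h c).le_order hne
    have := hp.out.pos
    positivity
  have := Finset.sum_pos (fun c _ => hlt c) (Finset.univ_nonempty (α := D.C))
  simp at hval
  omega

/-- In a good model twisted functions with multiplier of order dividing `p` and bounded poles form a
finite-dimensional space. -/
theorem Good.finiteDimensional (G : D.Good K) [Fact p.Prime] {φ : D.Γ →* ℂˣ}
    (hφ : IsParChar D.Γ φ) (hφp : φ ^ p = 1) (n : ℤ) :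
    FiniteDimensional ℂ (D.Lam hφ n) := by
  let T : D.Lam hφ n →ₗ[ℂ] (D.C × Fin (n.toNat + 1) → ℂ) :=
    LinearMap.pi fun x => coeffForm hφ n x.1 (-n + (x.2 : ℕ))
  refine FiniteDimensional.of_injective T ?_
  rw [← LinearMap.ker_eq_bot, Submodule.eq_bot_iff]
  intro u hu
  refine Subtype.ext (G.eq_zero_of_vanish hφ hφp u.2.1 fun c j hj => ?_)
  rcases lt_or_ge j (-n) with h | h
  · exact u.2.2 c j h
  · have hb : (j + n).toNat < n.toNat + 1 := by omega
    have h2 := congrFun (LinearMap.mem_ker.mp hu) (c, ⟨(j + n).toNat, hb⟩)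
    simp only [T, LinearMap.pi_apply, Pi.zero_apply] at h2
    rw [show -n + ((j + n).toNat : ℤ) = j by omega] at h2
    exact h2

theorem Good.finrank_succ (G : D.Good K) [Fact p.Prime] (n : ℕ) (hn : G.o0 ≤ n + 1) :
    Module.finrank ℂ (D.LamF ((n : ℤ) + 1)) =
      Module.finrank ℂ (D.LamF (n : ℤ)) + Fintype.card D.C := by
  classical
  have hpar := isParChar_one (D := D)
  have := G.finiteDimensional hpar (MonoidHom.ext fun γ => by simp) ((n : ℤ) + 1)
  let T : D.LamF ((n : ℤ) + 1) →ₗ[ℂ] (D.C → ℂ) :=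
    LinearMap.pi fun c => coeffForm hpar _ c (-((n : ℤ) + 1))
  have hsurj : Function.Surjective T := by
    choose f hf _ hord hlead hoth using fun c => G.top c (n + 1) hn
    have hmem : ∀ c, f c ∈ D.LamF ((n : ℤ) + 1) := fun c => ⟨hf c, fun c' => by
      rcases eq_or_ne c' c with rfl | hne
      · exact_mod_cast hord c'
      · exact SGE.mono (hoth c c' hne) (by push_cast; omega)⟩
    have hT : ∀ c c', T ⟨f c, hmem c⟩ c' =
        if c' = c then (D.E c (f c)).coeff (-((n : ℤ) + 1)) else 0 := fun c c' => by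
      simp only [T, LinearMap.pi_apply, coeffForm, LinearMap.coe_mk, AddHom.coe_mk]
      split_ifs with h
      · rw [h]
      · exact hoth c c' h _ (by push_cast; omega)
    intro v
    refine ⟨∑ c, (v c / (D.E c (f c)).coeff (-((n : ℤ) + 1))) • ⟨f c, hmem c⟩, funext fun c' => ?_⟩
    rw [map_sum, Finset.sum_apply, Finset.sum_eq_single c' (fun c _ hne => by
      rw [map_smul, Pi.smul_apply, hT, if_neg (Ne.symm hne), smul_zero]) (by simp), map_smul,
      Pi.smul_apply, hT, if_pos rfl, smul_eq_mul, div_mul_cancel₀]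
    intro h0
    have h1 := hlead c'
    rw [show -(((n + 1 : ℕ)) : ℤ) = -((n : ℤ) + 1) by push_cast; rfl, h0, map_zero] at h1
    exact zero_ne_one h1
  have hker : Module.finrank ℂ (LinearMap.ker T) = Module.finrank ℂ (D.LamF (n : ℤ)) := by
    have hle : D.LamF (n : ℤ) ≤ D.LamF ((n : ℤ) + 1) := fun u hu =>
      ⟨hu.1, fun c => (hu.2 c).mono (by omega)⟩
    have e : LinearMap.ker T = Submodule.comap (D.LamF ((n : ℤ) + 1)).subtype (D.LamF (n : ℤ)) := by
      ext u
      rw [LinearMap.mem_ker, Submodule.mem_comap, funext_iff]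
      refine ⟨fun h => ⟨u.2.1, fun c j hj => ?_⟩, fun h c => h.2 c _ (by omega)⟩
      rcases lt_or_ge j (-((n : ℤ) + 1)) with hj' | hj'
      · exact u.2.2 c j hj'
      · rw [show j = -((n : ℤ) + 1) by omega]; exact h c
    rw [← (Submodule.comapSubtypeEquivOfLe hle).finrank_eq, e]
  have h := LinearMap.finrank_range_add_finrank_ker T
  rw [LinearMap.range_eq_top.mpr hsurj, finrank_top, Module.finrank_fintype_fun_eq_card, hker] at h
  omega

/-- From the pole order `o0` on the pole spaces grow by the number of cusps at each step. -/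
theorem Good.finrank_add (G : D.Good K) [Fact p.Prime] (n : ℕ) (hn : G.o0 ≤ n) (i : ℕ) :
    Module.finrank ℂ (D.LamF ((n + i : ℕ) : ℤ)) =
      Module.finrank ℂ (D.LamF (n : ℤ)) + i * Fintype.card D.C := by
  induction i with
  | zero => simp
  | succ i ih =>
    rw [show (((n + (i + 1) : ℕ)) : ℤ) = ((n + i : ℕ) : ℤ) + 1 by push_cast; ring,
      G.finrank_succ (n + i) (by omega), ih]
    ring

theorem redT_sub {f g : ℍ → ℂ} (hf : f ∈ D.Fun) (hg : g ∈ D.Fun) (hfi : D.Integral P f)
    (hgi : D.Integral P g) : D.redT P (f - g) = D.redT P f - D.redT P g := funext fun c => by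
  simp only [redT, Pi.sub_apply]
  rw [E_sub isParChar_one hf hg, red_sub (hfi c) (hgi c)]

/-- A reduction with bounded poles has a lift with the same bound. -/
theorem Good.exists_lift_pole (G : D.Good K) {n : ℕ} (hn : G.o0 ≤ n) {f : ℍ → ℂ}
    (hf : f ∈ D.Fun) (hfi : D.Integral P f) (hr : ∀ c, SGE (-(n : ℤ)) (D.redT P f c)) :
    ∃ g ∈ D.LamF (n : ℤ), D.Integral P g ∧ D.redT P g = D.redT P f := by
  classical
  have hpar := isParChar_one (D := D)
  suffices H : ∀ d : ℕ, ∀ f ∈ D.Fun, D.Integral P f →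
      (∀ c, SGE (-(n : ℤ)) (D.redT P f c)) → (∀ c, SGE (-((n + d : ℕ) : ℤ)) (D.E c f)) →
      ∃ g ∈ D.LamF (n : ℤ), D.Integral P g ∧ D.redT P g = D.redT P f by
    obtain ⟨d, hd⟩ : ∃ d : ℕ, ∀ c, SGE (-((n + d : ℕ) : ℤ)) (D.E c f) := by
      refine ⟨Finset.univ.sup fun c => (-(D.E c f).order).toNat, fun c => ?_⟩
      refine (Curve.sge_order _).mono ?_
      have := Finset.le_sup (f := fun c => (-(D.E c f).order).toNat) (Finset.mem_univ c)
      push_cast
      omega
    exact H d f hf hfi hr hd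
  intro d
  induction d with
  | zero => exact fun f hf hfi _ hb => ⟨f, ⟨hf, fun c => by simpa using hb c⟩, hfi, rfl⟩
  | succ d ih =>
    intro f hf hfi hr hb
    set o := n + (d + 1) with ho
    choose F hF hFi hord hlead hoth using fun c => G.top c o (by omega)
    set t : D.C → ℂ := fun c =>
      (D.E c f).coeff (-(o : ℤ)) * ((D.E c (F c)).coeff (-(o : ℤ)))⁻¹ with ht
    have ht1 : ∀ c, P.abv (t c) < 1 := by
      intro c
      rw [ht, map_mul, map_inv₀, hlead c, inv_one, mul_one]
      have h0 := hr c (-(o : ℤ)) (by omega)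
      rw [redT, coeff_red (hfi c), rd_eq_zero_iff] at h0
      exact h0
    set h : ℍ → ℂ := ∑ c, t c • F c with hh
    have hhF : h ∈ D.Fun := Submodule.sum_mem _ fun c _ => Submodule.smul_mem _ _ (hF c)
    have hEh : ∀ c', D.E c' h = ∑ c, HahnSeries.C (t c) * D.E c' (F c) := by
      intro c'
      have : ∀ A : Finset D.C, D.E c' (∑ c ∈ A, t c • F c) =
          ∑ c ∈ A, HahnSeries.C (t c) * D.E c' (F c) := by
        intro A
        induction A using Finset.induction_on with
        | empty => simp [E_zero]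
        | insert a A ha ihA =>
          rw [Finset.sum_insert ha, Finset.sum_insert ha, E_add hpar (Submodule.smul_mem _ _ (hF a))
            (Submodule.sum_mem _ fun c _ => Submodule.smul_mem _ _ (hF c)), E_smul hpar (hF a), ihA]
      exact this _
    have hsmall : ∀ c', P.SerLT (D.E c' h) := fun c' i => by
      rw [hEh, HahnSeries.coeff_sum]
      refine Finset.sum_induction _ (fun y => P.abv y < 1) (fun _ _ => P.add_lt) (by simp)
        fun c _ => ?_
      rw [HahnSeries.C_apply, HahnSeries.coeff_single_mul, sub_zero, map_mul]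
      exact (mul_le_of_le_one_right (P.abv.nonneg _) (hFi c c' i)).trans_lt (ht1 c)
    have hhi : D.Integral P h := fun c i => (hsmall c i).le
    have hred : D.redT P (f - h) = D.redT P f := by
      rw [redT_sub hf hhF hfi hhi]
      funext c
      simp only [Pi.sub_apply, redT]
      rw [(red_eq_zero_iff (hhi c)).mpr (hsmall c), sub_zero]
    have hfh : D.Integral P (f - h) := fun c => by
      rw [E_sub hpar hf hhF]; exact (hfi c).sub (hhi c)
    suffices hb' : ∀ c', SGE (-((n + d : ℕ) : ℤ)) (D.E c' (f - h)) by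
      obtain ⟨g, hg, hgi, hgr⟩ := ih (f - h) (sub_mem hf hhF) hfh (by rw [hred]; exact hr) hb'
      exact ⟨g, hg, hgi, hgr.trans hred⟩
    intro c' j hj
    · rw [E_sub hpar hf hhF, HahnSeries.coeff_sub, hEh, HahnSeries.coeff_sum, sub_eq_zero]
      have hjo : j ≤ -(o : ℤ) := by rw [ho]; omega
      rw [Finset.sum_eq_single c' (fun c _ hne => by
        rw [HahnSeries.C_apply, HahnSeries.coeff_single_mul, sub_zero,
          hoth c c' (Ne.symm hne) j (by omega), mul_zero]) (by simp),
        HahnSeries.C_apply, HahnSeries.coeff_single_mul, sub_zero]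
      rcases eq_or_lt_of_le hjo with rfl | hlt
      · have hne : (D.E c' (F c')).coeff (-(o : ℤ)) ≠ 0 := fun h0 => by
          have := hlead c'; rw [h0, map_zero] at this; exact zero_ne_one this
        rw [ht, inv_mul_cancel_right₀ hne]
      · rw [hb c' j hlt, hord c' j hlt, mul_zero]

/-- A function with poles of exact order `n` everywhere. -/
theorem Good.exists_exact (G : D.Good K) {n : ℕ} (hn : G.o0 ≤ n) :
    ∃ f ∈ D.LamF (n : ℤ), D.Integral P f ∧ ∀ c, (D.redT P f c).coeff (-(n : ℤ)) ≠ 0 := by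
  classical
  have hpar := isParChar_one (D := D)
  choose F hF hFi hord hlead hoth using fun c => G.top c n hn
  have hmem : ∀ c, F c ∈ D.LamF (n : ℤ) := fun c => ⟨hF c, fun c' => by
    rcases eq_or_ne c' c with rfl | hne
    · exact hord c'
    · exact (hoth c c' hne).mono (by omega)⟩
  have key : ∀ A : Finset D.C, D.Integral P (∑ c ∈ A, F c) ∧
      ∀ c', (D.E c' (∑ c ∈ A, F c)).coeff (-(n : ℤ)) =
        if c' ∈ A then (D.E c' (F c')).coeff (-(n : ℤ)) else 0 := by
    intro A
    induction A using Finset.induction_on with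
    | empty => exact ⟨fun c => by simp [E_zero, SerIn.zero], fun c' => by simp [E_zero]⟩
    | insert a A ha ihA =>
      have e : ∀ c', D.E c' (∑ c ∈ insert a A, F c) = D.E c' (F a) + D.E c' (∑ c ∈ A, F c) :=
        fun c' => by
        rw [Finset.sum_insert ha, E_add hpar (hF a) (Submodule.sum_mem _ fun c _ => hF c)]
      refine ⟨fun c => by rw [e]; exact (hFi a c).add (ihA.1 c), fun c' => ?_⟩
      rw [e, HahnSeries.coeff_add, ihA.2]
      rcases eq_or_ne c' a with rfl | hne
      · simp [ha]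
      · simp [hne, hoth a c' hne _ (by omega : -(n : ℤ) < -(n : ℤ) + 1)]
  refine ⟨∑ c, F c, Submodule.sum_mem _ fun c _ => hmem c, (key _).1, fun c => ?_⟩
  simp only [redT, coeff_red ((key _).1 c)]
  rw [rd_ne_zero_iff]
  simp [(key _).2, hlead c]

end Model

end FermatAgent.PSEMI
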