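import Fermat.Agent.PSEMI.Coef
import Mathlib.RingTheory.RootsOfUnity.Complex
import Mathlib.Algebra.Polynomial.Identities

/-!
# Powers up to a precision

`PowApprox K n c y`: `y` is within `c` of an `n`-th power of a fine series; `Triv K n y`: within
every precision.
-/

set_option autoImplicit false

noncomputable section

namespace FermatAgent.PSEMI

open FermatAgent.ES

variable {p : ℕ} {P : CPlace p}

/-- `y` is within `c` of an `n`-th power. -/
def PowApprox (K : Coeffs P) (n : ℕ) (c : ℝ) (y : LaurentSeries ℂ) : Prop :=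
  ∃ s, Fine K s ∧ P.SerLE c (y - s ^ n)

/-- `y` is an `n`-th power in the completion. -/
def Triv (K : Coeffs P) (n : ℕ) (y : LaurentSeries ℂ) : Prop :=
  ∀ ε : ℝ, 0 < ε → PowApprox K n ε y

variable {K : Coeffs P} {n : ℕ} {c : ℝ} {a b y y' s : LaurentSeries ℂ}

/-- An approximation by a power is one for every larger precision. -/
theorem PowApprox.mono {d : ℝ} (h : PowApprox K n c y) (hcd : c ≤ d) : PowApprox K n d y :=
  let ⟨s, hs, hle⟩ := h
  ⟨s, hs, hle.mono hcd⟩

/-- An `n`-th power of a fine series is approximated to every precision. -/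
theorem powApprox_pow (hs : Fine K s) (hc : 0 ≤ c) (n : ℕ) : PowApprox K n c (s ^ n) :=
  ⟨s, hs, by simpa using CPlace.SerLE.zero (P := P) hc⟩

theorem powApprox_one (hc : 0 ≤ c) : PowApprox K n c 1 := by
  simpa using powApprox_pow (K := K) Fine.one hc n

/-- An approximate `n`-th root of a series with a unit coefficient has a unit coefficient. -/
theorem unitCoeff_of_sub_pow (hn : n ≠ 0) (hs : Fine K s) (hy : SerIn P.ring y)
    (hu : P.UnitCoeff y) (hc : c < 1) (h : P.SerLE c (y - s ^ n)) : P.UnitCoeff s := by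
  rw [← red_ne_zero_iff hs.serIn]
  intro h0
  have e : red (P := P) y = red (s ^ n) :=
    (red_eq_red_iff hy (hs.serIn.pow n)).mpr fun i => (h i).trans_lt hc
  rw [red_pow hs.serIn, h0, zero_pow hn] at e
  exact (red_ne_zero_iff hy).mpr hu e

/-- Products of approximate powers are approximate powers. -/
theorem PowApprox.mul (hc : 0 ≤ c) (hy' : SerIn P.ring y')
    (h : PowApprox K n c y) (h' : PowApprox K n c y') : PowApprox K n c (y * y') := by
  obtain ⟨s, hs, hle⟩ := h
  obtain ⟨s', hs', hle'⟩ := h'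
  refine ⟨s * s', hs.mul hs', ?_⟩
  have e : y * y' - (s * s') ^ n = (y - s ^ n) * y' + s ^ n * (y' - s' ^ n) := by ring
  rw [e]
  exact (hle.mul_serIn hc hy').add (CPlace.SerLE.serIn_mul hc (hs.serIn.pow n) hle')

/-- Powers of approximate powers are approximate powers. -/
theorem PowApprox.pow (hc : 0 ≤ c) (hy : SerIn P.ring y) (h : PowApprox K n c y)
    (k : ℕ) : PowApprox K n c (y ^ k) := by
  induction k with
  | zero => simpa using powApprox_one hc
  | succ k ih => rw [pow_succ]; exact ih.mul hc hy h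

/-- If `a b` and `b` are approximate powers and `b` has a unit coefficient then so is `a`. -/
theorem PowApprox.of_mul (hn : n ≠ 0) (hc : 0 < c) (hc1 : c < 1) (ha : SerIn P.ring a)
    (hb : SerIn P.ring b) (hub : P.UnitCoeff b) (h : PowApprox K n c (a * b))
    (h' : PowApprox K n c b) : PowApprox K n c a := by
  obtain ⟨s, hs, hle⟩ := h
  obtain ⟨t, ht, hle'⟩ := h'
  obtain ⟨w, hw, -, hwle⟩ :=
    ht.exists_invApprox (unitCoeff_of_sub_pow hn ht hb hub hc1 hle') hc hc1
  refine ⟨s * w, hs.mul hw, ?_⟩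
  have e : a - (s * w) ^ n =
      a * (1 ^ n - (t * w) ^ n) + w ^ n * (a * (t ^ n - b) + (a * b - s ^ n)) := by ring
  rw [e]
  refine (CPlace.SerLE.serIn_mul hc.le ha (CPlace.SerLE.pow_sub_pow hc.le SerIn.one
    (ht.serIn.mul hw.serIn) ?_ n)).add
    (CPlace.SerLE.serIn_mul hc.le (hw.serIn.pow n)
      ((CPlace.SerLE.serIn_mul hc.le ha ?_).add hle))
  · simpa using hwle.neg
  · simpa using hle'.neg

/-- Products of `n`-th powers in the completion are such powers. -/
theorem Triv.mul (hy' : SerIn P.ring y') (h : Triv K n y) (h' : Triv K n y') :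
    Triv K n (y * y') := fun ε hε =>
  (((h (min ε 1) (lt_min hε one_pos)).mul (lt_min hε one_pos).le hy'
    (h' (min ε 1) (lt_min hε one_pos)))).mono (min_le_left _ _)

/-- If `a b` and `b` are `n`-th powers in the completion and `b` has a unit coefficient then so is
`a`. -/
theorem Triv.of_mul (hn : n ≠ 0) (ha : SerIn P.ring a) (hb : SerIn P.ring b)
    (hub : P.UnitCoeff b) (h : Triv K n (a * b)) (h' : Triv K n b) : Triv K n a := fun ε hε => by
  have h0 : 0 < min ε (1 / 2) := lt_min hε (by norm_num)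
  exact (((h _ h0).of_mul hn h0 ((min_le_right _ _).trans_lt (by norm_num)) ha hb hub
    (h' _ h0))).mono (min_le_left _ _)

/-- A constant unit is an `n`-th power in the completion. -/
theorem triv_C {u : ℂ} (hn : n ≠ 0) (hu : P.abv u = 1) : Triv K n (HahnSeries.C u) := by
  obtain ⟨r, hr⟩ := IsAlgClosed.exists_pow_nat_eq u (Nat.pos_of_ne_zero hn)
  have hr1 : P.abv r = 1 := by
    have h := congrArg P.abv hr
    rw [map_pow, hu] at h
    exact (pow_eq_one_iff_of_nonneg (P.abv.nonneg r) hn).mp h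
  intro ε hε
  rw [← hr, map_pow]
  exact powApprox_pow (Fine.C (P.mem_ring.mpr hr1.le)) hε.le n

/-- An `n`-th power of a fine series is one in the completion. -/
theorem triv_pow (hs : Fine K s) : Triv K n (s ^ n) := fun _ hε => powApprox_pow hs hε.le n

/-! ### Products -/

theorem exists_factor_serLE {ι : Type*} (A : Finset ι) {f : ι → LaurentSeries ℂ}
    (hf : ∀ i ∈ A, Fine K (f i)) {r : ℝ} (hr : 0 ≤ r) (hA : A.Nonempty)
    (hc : c ≤ r ^ A.card) (h : P.SerLE c (∏ i ∈ A, f i)) : ∃ i ∈ A, P.SerLE r (f i) := by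
  classical
  by_contra hall
  push Not at hall
  have hne : ∀ i ∈ A, f i ≠ 0 := fun i hi h0 => hall i hi (by
    rw [h0]; exact CPlace.SerLE.zero hr)
  have hdec : ∀ i ∈ A, ∃ (u : ℂ) (g : LaurentSeries ℂ), r < P.abv u ∧ SerIn P.ring g ∧
      P.UnitCoeff g ∧ f i = HahnSeries.C u * g := by
    intro i hi
    obtain ⟨S, hS, hin⟩ := hf i hi
    obtain ⟨u, -, -, g, hg, hug, e, hle⟩ := exists_content (K.isCDVR hS) hin (hne i hi)
    refine ⟨u, g, ?_, serIn_mono hg (K.isCDVR hS).le, hug, e⟩
    by_contra hur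
    exact hall i hi (hle.mono (not_lt.mp hur))
  choose u g hu hg hug e using hdec
  have eprod : ∏ i ∈ A, f i = HahnSeries.C (∏ i ∈ A.attach, u i i.2) *
      ∏ i ∈ A.attach, g i i.2 := by
    rw [map_prod, ← Finset.prod_mul_distrib, ← Finset.prod_attach]
    exact Finset.prod_congr rfl fun i _ => e i i.2
  have hug' : SerIn P.ring (∏ i ∈ A.attach, g i i.2) ∧
      P.UnitCoeff (∏ i ∈ A.attach, g i i.2) :=
    Finset.prod_induction (fun i : A => g i i.2) (fun x => SerIn P.ring x ∧ P.UnitCoeff x)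
      (fun x y hx hy => ⟨hx.1.mul hy.1, CPlace.UnitCoeff.mul hx.1 hy.1 hx.2 hy.2⟩)
      ⟨SerIn.one, ⟨0, by simp⟩⟩ fun i _ => ⟨hg i i.2, hug i i.2⟩
  obtain ⟨m, hm⟩ := hug'.2
  have := h m
  rw [eprod, HahnSeries.C_apply, HahnSeries.coeff_single_mul, sub_zero, map_mul, hm, mul_one,
    map_prod] at this
  have hlt : r ^ A.card < ∏ i ∈ A.attach, P.abv (u i i.2) := by
    rcases hr.eq_or_lt with h0 | hpos
    · rw [← h0, zero_pow (Finset.card_ne_zero.mpr hA)]
      exact Finset.prod_pos fun i _ => hr.trans_lt (hu i i.2)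
    · rw [← Finset.card_attach, ← Finset.prod_const]
      exact Finset.prod_lt_prod_of_nonempty (fun i _ => hpos) (fun i _ => hu i i.2)
        (Finset.attach_nonempty_iff.mpr hA)
  linarith

/-- `n`-th roots of `p`-th roots. -/
theorem Triv.root (hp : p.Prime) (hn : n ≠ 0) (ha : Fine K a)
    (h : Triv K (p * n) (a ^ p)) : Triv K n a := by
  intro ε hε
  have : NeZero p := ⟨hp.ne_zero⟩
  set r := min ε (1 / 2)
  have hr : 0 < r := lt_min hε (by norm_num)
  obtain ⟨s, hs, hle⟩ := h (r ^ p) (pow_pos hr p)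
  set z : ℂ := Complex.exp (2 * Real.pi * Complex.I / p)
  have hz : IsPrimitiveRoot z p := Complex.isPrimitiveRoot_exp p hp.ne_zero
  have hzC : IsPrimitiveRoot (HahnSeries.C z : LaurentSeries ℂ) p :=
    hz.map_of_injective (f := (HahnSeries.C : ℂ →+* LaurentSeries ℂ))
      HahnSeries.C_injective
  have hpr := hzC.pow_sub_pow_eq_prod_sub_mul a (s ^ n) (NeZero.pos p)
  rw [← pow_mul, mul_comm n p] at hpr
  rw [hpr] at hle
  have hroots : ∀ μ ∈ Polynomial.nthRootsFinset p (1 : LaurentSeries ℂ),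
      ∃ u : ℂ, P.abv u = 1 ∧ μ = HahnSeries.C u := by
    intro μ hμ
    obtain ⟨i, -, rfl⟩ :=
      hzC.eq_pow_of_pow_eq_one ((Polynomial.mem_nthRootsFinset (NeZero.pos p) _).mp hμ)
    refine ⟨z ^ i, ?_, (map_pow _ _ _).symm⟩
    rw [map_pow, P.abv_eq_one_of_pow_eq_one hp.ne_zero hz.pow_eq_one, one_pow]
  obtain ⟨μ, hμ, hμle⟩ := exists_factor_serLE (K := K) _
    (f := fun μ => a - μ * s ^ n) (fun μ hμ => by
      obtain ⟨u, hu1, rfl⟩ := hroots μ hμ
      exact ha.sub ((Fine.C (P.mem_ring.mpr hu1.le)).mul (hs.pow n))) hr.le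
    ⟨1, (Polynomial.mem_nthRootsFinset (NeZero.pos p) _).mpr (one_pow _)⟩
    (le_of_eq (by rw [hzC.card_nthRootsFinset])) hle
  obtain ⟨u, hu1, rfl⟩ := hroots μ hμ
  refine PowApprox.mono ?_ (min_le_left ε (1 / 2))
  have hr1 : r < 1 := (min_le_right _ _).trans_lt (by norm_num)
  have hui : P.abv u⁻¹ = 1 := by rw [map_inv₀, hu1, inv_one]
  have hu0 : u ≠ 0 := fun h0 => by rw [h0, map_zero] at hu1; exact zero_ne_one hu1
  refine PowApprox.of_mul hn hr hr1 ha.serIn (b := HahnSeries.C u⁻¹)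
    (SerIn.C (P.mem_ring.mpr hui.le)) ⟨0, by simp [hu1]⟩ ⟨s, hs, ?_⟩
    (triv_C hn hui r hr)
  have e : a * HahnSeries.C u⁻¹ - s ^ n =
      HahnSeries.C u⁻¹ * (a - HahnSeries.C u * s ^ n) := by
    rw [mul_sub, ← mul_assoc, ← map_mul, inv_mul_cancel₀ hu0, map_one, one_mul, mul_comm]
  rw [e]
  exact CPlace.SerLE.serIn_mul hr.le (SerIn.C (P.mem_ring.mpr hui.le)) hμle

/-! ### Roots of series close to `1` -/

/-- Hensel's lemma for `n`-th roots. -/
theorem triv_of_near_one (hn : n ≠ 0) (hy : Fine K y) (hc : c < P.abv n ^ 2)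
    (h : P.SerLE c (y - 1)) : Triv K n y := by
  have hn0 : 0 < P.abv (n : ℂ) := P.abv.pos (Nat.cast_ne_zero.mpr hn)
  have hn1 := P.abv_natCast_le_one n
  -- a positive bound
  obtain ⟨d, hd0, hd, hcd⟩ : ∃ d, 0 < d ∧ d < P.abv n ^ 2 ∧ c ≤ d :=
    ⟨max c (P.abv n ^ 2 / 2), lt_max_of_lt_right (by positivity),
      max_lt hc (by linarith [pow_pos hn0 2]), le_max_left _ _⟩
  replace h := h.mono hcd
  set θ := d / P.abv n ^ 2
  have hθ0 : 0 < θ := by positivity
  have hθ1 : θ < 1 := (div_lt_one (by positivity)).mpr hd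
  have hd1 : d < 1 := hd.trans_le (pow_le_one₀ hn0.le hn1)
  have huy : P.UnitCoeff y := by
    rw [← red_ne_zero_iff hy.serIn, (red_eq_red_iff hy.serIn SerIn.one).mpr
      (fun i => (h i).trans_lt hd1), red_one]
    exact one_ne_zero
  obtain ⟨w, hw, -, hwle⟩ := hy.exists_invApprox huy hθ0 hθ1
  have step : ∀ k : ℕ, ∃ s, Fine K s ∧ P.SerLE (d * θ ^ k) (y - s ^ n) := by
    intro k
    induction k with
    | zero => exact ⟨1, Fine.one, by simpa using h⟩
    | succ k ih =>
      obtain ⟨s, hs, hle⟩ := ih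
      set e := d * θ ^ k
      have he0 : 0 < e := by positivity
      have hed : e ≤ d := mul_le_of_le_one_right hd0.le (pow_le_one₀ hθ0.le hθ1.le)
      have hen : e ≤ P.abv n := hed.trans (hd.le.trans (by nlinarith))
      set u := HahnSeries.C (n : ℂ)⁻¹ * (y - s ^ n) * w with hu
      have hXn : Fine K (HahnSeries.C (n : ℂ)⁻¹ * (y - s ^ n)) := by
        obtain ⟨S, hS, hin⟩ := hy.sub (hs.pow n)
        refine ⟨S, hS, fun i => ?_⟩
        rw [HahnSeries.C_apply, HahnSeries.coeff_single_mul, sub_zero, inv_mul_eq_div]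
        exact div_mem_of_abv_le (K.isCDVR hS) (hin i) (natCast_mem _ n)
          (Nat.cast_ne_zero.mpr hn) ((hle i).trans hen)
      have hufine : Fine K u := hXn.mul hw
      have hule : P.SerLE (e / P.abv n) u := by
        refine CPlace.SerLE.mul_serIn (by positivity) (fun i => ?_) hw.serIn
        rw [HahnSeries.C_apply, HahnSeries.coeff_single_mul, sub_zero, inv_mul_eq_div,
          map_div₀]
        exact div_le_div_of_nonneg_right (hle i) hn0.le
      refine ⟨s * (1 + u), hs.mul (Fine.one.add hufine), ?_⟩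
      obtain ⟨q, hq⟩ := Polynomial.powAddExpansion
        (⟨1, SerIn.one⟩ : Curve.Red.serSub P.ring) ⟨u, hufine.serIn⟩ n
      have hq' := congrArg Subtype.val hq
      push_cast at hq'
      have e1 : y - (s * (1 + u)) ^ n =
          (y - s ^ n) * (-(y * w - 1) + (y - s ^ n) * w) -
          s ^ n * (q : LaurentSeries ℂ) * u ^ 2 := by
        have hnu : (n : LaurentSeries ℂ) * u = (y - s ^ n) * w := by
          rw [hu, ← map_natCast (HahnSeries.C : ℂ →+* LaurentSeries ℂ), ← mul_assoc, ← mul_assoc,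
            ← map_mul, mul_inv_cancel₀ (Nat.cast_ne_zero.mpr hn), map_one, one_mul]
        rw [mul_pow, hq']
        linear_combination -(s ^ n) * hnu
      rw [e1]
      have hk : d * θ ^ (k + 1) = e * θ := by rw [pow_succ]; ring
      rw [hk]
      refine CPlace.SerLE.sub ?_ ?_
      · refine hle.mul he0.le hθ0.le (hwle.neg.add ((hle.mul_serIn he0.le hw.serIn).mono ?_))
        rw [le_div_iff₀ (by positivity)]
        nlinarith [pow_le_one₀ (n := 2) hn0.le hn1]
      · refine CPlace.SerLE.serIn_mul (by positivity) ((hs.serIn.pow n).mul q.2) ?_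
        rw [pow_two]
        refine (hule.mul (by positivity) (by positivity) hule).mono ?_
        rw [div_mul_div_comm, ← pow_two (P.abv _), mul_div_assoc']
        exact div_le_div_of_nonneg_right (mul_le_mul_of_nonneg_left hed he0.le) (by positivity)
  intro ε hε
  obtain ⟨k, hk⟩ := exists_pow_lt_of_lt_one hε hθ1
  obtain ⟨s, hs, hle⟩ := step k
  exact ⟨s, hs, hle.mono ((mul_le_of_le_one_left (by positivity) hd1.le).trans hk.le)⟩

end FermatAgent.PSEMI
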