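import Fermat.Agent.PSEMI.Coef
import Fermat.Agent.ES.Local.CuspEval
import Mathlib.LinearAlgebra.Dual.Lemmas
import Mathlib.LinearAlgebra.FreeModule.PID

/-!
# Lattices in finite-dimensional spaces of coordinate functions

A finite-dimensional space of bounded functions has a basis over one coefficient ring whose
reductions are independent.
-/

set_option autoImplicit false

noncomputable section

namespace FermatAgent.PSEMI

open FermatAgent.ES FermatAgent.Curve.Red

section Subfield

variable {L : Type*} [Field L] {X ι : Type*} [Fintype ι]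

/-- Independence with coefficients in a subfield extends to the field. -/
theorem linearIndependent_of_subfield (F : Subfield L) (v : ι → X → L)
    (hv : ∀ i x, v i x ∈ F)
    (h : ∀ c : ι → L, (∀ i, c i ∈ F) → ∑ i, c i • v i = 0 → c = 0) :
    LinearIndependent L v := by
  rw [Fintype.linearIndependent_iff]
  intro c hc i
  refine (Module.forall_dual_apply_eq_zero_iff F (c i)).mp fun φ => ?_
  refine Subtype.ext (congrFun (h (fun j => (φ (c j) : L)) (fun j => (φ (c j)).2) ?_) i)
  funext x
  have hx := congrFun hc x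
  simp only [Finset.sum_apply, Pi.smul_apply, smul_eq_mul, Pi.zero_apply] at hx ⊢
  have e := congrArg φ hx
  rw [map_sum, map_zero] at e
  have h2 := congrArg (Subtype.val : F → L) e
  rw [AddSubmonoidClass.coe_finsetSum] at h2
  refine (Finset.sum_congr rfl fun j _ => ?_).trans h2
  rw [show c j * v j x = (⟨v j x, hv j x⟩ : F) • c j from mul_comm _ _, map_smul, smul_eq_mul,
    Subfield.coe_mul, mul_comm]

/-- Coefficients of a vector defined over a subfield. -/
theorem coeff_mem_of_subfield (F : Subfield L) {v : ι → X → L} (hv : ∀ i x, v i x ∈ F)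
    (hind : LinearIndependent L v) {a : X → L} (ha : ∀ x, a x ∈ F) {c : ι → L}
    (hc : a = ∑ i, c i • v i) (i : ι) : c i ∈ F := by
  obtain ⟨φ, hφ⟩ := LinearMap.exists_leftInverse_of_injective (Algebra.linearMap F L)
    (LinearMap.ker_eq_bot.mpr Subtype.val_injective)
  have hfix : ∀ y : F, φ (y : L) = y := fun y => LinearMap.congr_fun hφ y
  have h0 : ∑ j, (c j - (φ (c j) : L)) • v j = 0 := by
    funext x
    simp only [Finset.sum_apply, Pi.smul_apply, smul_eq_mul, sub_mul, Finset.sum_sub_distrib,
      Pi.zero_apply]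
    have hx := congrFun hc x
    simp only [Finset.sum_apply, Pi.smul_apply, smul_eq_mul] at hx
    have e := congrArg φ hx
    rw [map_sum, hfix ⟨a x, ha x⟩] at e
    have h2 := congrArg (Subtype.val : F → L) e
    rw [AddSubmonoidClass.coe_finsetSum] at h2
    rw [sub_eq_zero, ← hx]
    refine Eq.trans h2 (Finset.sum_congr rfl fun j _ => ?_)
    rw [show c j * v j x = (⟨v j x, hv j x⟩ : F) • c j from mul_comm _ _, map_smul, smul_eq_mul,
      Subfield.coe_mul, mul_comm]
  have := Fintype.linearIndependent_iff.mp hind _ h0 i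
  rw [sub_eq_zero] at this
  rw [this]
  exact (φ (c i)).2

end Subfield

variable {p : ℕ} {P : CPlace p} {X : Type*}

/-- Vectors over a subring which are independent over it are independent over the complex
numbers. -/
theorem linearIndependent_of_subring {ι : Type*} [Fintype ι] (O : Subring ℂ) {b : ι → X → ℂ}
    (hb : ∀ i x, b i x ∈ O) (h : ∀ o : ι → O, ∑ i, (o i : ℂ) • b i = 0 → o = 0) :
    LinearIndependent ℂ b := by
  classical
  refine linearIndependent_of_subfield (Subfield.closure (O : Set ℂ)) b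
    (fun i x => Subfield.subset_closure (hb i x)) fun c hc h0 => ?_
  choose den hden hden0 hdenc using fun i =>
    exists_mul_mem_of_fracRing O (x := c i) (hc i)
  set D := ∏ i, den i with hD
  have hD0 : D ≠ 0 := Finset.prod_ne_zero_iff.mpr fun i _ => hden0 i
  have hDc : ∀ i, D * c i ∈ O := fun i => by
    rw [hD, ← Finset.mul_prod_erase _ _ (Finset.mem_univ i), mul_right_comm]
    exact O.mul_mem (hdenc i) (O.prod_mem fun j _ => hden j)
  have h2 := h (fun i => ⟨_, hDc i⟩) (by
    simpa [Finset.smul_sum, smul_smul] using congrArg (fun f : X → ℂ => D • f) h0)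
  funext i
  exact (mul_eq_zero.mp (congrArg Subtype.val (congrFun h2 i))).resolve_left hD0

/-- A uniformiser divides, in the ring, every element of absolute value less than `1`. -/
theorem exists_unif_div {O : Subring ℂ} (hO : P.IsCDVR O) : ∃ π : O, (π : ℂ) ≠ 0 ∧
    P.abv (π : ℂ) < 1 ∧ ∀ z ∈ O, P.abv z < 1 → z / π ∈ O := by
  obtain ⟨π, hπ0, hπ1, hval⟩ := exists_unif hO
  have hπne : (π : ℂ) ≠ 0 := fun h => by rw [h, map_zero] at hπ0; exact lt_irrefl _ hπ0
  refine ⟨π, hπne, hπ1, fun z hz hz1 => div_mem_of_abv_le hO hz π.2 hπne ?_⟩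
  rcases eq_or_ne z 0 with h | h
  · rw [h, map_zero]; exact hπ0.le
  · obtain ⟨i, hi, -⟩ := hval ⟨z, hz⟩ h
    rcases Nat.eq_zero_or_pos i with rfl | hpos
    · rw [hi, pow_zero] at hz1; exact absurd hz1 (lt_irrefl _)
    · rw [hi]; simpa using pow_le_pow_of_le_one hπ0.le hπ1.le hpos

/-- **Orthogonal bases.** -/
theorem exists_redBasis (K : Coeffs P) (W : Submodule ℂ (X → ℂ)) [FiniteDimensional ℂ W]
    (hbd : ∀ w ∈ W, ∃ a : ℂ, a ≠ 0 ∧ ∃ S : Finset ℂ, (S : Set ℂ) ⊆ P.ring ∧
      ∀ x, a * w x ∈ K.R S) :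
    ∃ (S : Finset ℂ) (_ : (S : Set ℂ) ⊆ P.ring) (d : ℕ) (b : Fin d → X → ℂ)
      (hb : ∀ i x, b i x ∈ P.ring), d = Module.finrank ℂ W ∧ (∀ i, b i ∈ W) ∧
      (∀ i x, b i x ∈ K.R S) ∧
      LinearIndependent (ResField P) fun i x => rd ⟨b i x, hb i x⟩ := by
  classical
  set e := Module.finBasis ℂ W
  choose a ha Sa hSa hin using fun i => hbd (e i : X → ℂ) (e i).2
  set S : Finset ℂ := Finset.univ.biUnion Sa with hSdef
  have hS : (S : Set ℂ) ⊆ P.ring := by
    intro x hx
    obtain ⟨i, -, hi⟩ := Finset.mem_biUnion.mp (Finset.mem_coe.mp hx)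
    exact hSa i hi
  have hmono : ∀ i, K.R (Sa i) ≤ K.R S := fun i => K.mono (Finset.coe_subset.mpr
    (Finset.subset_biUnion_of_mem Sa (Finset.mem_univ i)))
  set O := K.R S
  have hO := K.isCDVR hS
  have := hO.dvr
  -- the lattice
  let L : Submodule O (X → O) :=
    { carrier := {g | (fun x => (g x : ℂ)) ∈ W}
      zero_mem' := by
        show (fun _ : X => ((0 : O) : ℂ)) ∈ W
        exact W.zero_mem
      add_mem' := fun {g g'} hg hg' => by
        show (fun x => ((g x + g' x : O) : ℂ)) ∈ W
        exact W.add_mem hg hg'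
      smul_mem' := fun o g hg => by
        show (fun x => ((o * g x : O) : ℂ)) ∈ W
        exact W.smul_mem (o : ℂ) hg }
  obtain ⟨A, hA⟩ := ES.exists_separating W
  let proj : L →ₗ[O] (A → O) :=
    { toFun := fun g x => (g : X → O) x
      map_add' := fun _ _ => rfl
      map_smul' := fun _ _ => rfl }
  have hproj : Function.Injective proj := by
    rw [← LinearMap.ker_eq_bot, Submodule.eq_bot_iff]
    intro g hg
    have h0 := hA _ g.2 fun x hx =>
      congrArg Subtype.val (congrFun (LinearMap.mem_ker.mp hg) ⟨x, hx⟩)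
    exact Subtype.ext (funext fun x => Subtype.ext (congrFun h0 x))
  have : IsNoetherian O (A → O) := inferInstance
  have : Module.Finite O L := Module.Finite.of_injective proj hproj
  have : Module.Free O L := Module.free_of_finite_type_torsion_free'
  set d := Module.finrank O L
  set β := Module.finBasis O L
  set b : Fin d → X → ℂ := fun i x => (((β i : L) : X → O) x : ℂ) with hbdef
  have hbO : ∀ i x, b i x ∈ O := fun i x => (((β i : L) : X → O) x).2
  have hb : ∀ i x, b i x ∈ P.ring := fun i x => hO.le (hbO i x)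
  have hbW : ∀ i, b i ∈ W := fun i => (β i : L).2
  have hcomb : ∀ o : Fin d → O, (fun x => (((∑ i, o i • β i : L) : X → O) x : ℂ)) =
      ∑ i, (o i : ℂ) • b i := fun o => funext fun x => by
    simp [b, Finset.sum_apply]
  -- `ℂ`-independence
  have hindC : LinearIndependent ℂ b := by
    refine linearIndependent_of_subring O hbO fun o h0 => ?_
    have hz : (∑ i, o i • β i : L) = 0 := Subtype.ext (funext fun x =>
      Subtype.ext ((congrFun (hcomb o) x).trans (congrFun h0 x)))
    exact funext (Fintype.linearIndependent_iff.mp β.linearIndependent _ hz)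
  -- spanning
  have hspan : W ≤ Submodule.span ℂ (Set.range b) := by
    intro w hw
    rw [show w = ((⟨w, hw⟩ : W) : X → ℂ) from rfl, ← e.sum_repr ⟨w, hw⟩,
      AddSubmonoidClass.coe_finsetSum]
    refine Submodule.sum_mem _ fun i _ => Submodule.smul_mem _ _ ?_
    set g : L := ⟨fun x => ⟨a i * (e i : X → ℂ) x, hmono i (hin i x)⟩,
      W.smul_mem (a i) (e i).2⟩
    have h1 := hcomb fun j => β.repr g j
    rw [β.sum_repr g] at h1
    have h2 : (a i) • ((e i : W) : X → ℂ) ∈ Submodule.span ℂ (Set.range b) := by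
      rw [show (a i) • ((e i : W) : X → ℂ) = fun x => (((g : L) : X → O) x : ℂ) from rfl, h1]
      exact Submodule.sum_mem _ fun j _ => Submodule.smul_mem _ _
        (Submodule.subset_span (Set.mem_range_self j))
    exact (Submodule.smul_mem_iff _ (ha i)).mp h2
  have hspan' : Submodule.span ℂ (Set.range b) = W :=
    le_antisymm (Submodule.span_le.mpr (Set.range_subset_iff.mpr hbW)) hspan
  refine ⟨S, hS, d, b, hb, ?_, hbW, hbO, ?_⟩
  · have h1 := finrank_span_eq_card hindC
    rw [Fintype.card_fin] at h1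
    rw [← h1, hspan']
  -- independence of the reductions
  refine linearIndependent_of_subfield (resImage hO) _ (fun i x => ⟨⟨_, hbO i x⟩, rfl⟩)
    fun c hc h0 => ?_
  choose o ho using fun i => (mem_resImage hO).mp (hc i)
  obtain ⟨π, hπne, hπ1, hπdiv⟩ := exists_unif_div hO
  set g : L := ∑ i, o i • β i with hg
  have hsmall : ∀ x, P.abv (((g : X → O) x : O) : ℂ) < 1 := fun x => by
    have h1 := congrFun (hcomb o) x
    have h2 := congrFun h0 x
    simp only [Finset.sum_apply, Pi.smul_apply, smul_eq_mul, Pi.zero_apply] at h1 h2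
    refine rd_eq_zero_iff (x := ⟨_, hO.le ((g : X → O) x).2⟩) |>.mp (Eq.trans ?_ h2)
    rw [show (⟨_, hO.le ((g : X → O) x).2⟩ : P.ring) =
      ∑ i, Subring.inclusion hO.le (o i) * ⟨b i x, hb i x⟩ from Subtype.ext
        (h1.trans (AddSubmonoidClass.coe_finsetSum
          (fun i => Subring.inclusion hO.le (o i) * ⟨b i x, hb i x⟩) Finset.univ).symm), map_sum]
    exact Finset.sum_congr rfl fun i _ => by rw [map_mul, ho]
  have hdiv : ∀ x, (((g : X → O) x : O) : ℂ) / π ∈ O := fun x =>
    hπdiv _ ((g : X → O) x).2 (hsmall x)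
  set g' : L := ⟨fun x => ⟨_, hdiv x⟩, by
    show (fun x => (((g : X → O) x : O) : ℂ) / π) ∈ W
    rw [show (fun x => (((g : X → O) x : O) : ℂ) / π) =
      (π : ℂ)⁻¹ • fun x => (((g : X → O) x : O) : ℂ) from funext fun x => by
        simp [div_eq_inv_mul]]
    exact W.smul_mem _ g.2⟩
  have hgg : g = π • g' := Subtype.ext (funext fun x => Subtype.ext (by
    show _ = (π : ℂ) * ((((g : X → O) x : O) : ℂ) / π)
    rw [mul_div_cancel₀ _ hπne]))
  funext i
  have h3 : β.repr g i = o i := by
    rw [hg, β.repr_sum_self]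
  rw [hgg, map_smul, Finsupp.smul_apply, smul_eq_mul] at h3
  rw [← ho i, Pi.zero_apply, rd_eq_zero_iff]
  show P.abv ((o i : O) : ℂ) < 1
  rw [← h3, Subring.coe_mul, map_mul]
  exact (mul_le_of_le_one_right (P.abv.nonneg _) (hO.le (β.repr g' i).2)).trans_lt hπ1

end FermatAgent.PSEMI
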