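import Fermat.Agent.PSEMI.Twisted
import Fermat.Agent.PSEMI.Lattice
import Fermat.Agent.PSEMI.CharSeries

/-!
# Consequences of the axioms of a model, and frames of pole spaces

Closure properties of integral functions and of their reductions. A frame of a space of invariant
functions with bounded poles is a basis over one coefficient ring with independent reductions.
-/

set_option autoImplicit false

open UpperHalfPlane
open scoped MatrixGroups Manifold
open FermatAgent.Curve (SGE)

noncomputable section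

namespace FermatAgent.PSEMI

open FermatAgent.ES FermatAgent.Curve.Red

variable {p : ℕ} {P : CPlace p} {K : Coeffs P}

/-- If a nonzero multiple of an integral series has coefficients in a coefficient ring, so does the
series. -/
theorem fine_of_bound {s : LaurentSeries ℂ} {a : ℂ} (ha : a ≠ 0)
    (h : Fine K (HahnSeries.C a * s)) (hs : SerIn P.ring s) : Fine K s := by
  classical
  rcases le_total (P.abv a) 1 with ha1 | ha1
  · obtain ⟨S, hS, hin⟩ := h
    have hS' : ((insert a S : Finset ℂ) : Set ℂ) ⊆ P.ring := by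
      rw [Finset.coe_insert, Set.insert_subset_iff]; exact ⟨ha1, hS⟩
    refine ⟨_, hS', fun i => ?_⟩
    have e := hin i
    rw [HahnSeries.C_apply, HahnSeries.coeff_single_mul, sub_zero] at e
    rw [show s.coeff i = a * s.coeff i / a from (mul_div_cancel_left₀ _ ha).symm]
    refine div_mem_of_abv_le (K.isCDVR hS') (K.mono (by simp) e)
      (K.subset hS' (by simp)) ha ?_
    rw [map_mul]
    exact mul_le_of_le_one_right (P.abv.nonneg _) (hs i)
  · have e : s = HahnSeries.C a⁻¹ * (HahnSeries.C a * s) := by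
      rw [← mul_assoc, ← map_mul, inv_mul_cancel₀ ha, map_one, one_mul]
    rw [e]
    refine (Fine.C ?_).mul h
    rw [P.mem_ring, map_inv₀]
    exact inv_le_one_of_one_le₀ ha1

/-- A series with an integral positive power and a nonzero multiple over a coefficient ring is
integral. -/
theorem serIn_of_pow {s : LaurentSeries ℂ} {a : ℂ} (ha : a ≠ 0)
    (h : Fine K (HahnSeries.C a * s)) {n : ℕ} (hn : n ≠ 0) (hs : SerIn P.ring (s ^ n)) :
    SerIn P.ring s := by
  rcases eq_or_ne s 0 with rfl | hs0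
  · exact SerIn.zero
  obtain ⟨S, hS, hin⟩ := h
  have hne : HahnSeries.C a * s ≠ 0 :=
    mul_ne_zero (fun h0 => ha (HahnSeries.C_injective (h0.trans (map_zero _).symm))) hs0
  obtain ⟨b, -, hb0, s', hs', hu, e, -⟩ := exists_content (K.isCDVR hS) hin hne
  have hs'P := serIn_mono hs' (K.isCDVR hS).le
  have e2 : s = HahnSeries.C (b / a) * s' := by
    rw [div_eq_inv_mul, map_mul, mul_assoc, ← e, ← mul_assoc, ← map_mul, inv_mul_cancel₀ ha,
      map_one, one_mul]
  obtain ⟨i, hi⟩ := CPlace.UnitCoeff.pow hs'P hu n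
  have h1 := hs i
  rw [e2, mul_pow, ← map_pow, HahnSeries.C_apply, HahnSeries.coeff_single_mul, sub_zero,
    CPlace.mem_ring, map_mul, hi, mul_one, map_pow] at h1
  have hle : P.abv (b / a) ≤ 1 := (pow_le_one_iff_of_nonneg (P.abv.nonneg _) hn).mp h1
  rw [e2]
  exact (SerIn.C (P.mem_ring.mpr hle)).mul hs'P

namespace Model

variable {D : Model} {φ : D.Γ →* ℂˣ}

theorem E_sum (hφ : IsParChar D.Γ φ) {ι : Type*} (A : Finset ι) (μ : ι → ℂ) {f : ι → ℍ → ℂ}
    (hf : ∀ i ∈ A, f i ∈ D.Tw φ) (c : D.C) :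
    D.E c (∑ i ∈ A, μ i • f i) = ∑ i ∈ A, HahnSeries.C (μ i) * D.E c (f i) := by
  classical
  induction A using Finset.induction_on with
  | empty => simp [E_zero]
  | insert a A ha ih =>
    have hfA : ∀ i ∈ A, f i ∈ D.Tw φ := fun i hi => hf i (Finset.mem_insert_of_mem hi)
    rw [Finset.sum_insert ha, Finset.sum_insert ha,
      E_add hφ (Submodule.smul_mem _ _ (hf a (Finset.mem_insert_self _ _)))
        (Submodule.sum_mem _ fun i hi => Submodule.smul_mem _ _ (hfA i hi)),
      E_smul hφ (hf a (Finset.mem_insert_self _ _)), ih hfA]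

/-- The constant function `1` is integral. -/
theorem integral_one : D.Integral P 1 := fun c => by rw [E_one]; exact SerIn.one

/-- The constant function `1` reduces to `1` at every cusp. -/
theorem redT_one : D.redT P 1 = 1 := funext fun c => by
  simp only [redT, E_one, red_one, Pi.one_apply]

/-- A difference of integral invariant functions is integral. -/
theorem integral_sub {f g : ℍ → ℂ} (hf : f ∈ D.Fun) (hg : g ∈ D.Fun) (hfi : D.Integral P f)
    (hgi : D.Integral P g) : D.Integral P (f - g) := fun c => by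
  rw [E_sub isParChar_one hf hg]; exact (hfi c).sub (hgi c)

/-- A product of invariant functions is invariant. -/
theorem mul_mem_fun {f g : ℍ → ℂ} (hf : f ∈ D.Fun) (hg : g ∈ D.Fun) : f * g ∈ D.Fun := by
  have h := mul_mem hf hg
  rwa [show (1 : D.Γ →* ℂˣ) * 1 = 1 from MonoidHom.ext fun γ => by simp] at h

/-- The expansion of a product of invariant functions is the product of the expansions. -/
theorem E_mul_fun {f g : ℍ → ℂ} (hf : f ∈ D.Fun) (hg : g ∈ D.Fun) (c : D.C) :
    D.E c (f * g) = D.E c f * D.E c g :=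
  E_mul isParChar_one isParChar_one hf hg c

/-- A power of an invariant function is invariant. -/
theorem pow_mem_fun' {f : ℍ → ℂ} (hf : f ∈ D.Fun) (n : ℕ) : f ^ n ∈ D.Fun :=
  pow_mem_fun hf (MonoidHom.ext fun γ => by simp)

/-- The expansion of a power of an invariant function is the power of the expansion. -/
theorem E_pow_fun {f : ℍ → ℂ} (hf : f ∈ D.Fun) (c : D.C) (n : ℕ) :
    D.E c (f ^ n) = D.E c f ^ n :=
  E_pow isParChar_one hf c n

theorem integral_mul {f g : ℍ → ℂ} (hf : f ∈ D.Fun) (hg : g ∈ D.Fun) (hfi : D.Integral P f)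
    (hgi : D.Integral P g) : D.Integral P (f * g) := fun c => by
  rw [E_mul_fun hf hg]; exact (hfi c).mul (hgi c)

/-- A power of an integral invariant function is integral. -/
theorem integral_pow {f : ℍ → ℂ} (hf : f ∈ D.Fun) (hfi : D.Integral P f) (n : ℕ) :
    D.Integral P (f ^ n) := fun c => by
  rw [E_pow_fun hf]; exact (hfi c).pow n

/-- In a good model an integral expansion of an invariant function has coefficients in one
coefficient ring. -/
theorem Good.fine (G : D.Good K) {f : ℍ → ℂ} (hf : f ∈ D.Fun) {c : D.C}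
    (hfi : SerIn P.ring (D.E c f)) : Fine K (D.E c f) :=
  let ⟨_, ha, h⟩ := G.bound f hf c
  fine_of_bound ha h hfi

/-- A common coefficient ring of finitely many integral functions. -/
theorem Good.exists_over (G : D.Good K) {ι : Type*} [Fintype ι] {f : ι → ℍ → ℂ}
    (hf : ∀ i, f i ∈ D.Fun) (hfi : ∀ i, D.Integral P (f i)) :
    ∃ S : Finset ℂ, (S : Set ℂ) ⊆ P.ring ∧ ∀ i c, SerIn (K.R S) (D.E c (f i)) := by
  classical
  choose S hS hin using fun x : ι × D.C => G.fine (hf x.1) (hfi x.1 x.2)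
  refine ⟨Finset.univ.biUnion S, fun x hx => ?_, fun i c => serIn_mono (hin (i, c)) (K.mono ?_)⟩
  · obtain ⟨y, -, hy⟩ := Finset.mem_biUnion.mp (Finset.mem_coe.mp hx)
    exact hS y hy
  · exact Finset.coe_subset.mpr (Finset.subset_biUnion_of_mem S (Finset.mem_univ _))

/-- The largest coefficient over all cusps. -/
theorem exists_max {O : Subring ℂ} (hO : P.IsCDVR O) [Nonempty D.C]
    {s : D.C → LaurentSeries ℂ} (hs : ∀ c, SerIn O (s c)) (h0 : ∃ c, s c ≠ 0) :
    ∃ c n, (s c).coeff n ≠ 0 ∧ ∀ c' k, P.abv ((s c').coeff k) ≤ P.abv ((s c).coeff n) := by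
  classical
  obtain ⟨c0, hc0⟩ := h0
  let m : D.C → ℤ := fun c => if h : s c = 0 then 0 else (exists_max_coeff hO (hs c) h).choose
  obtain ⟨c, -, hc⟩ := Finset.exists_max_image Finset.univ
    (fun c => P.abv ((s c).coeff (m c))) Finset.univ_nonempty
  have hle : ∀ c' k, P.abv ((s c').coeff k) ≤ P.abv ((s c).coeff (m c)) := by
    intro c' k
    rcases eq_or_ne (s c') 0 with h | h
    · simp [h]
    · refine le_trans ?_ (hc c' (Finset.mem_univ _))
      simp only [m, dif_neg h]
      exact (exists_max_coeff hO (hs c') h).choose_spec.2 k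
  refine ⟨c, m c, fun h => hc0 (HahnSeries.ext (funext fun k => ?_)), hle⟩
  have h1 := hle c0 k
  rw [h, map_zero] at h1
  exact P.abv.eq_zero.mp (le_antisymm h1 (P.abv.nonneg _))

/-- At every cusp a nonzero invariant function is a scalar times a series with a unit
coefficient. -/
theorem Good.exists_unit_factor (G : D.Good K) {f : ℍ → ℂ} (hf : f ∈ D.Fun) (hf0 : f ≠ 0)
    (c : D.C) : ∃ (β : ℂ) (t : LaurentSeries ℂ), β ≠ 0 ∧ SerIn P.ring t ∧ P.UnitCoeff t ∧
      D.E c f = HahnSeries.C β * t := by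
  obtain ⟨a, ha, S, hS, hin⟩ := G.bound _ hf c
  have hne : HahnSeries.C a * D.E c f ≠ 0 :=
    mul_ne_zero (fun h0 => ha (HahnSeries.C_injective (h0.trans (map_zero _).symm)))
      fun h0 => hf0 (E_injective isParChar_one hf h0)
  obtain ⟨b, -, hb0, t, ht, hu, e, -⟩ := exists_content (K.isCDVR hS) hin hne
  refine ⟨b / a, t, div_ne_zero hb0 ha, serIn_mono ht (K.isCDVR hS).le, hu, ?_⟩
  rw [div_eq_inv_mul, map_mul, mul_assoc, ← e, ← mul_assoc, ← map_mul, inv_mul_cancel₀ ha,
    map_one, one_mul]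

/-- Scaling to integrality with nonzero reduction. -/
theorem Good.exists_scale (G : D.Good K) {f : ℍ → ℂ} (hf : f ∈ D.Fun) (hf0 : f ≠ 0) :
    ∃ a : ℂ, a ≠ 0 ∧ D.Integral P (a • f) ∧ ∃ c, P.UnitCoeff (D.E c (a • f)) := by
  classical
  have := G.nonempty
  choose v t hv ht hu e using G.exists_unit_factor hf hf0
  obtain ⟨c0, -, hc0⟩ := Finset.exists_max_image Finset.univ (fun c => P.abv (v c))
    Finset.univ_nonempty
  refine ⟨(v c0)⁻¹, inv_ne_zero (hv c0), fun c => ?_, c0, ?_⟩
  · rw [E_smul isParChar_one hf, e c, ← mul_assoc, ← map_mul]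
    refine (SerIn.C (P.mem_ring.mpr ?_)).mul (ht c)
    rw [map_mul, map_inv₀, inv_mul_le_one₀ (P.abv.pos (hv c0))]
    exact hc0 c (Finset.mem_univ c)
  · rw [E_smul isParChar_one hf, e c0, ← mul_assoc, ← map_mul, inv_mul_cancel₀ (hv c0), map_one,
      one_mul]
    exact hu c0

/-- A reduction which vanishes at the basic cusps vanishes. -/
theorem Good.basic_zero (G : D.Good K) [hp : Fact p.Prime] {f : ℍ → ℂ} (hf : f ∈ D.Fun)
    (hfi : D.Integral P f) (h : ∀ c ∈ G.basic, D.redT P f c = 0) (c : D.C) :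
    D.redT P f c = 0 := by
  by_contra hne
  obtain ⟨a, ha⟩ := G.basic_spec f hf hfi (fun b hb => ⟨0, by
    rw [h b hb, zero_pow hp.out.ne_zero]⟩) c
  set o := p * G.o0 + 1 with ho
  obtain ⟨g, hg, hgi, hgord, hlead, -⟩ := G.top c o (by
    have := Nat.le_mul_of_pos_left G.o0 hp.out.pos; omega)
  have hmul : ∀ c', D.redT P (f * g) c' = D.redT P f c' * D.redT P g c' := fun c' => by
    simp only [redT, E_mul_fun hf hg]
    exact red_mul (hfi c') (hgi c')
  obtain ⟨b, hb⟩ := G.basic_spec (f * g) (mul_mem_fun hf hg) (integral_mul hf hg hfi hgi)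
    (fun c' hc' => ⟨0, by rw [hmul, h c' hc', zero_mul, zero_pow hp.out.ne_zero]⟩) c
  rw [hmul, ha] at hb
  have ha0 : a ≠ 0 := fun h0 => hne (by rw [ha, h0, zero_pow hp.out.ne_zero])
  have e : D.redT P g c = (b / a) ^ p := by
    rw [div_pow, ← hb, mul_div_cancel_left₀ _ (pow_ne_zero _ ha0)]
  have hcoeff : (D.redT P g c).coeff (-(o : ℤ)) ≠ 0 := by
    rw [redT, coeff_red (hgi c), rd_ne_zero_iff]
    exact hlead
  have hord : (D.redT P g c).order = -(o : ℤ) :=
    le_antisymm (HahnSeries.order_le_of_coeff_ne_zero hcoeff)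
      ((sge_red (hgi c) hgord).le_order fun h0 => hcoeff (by simp only [redT, h0]; rfl))
  rw [e, Curve.order_pow] at hord
  have h1 : (p : ℤ) ∣ (o : ℤ) := ⟨-(b / a).order, by rw [mul_neg, hord, neg_neg]⟩
  rw [ho, Nat.cast_add, Nat.cast_mul, dvd_add_right (dvd_mul_right _ _)] at h1
  have := Int.le_of_dvd one_pos h1
  have := hp.out.two_le
  omega

/-- Roots with bounded poles. -/
theorem Good.exists_root_pole (G : D.Good K) [hp : Fact p.Prime] {n : ℕ} (hn : G.o0 ≤ n)
    {f : ℍ → ℂ} (hf : f ∈ D.Fun) (hfi : D.Integral P f)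
    {a : D.C → LaurentSeries (ResField P)} (ha : D.redT P f = a ^ p)
    (hord : ∀ c, SGE ((p : ℤ) * -(n : ℤ)) (D.redT P f c)) :
    ∃ g ∈ D.LamF (n : ℤ), D.Integral P g ∧ D.redT P g = a := by
  obtain ⟨g, hg, hgi, e⟩ := G.rootClosed a ⟨f, hf, hfi, ha⟩
  obtain ⟨g', hg', hgi', e'⟩ := G.exists_lift_pole hn hg hgi fun c => by
    rw [e]
    refine sge_of_pow hp.out.ne_zero ?_
    have := hord c
    rwa [ha] at this
  exact ⟨g', hg', hgi', e'.trans e⟩

/-! ### Frames -/

/-- The coordinates of a function. -/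
def coord (u : ℍ → ℂ) : D.C × ℤ → ℂ := fun x => (D.E x.1 u).coeff x.2

/-- A basis of a pole space with independent reductions. -/
structure Frame (D : Model) (K : Coeffs P) (n : ℤ) where
  /-- The size. -/
  d : ℕ
  /-- The basis. -/
  b : Fin d → ℍ → ℂ
  /-- The coefficient set. -/
  S : Finset ℂ
  sub : (S : Set ℂ) ⊆ P.ring
  mem : ∀ i, b i ∈ D.LamF n
  ovr : ∀ i c, SerIn (K.R S) (D.E c (b i))
  card : d = Module.finrank ℂ (D.LamF n)
  indep : LinearIndependent (ResField P) fun i => D.redT P (b i)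
  span : ∀ g ∈ D.LamF n, ∃ μ : Fin d → ℂ, g = ∑ i, μ i • b i

namespace Frame

variable {n : ℤ} (F : Frame D K n)

theorem memFun (i : Fin F.d) : F.b i ∈ D.Fun := (F.mem i).1

/-- The functions of a frame are integral. -/
theorem integral (i : Fin F.d) : D.Integral P (F.b i) :=
  fun c => serIn_mono (F.ovr i c) (K.isCDVR F.sub).le

/-- The expansion of a combination of the frame functions is the combination of their expansions. -/
theorem E_comb (μ : Fin F.d → ℂ) (c : D.C) :
    D.E c (∑ i, μ i • F.b i) = ∑ i, HahnSeries.C (μ i) * D.E c (F.b i) :=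
  E_sum isParChar_one _ μ (fun i _ => F.memFun i) c

/-- Combinations of the frame functions lie in the pole space. -/
theorem comb_mem (μ : Fin F.d → ℂ) : ∑ i, μ i • F.b i ∈ D.LamF n :=
  Submodule.sum_mem _ fun i _ => Submodule.smul_mem _ _ (F.mem i)

/-- Combinations of the frame functions with integral coefficients are integral. -/
theorem integral_comb {μ : Fin F.d → ℂ} (hμ : ∀ i, μ i ∈ P.ring) :
    D.Integral P (∑ i, μ i • F.b i) := fun c => by
  rw [E_comb]
  exact SerIn.sum _ fun i _ => (SerIn.C (hμ i)).mul (F.integral i c)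

theorem redT_comb {μ : Fin F.d → ℂ} (hμ : ∀ i, μ i ∈ P.ring) :
    D.redT P (∑ i, μ i • F.b i) = ∑ i, rd ⟨μ i, hμ i⟩ • D.redT P (F.b i) := by
  funext c
  simp only [redT, Finset.sum_apply, Pi.smul_apply, E_comb]
  have key : ∀ A : Finset (Fin F.d),
      red (P := P) (∑ i ∈ A, HahnSeries.C (μ i) * D.E c (F.b i)) =
        ∑ i ∈ A, rd ⟨μ i, hμ i⟩ • red (D.E c (F.b i)) := by
    intro A
    induction A using Finset.induction_on with
    | empty => simp [red_zero]
    | insert a A ha ih =>
      have hs : ∀ i, SerIn P.ring (HahnSeries.C (μ i) * D.E c (F.b i)) :=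
        fun i => (SerIn.C (hμ i)).mul (F.integral i c)
      rw [Finset.sum_insert ha, Finset.sum_insert ha, red_add (hs a) (SerIn.sum _ fun i _ => hs i),
        ih, red_mul (SerIn.C (hμ a)) (F.integral a c), red_C (hμ a), HahnSeries.C_mul_eq_smul]
  exact key _

/-- If all expansions of a combination of a frame have coefficients of absolute value `≤ r`, so does
the combination, as the reductions of the frame are independent. -/
theorem abv_le (μ : Fin F.d → ℂ) {r : ℝ}
    (h : ∀ c, P.SerLE r (D.E c (∑ i, μ i • F.b i))) (hr : 0 ≤ r) (i : Fin F.d) :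
    P.abv (μ i) ≤ r := by
  obtain ⟨j, -, hj⟩ := Finset.exists_max_image Finset.univ (fun i => P.abv (μ i))
    ⟨i, Finset.mem_univ i⟩
  refine (hj i (Finset.mem_univ i)).trans ?_
  by_contra hlt
  push Not at hlt
  have hμj : μ j ≠ 0 := fun h0 => by rw [h0, map_zero] at hlt; exact hlt.not_ge hr
  set ν : Fin F.d → ℂ := fun i => μ i / μ j
  have hν : ∀ i, ν i ∈ P.ring := fun i => by
    rw [P.mem_ring, map_div₀]
    exact div_le_one_of_le₀ (hj i (Finset.mem_univ i)) (P.abv.nonneg _)
  have h0 : D.redT P (∑ i, ν i • F.b i) = 0 := funext fun c => by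
    refine (red_eq_zero_iff (F.integral_comb hν c)).mpr fun k => ?_
    rw [show ∑ i, ν i • F.b i = (μ j)⁻¹ • ∑ i, μ i • F.b i by
      rw [Finset.smul_sum]; simp only [ν, div_eq_inv_mul, mul_smul],
      coeff_E_smul isParChar_one (F.comb_mem μ).1, map_mul, map_inv₀,
      inv_mul_lt_one₀ (P.abv.pos hμj)]
    exact (h c k).trans_lt hlt
  rw [F.redT_comb hν] at h0
  have h1 := Fintype.linearIndependent_iff.mp F.indep _ h0 j
  rw [rd_eq_zero_iff] at h1
  simp [ν, hμj] at h1

/-- An integral function of the pole space is a combination with integral coefficients, and its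
reduction is the reduced combination. -/
theorem exists_repr {g : ℍ → ℂ} (hg : g ∈ D.LamF n) (hgi : D.Integral P g) :
    ∃ (μ : Fin F.d → ℂ) (hμ : ∀ i, μ i ∈ P.ring), g = ∑ i, μ i • F.b i ∧
      D.redT P g = ∑ i, rd ⟨μ i, hμ i⟩ • D.redT P (F.b i) := by
  obtain ⟨μ, rfl⟩ := F.span g hg
  have hμ : ∀ i, μ i ∈ P.ring := F.abv_le μ (r := 1) hgi zero_le_one
  exact ⟨μ, hμ, rfl, F.redT_comb hμ⟩

/-- Lifting over a given coefficient ring. -/
theorem exists_lift_over {S : Finset ℂ} (hS : (S : Set ℂ) ⊆ P.ring) (hle : F.S ⊆ S)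
    {g : ℍ → ℂ} (hg : g ∈ D.LamF n) (hgi : D.Integral P g)
    (hcoef : ∀ c i, (D.redT P g c).coeff i ∈ resImage (K.isCDVR hS)) :
    ∃ h ∈ D.LamF n, (∀ c, SerIn (K.R S) (D.E c h)) ∧ D.redT P h = D.redT P g := by
  obtain ⟨μ, hμ, -, e⟩ := F.exists_repr hg hgi
  have hmono : K.R F.S ≤ K.R S := K.mono (Finset.coe_subset.mpr hle)
  have hli : LinearIndependent (ResField P)
      fun i => fun x : D.C × ℤ => (D.redT P (F.b i) x.1).coeff x.2 := by
    rw [Fintype.linearIndependent_iff]
    intro w hw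
    refine Fintype.linearIndependent_iff.mp F.indep w (funext fun c => HahnSeries.ext
      (funext fun k => ?_))
    simpa [Finset.sum_apply] using congrFun hw (c, k)
  have hmem := coeff_mem_of_subfield (resImage (K.isCDVR hS))
    (v := fun i => fun x : D.C × ℤ => (D.redT P (F.b i) x.1).coeff x.2)
    (fun i x => coeff_red_mem _ (serIn_mono (F.ovr i x.1) hmono) x.2) hli
    (a := fun x => (D.redT P g x.1).coeff x.2) (fun x => hcoef x.1 x.2)
    (c := fun i => rd ⟨μ i, hμ i⟩) (funext fun x => by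
      rw [e]; simp [Finset.sum_apply])
  choose o ho using fun i => (mem_resImage (K.isCDVR hS)).mp (hmem i)
  refine ⟨_, F.comb_mem fun i => (o i : ℂ), fun c => ?_, ?_⟩
  · rw [F.E_comb]
    exact SerIn.sum _ fun i _ => (SerIn.C (o i).2).mul (serIn_mono (F.ovr i c) hmono)
  · rw [F.redT_comb (fun i => (K.isCDVR hS).le (o i).2), e]
    exact Finset.sum_congr rfl fun i _ => by rw [← ho i]; rfl

end Frame

/-- A linear map with bounded values has a basis with independent reductions. -/
theorem exists_orthoBasis {V : Submodule ℂ (ℍ → ℂ)} [FiniteDimensional ℂ V] {X : Type*}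
    (T : V →ₗ[ℂ] (X → ℂ)) (hT : Function.Injective T)
    (hbd : ∀ v, ∃ a : ℂ, a ≠ 0 ∧ ∃ S : Finset ℂ, (S : Set ℂ) ⊆ P.ring ∧
      ∀ x, a * T v x ∈ K.R S) :
    ∃ (S : Finset ℂ) (_ : (S : Set ℂ) ⊆ P.ring) (d : ℕ) (b : Fin d → V)
      (hb : ∀ i x, T (b i) x ∈ P.ring), d = Module.finrank ℂ V ∧
      Submodule.span ℂ (Set.range b) = ⊤ ∧ (∀ i x, T (b i) x ∈ K.R S) ∧
      LinearIndependent (ResField P) fun i x => rd ⟨T (b i) x, hb i x⟩ := by
  obtain ⟨S, hS, d, w, hw, hd, hwW, hwO, hind⟩ := exists_redBasis K (LinearMap.range T)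
    (by rintro _ ⟨v, rfl⟩; exact hbd v)
  choose b hb using hwW
  obtain rfl : w = fun i => T (b i) := funext fun i => (hb i).symm
  rw [LinearMap.finrank_range_of_inj hT] at hd
  refine ⟨S, hS, d, b, hw, hd, ?_, hwO, hind⟩
  refine LinearIndependent.span_eq_top_of_card_eq_finrank' ?_ (by simp [hd])
  rw [Fintype.linearIndependent_iff]
  intro μ hμ
  by_contra hne
  push Not at hne
  obtain ⟨i0, hi0⟩ := hne
  obtain ⟨j, -, hj⟩ := Finset.exists_max_image Finset.univ (fun i => P.abv (μ i))
    ⟨i0, Finset.mem_univ i0⟩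
  have hμj : μ j ≠ 0 := fun h0 => hi0 (P.abv.eq_zero.mp (le_antisymm (by
    simpa [h0] using hj i0 (Finset.mem_univ _)) (P.abv.nonneg _)))
  set ν : Fin d → ℂ := fun i => μ i / μ j
  have hν : ∀ i, ν i ∈ P.ring := fun i => by
    rw [P.mem_ring, map_div₀]
    exact div_le_one_of_le₀ (hj i (Finset.mem_univ i)) (P.abv.nonneg _)
  have h1 := Fintype.linearIndependent_iff.mp hind (fun i => rd ⟨ν i, hν i⟩) (funext fun x => by
    have h2 := congrFun (congrArg T hμ) x
    rw [map_sum, map_zero, Finset.sum_apply] at h2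
    simp only [map_smul, Pi.smul_apply, smul_eq_mul, Pi.zero_apply] at h2
    simp only [Finset.sum_apply, Pi.smul_apply, smul_eq_mul, Pi.zero_apply, ← map_mul, ← map_sum]
    refine rd_eq_zero_iff.mpr ?_
    rw [AddSubmonoidClass.coe_finsetSum]
    simp only [Subring.coe_mul, ν, div_mul_eq_mul_div]
    rw [← Finset.sum_div, h2, zero_div, map_zero]
    exact one_pos) j
  rw [rd_eq_zero_iff] at h1
  simp [ν, hμj] at h1

/-- Coordinates of invariant functions. -/
def coordMap {φ : D.Γ →* ℂˣ} (hφ : IsParChar D.Γ φ) (n : ℤ) :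
    D.Lam hφ n →ₗ[ℂ] (D.C × ℤ → ℂ) :=
  LinearMap.pi fun x => coeffForm hφ n x.1 x.2

/-- A good model has a frame for every bound on the pole orders. -/
theorem Good.exists_frame (G : D.Good K) [Fact p.Prime] (n : ℤ) : Nonempty (Frame D K n) := by
  classical
  have := G.nonempty
  have hpar := isParChar_one (D := D)
  have := G.finiteDimensional hpar (MonoidHom.ext fun γ => by simp) n
  have hinj : Function.Injective (coordMap hpar n) := by
    rw [← LinearMap.ker_eq_bot, Submodule.eq_bot_iff]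
    intro u hu
    refine Subtype.ext (E_injective hpar u.2.1 (c := Classical.arbitrary D.C) ?_)
    exact HahnSeries.ext (funext fun k => congrFun (LinearMap.mem_ker.mp hu) (_, k))
  obtain ⟨S, hS, d, b, hb, hd, hspan, hO, hind⟩ := exists_orthoBasis (K := K) (coordMap hpar n) hinj
    fun v => by
      choose a ha S hS hin using fun c => G.bound v v.2.1 c
      obtain ⟨A, hA0, hAi, -⟩ | h0 : (∃ A : ℂ, A ≠ 0 ∧ D.Integral P (A • (v : ℍ → ℂ)) ∧
          ∃ c, P.UnitCoeff (D.E c (A • (v : ℍ → ℂ)))) ∨ (v : ℍ → ℂ) = 0 := by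
        rcases eq_or_ne (v : ℍ → ℂ) 0 with h | h
        · exact Or.inr h
        · exact Or.inl (G.exists_scale v.2.1 h)
      · obtain ⟨T, hT, hover⟩ := G.exists_over (f := fun _ : Unit => A • (v : ℍ → ℂ))
          (fun _ => Submodule.smul_mem _ _ v.2.1) (fun _ => hAi)
        refine ⟨A, hA0, T, hT, fun x => ?_⟩
        have := hover () x.1 x.2
        rwa [coeff_E_smul hpar v.2.1] at this
      · refine ⟨1, one_ne_zero, ∅, by simp, fun x => ?_⟩
        have : coordMap hpar n v = 0 := by
          rw [show v = 0 from Subtype.ext h0, map_zero]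
        simp [this]
  refine ⟨⟨d, fun i => (b i : ℍ → ℂ), S, hS, fun i => (b i).2, fun i c k => hO i (c, k), hd, ?_,
    fun g hg => ?_⟩⟩
  · rw [Fintype.linearIndependent_iff]
    intro w hw
    refine Fintype.linearIndependent_iff.mp hind w (funext fun x => ?_)
    have h := congrArg (fun s : LaurentSeries (ResField P) => s.coeff x.2) (congrFun hw x.1)
    simp only [Finset.sum_apply, Pi.smul_apply, Pi.zero_apply, redT, HahnSeries.coeff_sum,
      HahnSeries.coeff_smul, HahnSeries.coeff_zero, smul_eq_mul] at h ⊢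
    refine (Finset.sum_congr rfl fun i _ => ?_).trans h
    rw [coeff_red (fun k => hb i (x.1, k))]
    rfl
  · have h : (⟨g, hg⟩ : D.LamF n) ∈ Submodule.span ℂ (Set.range b) := hspan ▸ Submodule.mem_top
    obtain ⟨μ, hμ⟩ := (Submodule.mem_span_range_iff_exists_fun ℂ).mp h
    refine ⟨μ, ?_⟩
    have := congrArg Subtype.val hμ
    simpa [AddSubmonoidClass.coe_finsetSum] using this.symm

end Model

end FermatAgent.PSEMI
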