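import Fermat.Agent.PSEMI.Good
import Fermat.Agent.PSEMI.Twisted
import Fermat.Agent.BAD.Level
import Fermat.Agent.Period.JInjective
import Fermat.Agent.Curve.Red.JLevel

/-!
# Zeros are at most poles

For a group without elliptic elements the product of the conjugates of an invariant function is a
polynomial in `j`; counting its roots with multiplicity bounds the zeros by the poles.
-/

set_option autoImplicit false

open UpperHalfPlane Filter
open scoped MatrixGroups Manifold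

noncomputable section

namespace FermatAgent.PSEMI

open FermatAgent.ES (HasExp HasLExp lexp lexp_eq qm act vanishOrd twistSer zetaC
  mul_ne_zero_of_mdiff)
open FermatAgent.Curve (jFun qw)
open FermatAgent.Period (jfun e4 e6 dsc)
open ModularCurve (qExpand jqModC)
open ModularGroup (S T)

/-! ### Orders of `j - j τ` and stabilisers -/

/-- The vanishing order as a natural number. -/
def ordN (f : ℍ → ℂ) (τ : ℍ) : ℕ := (vanishOrd f τ).toNat

theorem ordN_mul {f g : ℍ → ℂ} (hf : MDiff f) (hg : MDiff g) (hf0 : f ≠ 0) (hg0 : g ≠ 0) (τ : ℍ) :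
    ordN (f * g) τ = ordN f τ + ordN g τ := by
  rw [ordN, ES.vanishOrd_mul hf hg, ENat.toNat_add (ES.vanishOrd_ne_top hf hf0 τ)
    (ES.vanishOrd_ne_top hg hg0 τ)]
  rfl

theorem prod_ne_zero' {ι : Type} (s : Finset ι) {F : ι → ℍ → ℂ} (h : ∀ i ∈ s, MDiff (F i))
    (h0 : ∀ i ∈ s, F i ≠ 0) : (∏ i ∈ s, F i) ≠ 0 := by
  classical
  induction s using Finset.induction_on with
  | empty => rw [Finset.prod_empty]; exact one_ne_zero
  | insert i s hi ih =>
    rw [Finset.prod_insert hi]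
    exact mul_ne_zero_of_mdiff (MDifferentiable.prod fun j hj => h j (by simp [hj])) (h i (by simp))
      (h0 i (by simp)) (ih (fun j hj => h j (by simp [hj])) fun j hj => h0 j (by simp [hj]))

theorem ordN_prod {ι : Type} (s : Finset ι) {F : ι → ℍ → ℂ} (h : ∀ i ∈ s, MDiff (F i))
    (h0 : ∀ i ∈ s, F i ≠ 0) (τ : ℍ) : ordN (∏ i ∈ s, F i) τ = ∑ i ∈ s, ordN (F i) τ := by
  classical
  induction s using Finset.induction_on with
  | empty =>
    rw [Finset.prod_empty, Finset.sum_empty, ordN,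
      (ES.vanishOrd_eq_zero (f := (1 : ℍ → ℂ)) mdifferentiable_const).mpr one_ne_zero]
    rfl
  | insert i s hi ih =>
    have hs : ∀ j ∈ s, MDiff (F j) := fun j hj => h j (by simp [hj])
    have hs0 : ∀ j ∈ s, F j ≠ 0 := fun j hj => h0 j (by simp [hj])
    rw [Finset.prod_insert hi, Finset.sum_insert hi,
      ordN_mul (h i (by simp)) (MDifferentiable.prod hs) (h0 i (by simp)) (prod_ne_zero' s hs hs0),
      ih hs hs0]

/-- The order of `j - j τ` at `τ`. -/
def ellMult (τ : ℍ) : ℕ := if e4 τ = 0 then 3 else if e6 τ = 0 then 2 else 1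

theorem ellMult_pos (τ : ℍ) : 0 < ellMult τ := by unfold ellMult; split_ifs <;> norm_num

theorem mdiff_jfun_sub (a : ℂ) : MDiff fun z => jfun z - a :=
  Period.jfun_mdiff.sub mdifferentiable_const

theorem vanishOrd_simple {f : ℍ → ℂ} (hf : MDiff f) {τ : ℍ} (h0 : f τ = 0)
    (hd : deriv (f ∘ ofComplex) τ ≠ 0) : vanishOrd f τ = 1 := by
  have h := (ES.analyticAt_of_mdiff hf τ).analyticOrderAt_sub_eq_one_of_deriv_ne_zero hd
  simp only [Function.comp_apply, ofComplex_apply, h0, sub_zero] at h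
  exact h

theorem mdiff_inv_dsc : MDiff fun z => 1 / dsc z :=
  MDifferentiable.div mdifferentiable_const Period.dsc_mdiff Period.dsc_ne_zero

theorem vanishOrd_inv_dsc (τ : ℍ) : vanishOrd (fun z => 1 / dsc z) τ = 0 :=
  (ES.vanishOrd_eq_zero mdiff_inv_dsc).mpr (one_div_ne_zero (Period.dsc_ne_zero τ))

theorem ordN_jfun_sub (τ : ℍ) : ordN (fun z => jfun z - jfun τ) τ = ellMult τ := by
  unfold ellMult ordN
  split_ifs with h4 h6
  · have e : (fun z => jfun z - jfun τ) = e4 ^ 3 * fun z => 1 / dsc z := by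
      funext z
      rw [(Period.jfun_eq_zero_iff τ).mpr h4, Pi.mul_apply, Pi.pow_apply, jfun]
      ring
    rw [e, ES.vanishOrd_mul (Period.e4_mdiff.pow 3) mdiff_inv_dsc, ES.vanishOrd_pow Period.e4_mdiff,
      vanishOrd_simple Period.e4_mdiff h4 (Period.deriv_e4_ne_zero h4), vanishOrd_inv_dsc]
    rfl
  · have e : (fun z => jfun z - jfun τ) = e6 ^ 2 * fun z => 1 / dsc z := by
      funext z
      rw [(Period.jfun_eq_1728_iff τ).mpr h6, Pi.mul_apply, Pi.pow_apply, jfun]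
      have hd := Period.dsc_ne_zero z
      field_simp
      rw [Period.dsc_eq]
      ring
    rw [e, ES.vanishOrd_mul (Period.e6_mdiff.pow 2) mdiff_inv_dsc, ES.vanishOrd_pow Period.e6_mdiff,
      vanishOrd_simple Period.e6_mdiff h6 (Period.deriv_e6_ne_zero h6), vanishOrd_inv_dsc]
    rfl
  · have h :=
      (ES.analyticAt_of_mdiff Period.jfun_mdiff τ).analyticOrderAt_sub_eq_one_of_deriv_ne_zero
      (Period.deriv_jfun_ne_zero h4 h6)
    simp only [Function.comp_apply, ofComplex_apply] at h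
    rw [vanishOrd]
    simp only [Function.comp_def] at h ⊢
    rw [h]
    rfl

/-- No conjugate of an elliptic element lies in `Γ`. -/
def NoElliptic (Γ : Subgroup SL(2, ℤ)) : Prop :=
  ∀ g : SL(2, ℤ), g * S * g⁻¹ ∉ Γ ∧ g * (S * T) * g⁻¹ ∉ Γ ∧ g * (S * T) ^ 2 * g⁻¹ ∉ Γ

theorem S_T_smul_rho : (S * T : SL(2, ℤ)) • ρ = ρ := by
  apply UpperHalfPlane.ext
  rw [mul_smul, modular_T_smul, modular_S_smul]
  simp only [coe_vadd]
  have h1 : (1 : ℂ) + (ρ : ℂ) ≠ 0 := by
    intro h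
    have := congrArg Complex.im h
    simp at this
    exact absurd this ρ.im_pos.ne'
  push_cast
  field_simp
  linear_combination (-1 : ℂ) * ρ_sq

theorem S_mul_T_ne : (S * T : SL(2, ℤ)) ≠ S := fun h => by
  have h1 : (T : SL(2, ℤ)) = 1 := mul_left_cancel (a := (S : SL(2, ℤ))) (by rw [h, mul_one])
  simpa [ModularGroup.coe_T] using congrArg (fun g : SL(2, ℤ) => g 0 1) h1

/-- Without elliptic elements two distinct powers of a conjugate of `S T` or `S` differ modulo every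
conjugate of `Γ`. -/
theorem NoElliptic.of_pow {Γ : Subgroup SL(2, ℤ)} (h : NoElliptic Γ) (g a : SL(2, ℤ)) (u : SL(2, ℤ))
    (hu : u = S * T ∨ u = S) {i j : ℕ} (hij : i < j) (hj : j < if u = S then 2 else 3) :
    g * (a * u ^ i * a⁻¹ * (a * u ^ j * a⁻¹)⁻¹) * g⁻¹ ∉ Γ := by
  intro hmem
  obtain ⟨d, rfl⟩ : ∃ d, j = i + (d + 1) := ⟨j - i - 1, by omega⟩
  have hmem2 : g * a * u ^ (d + 1) * (g * a)⁻¹ ∈ Γ := by
    have := Γ.inv_mem hmem
    convert this using 1
    rw [pow_add]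
    group
  obtain ⟨h1, h2, h3⟩ := h (g * a)
  rcases hu with rfl | rfl
  · rw [if_neg S_mul_T_ne] at hj
    obtain rfl | rfl : d = 0 ∨ d = 1 := by omega
    · rw [zero_add, pow_one] at hmem2; exact h2 hmem2
    · exact h3 hmem2
  · rw [if_pos rfl] at hj
    obtain rfl : d = 0 := by omega
    rw [zero_add, pow_one] at hmem2; exact h1 hmem2

/-- Stabilising elements in distinct cosets. -/
theorem exists_stab {Γ : Subgroup SL(2, ℤ)} (h : NoElliptic Γ) (τ : ℍ) :
    ∃ s : Fin (ellMult τ) → SL(2, ℤ), (∀ i, s i • τ = τ) ∧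
      ∀ i j g, g * (s i * (s j)⁻¹) * g⁻¹ ∈ Γ → i = j := by
  have key : ∀ (u : SL(2, ℤ)) (n : ℕ) (σ : ℍ), (u = S * T ∨ u = S) → n ≤ (if u = S then 2 else 3) →
      u • σ = σ → (∃ a : SL(2, ℤ), a • σ = τ) →
      ∃ s : Fin n → SL(2, ℤ), (∀ i, s i • τ = τ) ∧
        ∀ i j g, g * (s i * (s j)⁻¹) * g⁻¹ ∈ Γ → i = j := by
    intro u n σ hu hn hfix ⟨a, ha⟩
    have hpow : ∀ i : ℕ, u ^ i • σ = σ := fun i => by
      induction i with
      | zero => simp
      | succ i ih => rw [pow_succ, mul_smul, hfix, ih]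
    refine ⟨fun i => a * u ^ (i : ℕ) * a⁻¹, fun i => ?_, fun i j g hij => ?_⟩
    · rw [← ha, mul_smul, inv_smul_smul, mul_smul, hpow]
    · rcases lt_trichotomy (i : ℕ) (j : ℕ) with hlt | heq | hgt
      · exact absurd hij (h.of_pow g a u hu hlt (j.2.trans_le hn))
      · exact Fin.ext heq
      · refine absurd ?_ (h.of_pow g a u hu hgt (i.2.trans_le hn))
        have := Γ.inv_mem hij
        convert this using 1
        group
  by_cases h4 : e4 τ = 0
  · rw [show ellMult τ = 3 from if_pos h4]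
    exact key (S * T) 3 ρ (Or.inl rfl)
      (by rw [if_neg S_mul_T_ne]) S_T_smul_rho
      (Period.slEquiv_rho_of_e4_eq_zero h4)
  by_cases h6 : e6 τ = 0
  · rw [show ellMult τ = 2 by rw [ellMult, if_neg h4, if_pos h6]]
    exact key S 2 UpperHalfPlane.I (Or.inr rfl) (by simp) Curve.S_smul_I
      (Period.slEquiv_I_of_e6_eq_zero h6)
  · rw [show ellMult τ = 1 by rw [ellMult, if_neg h4, if_neg h6]]
    exact ⟨fun _ => 1, fun _ => one_smul _ _, fun i j _ _ => Subsingleton.elim i j⟩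

/-! ### The product over the cosets -/

/-- A series with a nonzero coefficient at `k` and none below has order `k`. -/
theorem order_eq_of_coeff {R : Type*} [Zero R] {s : LaurentSeries R} {k : ℤ}
    (h : s.coeff k ≠ 0) (hlt : ∀ n < k, s.coeff n = 0) : s.order = k := by
  refine le_antisymm (HahnSeries.order_le_of_coeff_ne_zero h) ?_
  by_contra hno
  push Not at hno
  have hs : s ≠ 0 := fun h0 => h (by simp [h0])
  exact HahnSeries.coeff_order_eq_zero.not.mpr hs (hlt _ hno)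

theorem order_qExpand_sub (N : ℕ) [NeZero N] (a : ℂ) :
    (qExpand ℂ N (jqModC ℂ) - HahnSeries.C a).order = -(N : ℤ) := by
  obtain ⟨h1, hlt⟩ := Curve.Red.lead_qExpand_jqModC N
  have hN : (0 : ℤ) < N := Nat.cast_pos.mpr (NeZero.pos N)
  refine order_eq_of_coeff ?_ fun n hn => ?_
  · rw [HahnSeries.coeff_sub, HahnSeries.C_apply, HahnSeries.coeff_single_of_ne (by omega), h1,
      sub_zero]
    exact one_ne_zero
  · rw [HahnSeries.coeff_sub, HahnSeries.C_apply, HahnSeries.coeff_single_of_ne (by omega),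
      hlt n hn, sub_zero]

/-- An invariant function with an expansion is a product of `j - r`. -/
theorem exists_prod_jFun {lev : ℕ} [NeZero lev] {N : ℍ → ℂ} {s : LaurentSeries ℂ}
    (hinv : ∀ (γ : SL(2, ℤ)) τ, N (γ • τ) = N τ) (hs : HasLExp lev N s) (hN : N ≠ 0) :
    ∃ (a : ℂ) (R : Multiset ℂ), a ≠ 0 ∧
      (∀ τ, N τ = a * (R.map fun r => jFun τ - r).prod) ∧ s.order = -((lev * R.card : ℕ) : ℤ) := by
  obtain ⟨r, c, hc, hsc⟩ := id hs
  have hl : 1 ≤ lev := NeZero.one_le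
  have hb : IsBoundedAtImInfty fun τ => qw 1 τ ^ r * N τ := by
    have h := ((HasExp.qm_pow (M := lev) ((lev - 1) * r)).mul hc).isBounded
    refine Asymptotics.IsBigO.congr_left h fun τ => ?_
    have e1 : qw 1 τ = qm lev τ ^ lev := by
      have h2 := ES.qm_mul_pow (M := 1) (NeZero.ne lev) τ
      rw [mul_one] at h2
      rw [h2]
      show qw (1 : ℝ) τ = qm 1 τ
      rw [← Curve.Red.qw_natCast_eq_qm, Nat.cast_one]
    simp only [Pi.mul_apply]
    rw [e1, ← pow_mul, ← mul_assoc, ← pow_add]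
    congr 2
    obtain ⟨n, rfl⟩ : ∃ n, lev = n + 1 := ⟨lev - 1, by omega⟩
    simp
    ring
  obtain ⟨q, hq⟩ := Curve.exists_eq_eval_jFun r hs.mdifferentiable hinv hb
  have hq0 : q ≠ 0 := fun h0 => hN (funext fun τ => by rw [hq, h0, Polynomial.eval_zero]; rfl)
  have hsplit : q.Splits := IsAlgClosed.splits q
  refine ⟨q.leadingCoeff, q.roots, Polynomial.leadingCoeff_ne_zero.mpr hq0, fun τ => ?_, ?_⟩
  · rw [hq, hsplit.eval_eq_prod_roots]
  · set J := qExpand ℂ lev (jqModC ℂ)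
    have key : ∀ R : Multiset ℂ, HasLExp lev (fun τ => (R.map fun r => jFun τ - r).prod)
        (R.map fun r => J - HahnSeries.C r).prod ∧
        (R.map fun r => J - HahnSeries.C r).prod ≠ 0 ∧
        (R.map fun r => J - HahnSeries.C r).prod.order = -((lev * R.card : ℕ) : ℤ) := by
      intro R
      induction R using Multiset.induction_on with
      | empty => exact ⟨by simpa using! HasLExp.one, by simp, by simp⟩
      | cons b R ih =>
        obtain ⟨i1, i2, i3⟩ := ih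
        have hne : J - HahnSeries.C b ≠ 0 := fun h0 => by
          have := order_qExpand_sub lev b
          rw [h0, HahnSeries.order_zero] at this
          omega
        have hj : HasLExp lev jFun J := by
          have := Curve.Red.hasLExp_act_jFun (M := lev) 1
          rwa [ES.act_one] at this
        simp only [Multiset.map_cons, Multiset.prod_cons, Multiset.card_cons]
        refine ⟨((hj.sub (HasLExp.const b)).mul i1).congr_fun fun τ => rfl, mul_ne_zero hne i2, ?_⟩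
        rw [HahnSeries.order_mul hne i2, i3, order_qExpand_sub]
        push_cast
        ring
    obtain ⟨k1, k2, k3⟩ := key q.roots
    have hval : HasLExp lev N
        (HahnSeries.C q.leadingCoeff * (q.roots.map fun r => J - HahnSeries.C r).prod) :=
      ((HasLExp.const q.leadingCoeff).mul k1).congr_fun fun τ => by
        rw [hq, hsplit.eval_eq_prod_roots]; rfl
    rw [hs.series_unique hval, HahnSeries.order_mul
      (by simpa using Polynomial.leadingCoeff_ne_zero.mpr hq0) k2, k3, HahnSeries.C_apply,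
      HahnSeries.order_single (Polynomial.leadingCoeff_ne_zero.mpr hq0), zero_add]

theorem ordN_roots {a : ℂ} (ha : a ≠ 0) (R : Multiset ℂ) (τ : ℍ) :
    ordN (fun z => a * (R.map fun r => jFun z - r).prod) τ = R.count (jfun τ) * ellMult τ := by
  have hjm : ∀ b, MDiff fun z => jFun z - b := fun b => mdiff_jfun_sub b
  have hne : ∀ b, (fun z => jFun z - b) ≠ 0 := by
    intro b h0
    obtain ⟨τ', hτ'⟩ := Curve.exists_jFun_eq (b + 1)
    have := congrFun h0 τ'
    simp [hτ'] at this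
  suffices key : MDiff (fun z => a * (R.map fun r => jFun z - r).prod) ∧
      (fun z => a * (R.map fun r => jFun z - r).prod) ≠ 0 ∧
      ordN (fun z => a * (R.map fun r => jFun z - r).prod) τ = R.count (jfun τ) * ellMult τ from
    key.2.2
  induction R using Multiset.induction_on with
  | empty =>
    simp only [Multiset.map_zero, Multiset.prod_zero, mul_one, Multiset.count_zero, zero_mul]
    refine ⟨mdifferentiable_const, fun h => ha (congrFun h τ), ?_⟩
    rw [ordN, (ES.vanishOrd_eq_zero mdifferentiable_const).mpr ha]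
    rfl
  | cons b R ih =>
    obtain ⟨i1, i2, i3⟩ := ih
    have e : (fun z => a * ((b ::ₘ R).map fun r => jFun z - r).prod) =
        (fun z => jFun z - b) * fun z => a * (R.map fun r => jFun z - r).prod := by
      funext z
      simp only [Multiset.map_cons, Multiset.prod_cons, Pi.mul_apply]
      ring
    rw [e]
    refine ⟨(hjm b).mul i1, mul_ne_zero_of_mdiff i1 (hjm b) (hne b) i2, ?_⟩
    rw [ordN_mul (hjm b) i1 (hne b) i2, i3, Multiset.count_cons]
    split_ifs with hb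
    · rw [← hb, show (fun z => jFun z - jfun τ) = fun z => jfun z - jfun τ from rfl,
        ordN_jfun_sub]
      ring
    · rw [ordN, (ES.vanishOrd_eq_zero (hjm b)).mpr fun h => hb (sub_eq_zero.mp h), add_zero]
      simp

theorem sum_comp_le {α β : Type*} [Fintype α] [Fintype β] {φ : α → β} (hφ : Function.Injective φ)
    (G : β → ℕ) : ∑ a, G (φ a) ≤ ∑ b, G b := by
  classical
  rw [← Finset.sum_image (f := G) (s := Finset.univ) hφ.injOn]
  exact Finset.sum_le_sum_of_subset (Finset.subset_univ _)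

/-- Zeros at inequivalent points are at most the poles. -/
theorem valence {Γ : Subgroup SL(2, ℤ)} [Fintype (SL(2, ℤ) ⧸ Γ)] (hfree : NoElliptic Γ) {lev : ℕ}
    [NeZero lev] {y : ℍ → ℂ} (hy0 : y ≠ 0) (hinv : ∀ γ ∈ Γ, act γ y = y)
    {s : SL(2, ℤ) ⧸ Γ → LaurentSeries ℂ}
    (hs : ∀ x, HasLExp lev (act (x.out)⁻¹ y) (s x)) (Z : Finset ℍ)
    (hZ : ∀ τ ∈ Z, ∀ τ' ∈ Z, ∀ γ ∈ Γ, γ • τ = τ' → τ = τ') :
    (lev : ℤ) * ((∑ τ ∈ Z, ordN y τ : ℕ) : ℤ) + ∑ x, (s x).order ≤ 0 := by
  classical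
  have hm : MDiff y := by
    have := (hs ((1 : SL(2, ℤ)) : SL(2, ℤ) ⧸ Γ)).mdifferentiable
    have h2 := mdiff_act this ((Quotient.out ((1 : SL(2, ℤ)) : SL(2, ℤ) ⧸ Γ)))
    rwa [← ES.act_mul, inv_mul_cancel, ES.act_one] at h2
  set N : ℍ → ℂ := ∏ x : SL(2, ℤ) ⧸ Γ, act (x.out)⁻¹ y
  have hFm : ∀ x ∈ (Finset.univ : Finset (SL(2, ℤ) ⧸ Γ)), MDiff (act (x.out)⁻¹ y) :=
    fun x _ => mdiff_act hm _
  have hF0 : ∀ x ∈ (Finset.univ : Finset (SL(2, ℤ) ⧸ Γ)), act (x.out)⁻¹ y ≠ 0 :=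
    fun x _ => act_ne_zero hy0 _
  have hN0 : N ≠ 0 := prod_ne_zero' _ hFm hF0
  have hNinv : ∀ (γ : SL(2, ℤ)) τ, N (γ • τ) = N τ := by
    intro γ τ
    simp only [N, Finset.prod_apply]
    refine Fintype.prod_equiv (MulAction.toPerm γ⁻¹) _ _ fun x => ?_
    rw [MulAction.toPerm_apply, ← ES.act_apply γ (act (x.out)⁻¹ y), ← ES.act_mul]
    obtain ⟨h, hh⟩ := QuotientGroup.mk_out_eq_mul Γ (γ⁻¹ * x.out)
    have hx : γ⁻¹ • x = ((γ⁻¹ * x.out : SL(2, ℤ)) : SL(2, ℤ) ⧸ Γ) := by
      conv_lhs => rw [← QuotientGroup.out_eq' x]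
      rfl
    rw [hx, hh, mul_inv_rev, mul_inv_rev, inv_inv, ES.act_mul (h : SL(2, ℤ))⁻¹,
      hinv _ (inv_mem h.2)]
  obtain ⟨a, R, ha, hNR, hord⟩ := exists_prod_jFun hNinv
    (HasLExp.prod Finset.univ fun x _ => hs x) hN0
  have hs0 : ∀ x, s x ≠ 0 := fun x h0 => hF0 x (Finset.mem_univ x) (by
    have := hs x
    rw [h0] at this
    exact this.eq_of_series HasLExp.zero)
  have hsum : ∑ x, (s x).order = (∏ x, s x).order := by
    symm
    refine Finset.induction_on (Finset.univ : Finset (SL(2, ℤ) ⧸ Γ)) (by simp) ?_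
    intro i t hi ih
    rw [Finset.prod_insert hi, Finset.sum_insert hi,
      HahnSeries.order_mul (hs0 i) (Finset.prod_ne_zero_iff.mpr fun j _ => hs0 j), ih]
  rw [hsum, hord]
  suffices hle : ∑ τ ∈ Z, ordN y τ ≤ R.card by
    push_cast
    nlinarith [(by exact_mod_cast hle : ((∑ τ ∈ Z, ordN y τ : ℕ) : ℤ) ≤ (R.card : ℤ)),
      (Nat.cast_nonneg lev : (0 : ℤ) ≤ lev)]
  have hord_inv : ∀ γ ∈ Γ, ∀ τ, ordN y (γ • τ) = ordN y τ := fun γ hγ τ => by
    rw [ordN, ← vanishOrd_act, hinv γ hγ]; rfl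
  have key : ∀ b, ∑ τ ∈ Z with jfun τ = b, ordN y τ ≤ R.count b := by
    intro b
    rcases (Z.filter fun τ => jfun τ = b).eq_empty_or_nonempty with he | ⟨τ0, hτ0⟩
    · simp [he]
    obtain ⟨hτ0Z, rfl⟩ := Finset.mem_filter.mp hτ0
    set Zb := Z.filter fun τ => jfun τ = jfun τ0
    obtain ⟨st, hst, hst'⟩ := exists_stab hfree τ0
    have hg : ∀ z : Zb, ∃ g : SL(2, ℤ), g • τ0 = (z : ℍ) := fun z =>
      Period.slEquiv_of_jfun_eq (Finset.mem_filter.mp z.2).2.symm
    choose g hg using hg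
    let φ : Zb × Fin (ellMult τ0) → SL(2, ℤ) ⧸ Γ :=
      fun x => (((g x.1 * st x.2)⁻¹ : SL(2, ℤ)) : SL(2, ℤ) ⧸ Γ)
    have hφ : Function.Injective φ := by
      rintro ⟨z, i⟩ ⟨z', j⟩ h
      have h1 := QuotientGroup.eq.mp h
      rw [inv_inv] at h1
      have hz : (z' : ℍ) = z := hZ _ (Finset.mem_filter.mp z'.2).1 _ (Finset.mem_filter.mp z.2).1 _
        h1 (by simp only [mul_inv_rev, mul_smul]
               rw [← hg z', inv_smul_smul, inv_smul_eq_iff.mpr (hst j).symm, hst, hg])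
      obtain rfl : z = z' := Subtype.ext hz.symm
      have : g z * (st i * (st j)⁻¹) * (g z)⁻¹ ∈ Γ := by
        convert h1 using 1; group
      rw [hst' i j _ this]
    have hval : ∀ x, ordN (act ((φ x).out)⁻¹ y) τ0 = ordN y (x.1 : ℍ) := by
      rintro ⟨z, i⟩
      obtain ⟨h, hh⟩ := QuotientGroup.mk_out_eq_mul Γ ((g z * st i)⁻¹)
      show ordN (act (Quotient.out (((g z * st i)⁻¹ : SL(2, ℤ)) : SL(2, ℤ) ⧸ Γ))⁻¹ y) τ0 = _
      rw [hh, mul_inv_rev, inv_inv, ordN, vanishOrd_act, mul_smul, mul_smul, hst, hg]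
      exact hord_inv _ (inv_mem h.2) _
    have h2 : ellMult τ0 * ∑ τ ∈ Zb, ordN y τ ≤ R.count (jfun τ0) * ellMult τ0 := by
      have hNeq : N = fun z => a * (R.map fun r => jFun z - r).prod := funext hNR
      rw [← ordN_roots ha R τ0, ← hNeq, ordN_prod _ hFm hF0]
      refine le_trans (le_of_eq ?_)
        (sum_comp_le hφ fun x => ordN (act (x.out)⁻¹ y) τ0)
      simp only [hval]
      rw [Fintype.sum_prod_type, Finset.mul_sum, ← Finset.sum_coe_sort Zb]
      simp
    rw [mul_comm (R.count _)] at h2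
    exact Nat.le_of_mul_le_mul_left h2 (ellMult_pos τ0)
  calc ∑ τ ∈ Z, ordN y τ
      = ∑ b ∈ Z.image jfun ∪ R.toFinset, ∑ τ ∈ Z with jfun τ = b, ordN y τ :=
        (Finset.sum_fiberwise_of_maps_to (fun τ hτ =>
          Finset.mem_union_left _ (Finset.mem_image_of_mem _ hτ)) _).symm
    _ ≤ ∑ b ∈ Z.image jfun ∪ R.toFinset, R.count b := Finset.sum_le_sum fun b _ => key b
    _ = R.card := Multiset.sum_count_eq_card fun b hb => by simp [hb]

/-- The axiom `val` from a decomposition along the cusps. -/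
theorem Model.val_of_decomp (D : Model) (hfree : NoElliptic D.Γ)
    (hdec : ∀ g : SL(2, ℤ), ∃ c, ∃ k : ℕ, g * (D.rep c * T ^ k)⁻¹ ∈ D.Γ)
    (huniq : ∀ c c' (k k' : ℤ), D.rep c * T ^ k * (D.rep c' * T ^ k')⁻¹ ∈ D.Γ →
      c = c' ∧ (D.wd c : ℤ) ∣ k - k') :
    ∀ y ∈ D.Fun, y ≠ 0 → ∀ Z : Finset ℍ, D.Apart Z →
      ((∑ τ ∈ Z, (vanishOrd y τ).toNat : ℕ) : ℤ) + ∑ c, (D.E c y).order ≤ 0 := by
  classical
  intro y hy hy0 Z hZ
  have hinv : ∀ γ ∈ D.Γ, act γ y = y := fun γ hγ => by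
    have := hy.1 ⟨γ, hγ⟩
    rwa [MonoidHom.one_apply, Units.val_one, one_smul] at this
  let e : (Σ c, Fin (D.wd c)) → SL(2, ℤ) ⧸ D.Γ :=
    fun x => (((D.rep x.1 * T ^ (x.2 : ℕ))⁻¹ : SL(2, ℤ)) : SL(2, ℤ) ⧸ D.Γ)
  have he : Function.Bijective e := by
    constructor
    · rintro ⟨c, i⟩ ⟨c', j⟩ h
      have h1 := QuotientGroup.eq.mp h
      rw [inv_inv, ← zpow_natCast T (i : ℕ), ← zpow_natCast T (j : ℕ)] at h1
      obtain ⟨rfl, hd⟩ := huniq _ _ _ _ h1
      have hi : (i : ℕ) < D.wd c := i.2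
      have hj : (j : ℕ) < D.wd c := j.2
      have hz := Int.eq_zero_of_dvd_of_natAbs_lt_natAbs hd
        (by simp only [Int.natAbs_natCast]; omega)
      rw [show i = j from Fin.ext (by omega)]
    · intro x
      obtain ⟨c, k, hck⟩ := hdec (x.out)⁻¹
      obtain ⟨r, q, rfl, hr⟩ : ∃ r q, k = r + D.wd c * q ∧ r < D.wd c :=
        ⟨_, _, (Nat.mod_add_div k (D.wd c)).symm, Nat.mod_lt _ (NeZero.pos _)⟩
      refine ⟨⟨c, ⟨r, hr⟩⟩, ?_⟩
      rw [← QuotientGroup.out_eq' x]
      refine QuotientGroup.eq.mpr ?_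
      rw [inv_inv]
      have hper : (D.rep c * T ^ D.wd c * (D.rep c)⁻¹) ^ q ∈ D.Γ :=
        Subgroup.pow_mem _ (D.per c) _
      have := Subgroup.inv_mem _ (Subgroup.mul_mem _ hck hper)
      rw [conj_pow, ← pow_mul] at this
      convert this using 1
      rw [pow_add]
      group
  let : Fintype (SL(2, ℤ) ⧸ D.Γ) := Fintype.ofBijective e he
  have hexp : ∀ x : SL(2, ℤ) ⧸ D.Γ, ∃ s, HasLExp D.lev (act (x.out)⁻¹ y) s := fun x => hy.2 _
  choose s hs using hexp
  have h := valence hfree hy0 hinv hs Z (fun τ hτ τ' hτ' γ hγ => hZ τ hτ τ' hτ' ⟨γ, hγ⟩)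
  have hsum : ∑ x, (s x).order = (D.lev : ℤ) * ∑ c, (D.E c y).order := by
    rw [← Fintype.sum_bijective e he _ (fun x => (s x).order) fun _ => rfl, Fintype.sum_sigma,
      Finset.mul_sum]
    refine Finset.sum_congr rfl fun c _ => ?_
    set n := D.lev / D.wd c
    have : NeZero n := ⟨(Nat.div_pos (Nat.le_of_dvd (NeZero.pos _) (D.wd_dvd c))
      (NeZero.pos _)).ne'⟩
    have hn : n * D.wd c = D.lev := Nat.div_mul_cancel (D.wd_dvd c)
    have hne : D.E c y ≠ 0 := fun h0 => hy0 (Model.E_injective Model.isParChar_one hy h0)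
    have hord : ∀ i : Fin (D.wd c), (s (e ⟨c, i⟩)).order = (n : ℤ) * (D.E c y).order := by
      intro i
      obtain ⟨γ, hγ⟩ := QuotientGroup.mk_out_eq_mul D.Γ ((D.rep c * T ^ (i : ℕ))⁻¹)
      have h1 := hs (e ⟨c, i⟩)
      rw [show Quotient.out (e ⟨c, i⟩) = _ from hγ, mul_inv_rev, inv_inv, ES.act_mul,
        hinv _ (inv_mem γ.2), ES.act_mul] at h1
      have h2 := BAD.hasLExp_raise n (ES.hasLExp_act_T_pow
        (Model.hasLExp_E Model.isParChar_one hy c) (i : ℕ))
      rw [hn] at h2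
      rw [h1.series_unique h2]
      have hz : (zetaC (D.wd c) ^ (i : ℕ)) ≠ 0 :=
        pow_ne_zero _ ((ES.zetaC_isPrimitiveRoot _).ne_zero (NeZero.ne _))
      refine order_eq_of_coeff ?_ fun m hm => ?_
      · rw [BAD.expandL_coeff_mul, ES.coeff_twistSer]
        exact mul_ne_zero (HahnSeries.coeff_order_eq_zero.not.mpr hne) (zpow_ne_zero _ hz)
      · by_cases hd : (n : ℤ) ∣ m
        · obtain ⟨l, rfl⟩ := hd
          rw [BAD.expandL_coeff_mul, ES.coeff_twistSer, HahnSeries.coeff_eq_zero_of_lt_order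
            (lt_of_mul_lt_mul_left hm (Nat.cast_nonneg n)), zero_mul]
        · exact BAD.expandL_coeff_of_not_dvd n _ hd
    simp only [hord, Finset.sum_const, Finset.card_univ, Fintype.card_fin, nsmul_eq_mul]
    rw [← hn]
    push_cast
    ring
  rw [hsum, ← mul_add] at h
  exact nonpos_of_mul_nonpos_right h (by exact_mod_cast NeZero.pos D.lev)

end FermatAgent.PSEMI
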