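import Fermat.Agent.PSEMI.Deep

/-!
# The scalar theorem

A class near `p`-th powers at the basic cusps is transformed by coefficient automorphisms through
the cyclotomic exponent.
-/

set_option autoImplicit false

open UpperHalfPlane
open scoped MatrixGroups Manifold
open FermatAgent.Curve (SGE)
open ModularCurve (coeffMap coeffMap_coeff)

noncomputable section

namespace FermatAgent.PSEMI

open FermatAgent.ES FermatAgent.Curve.Red

variable {p : ℕ} [hp : Fact p.Prime] {P : CPlace p} {K : Coeffs P}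

/-- `|ζ ^ i - 1| < 1` for the primitive `p`-th root of unity `ζ`. -/
theorem abv_zp_pow_sub_one (i : ℕ) : P.abv (zp p ^ i - 1) < 1 :=
  (abv_root_sub_one_le (P := P) (by rw [← pow_mul, mul_comm, pow_mul, (zp_spec (p := p)).pow_eq_one,
    one_pow]) zp_spec).trans_lt rp_lt_one

omit hp in
/-- An isometric automorphism of `ℂ` preserves integral series. -/
theorem serIn_coeffMap {σ : ℂ ≃+* ℂ} (hσ : ∀ x, P.abv (σ x) = P.abv x) {s : LaurentSeries ℂ}
    (hs : SerIn P.ring s) : SerIn P.ring (coeffMap σ.toRingHom s) := fun k => by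
  rw [coeffMap_coeff, CPlace.mem_ring]
  exact (hσ _).trans_le (hs k)

omit hp in
/-- An isometry of `ℂ` congruent to the identity modulo the maximal ideal preserves reductions. -/
theorem red_coeffMap {σ : ℂ ≃+* ℂ} (hσ : ∀ x, P.abv (σ x) = P.abv x)
    (hσres : ∀ x, P.abv x ≤ 1 → P.abv (σ x - x) < 1) {s : LaurentSeries ℂ}
    (hs : SerIn P.ring s) : red (P := P) (coeffMap σ.toRingHom s) = red s := by
  rw [red_eq_red_iff (serIn_coeffMap hσ hs) hs]
  intro k
  rw [HahnSeries.coeff_sub, coeffMap_coeff]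
  exact hσres _ (hs k)

/-- The first order behaviour of a conjugate product. -/
theorem conj_error {σ : ℂ ≃+* ℂ} (hσ : ∀ x, P.abv (σ x) = P.abv x)
    (hσres : ∀ x, P.abv x ≤ 1 → P.abv (σ x - x) < 1) {w m : ℕ} (hw : σ (zp p) = zp p ^ w)
    (hwm : w + m = p) {y g : LaurentSeries ℂ} (hg : SerIn P.ring g) (hg1 : red (P := P) g = 1)
    (h : P.SerLE (rp P ^ p) (y - g ^ p)) {k : ℤ} :
    P.abv ((coeffMap σ.toRingHom y * y ^ m - (coeffMap σ.toRingHom g * g ^ m) ^ p).coeff k) <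
      rp P ^ p := by
  set lam : ℂ := (zp p - 1) ^ p with hlam
  have hlam0 : lam ≠ 0 :=
    pow_ne_zero _ (sub_ne_zero.mpr ((zp_spec (p := p)).ne_one hp.out.one_lt))
  have hlamabv : P.abv lam = rp P ^ p := by rw [hlam, map_pow]; rfl
  set e := HahnSeries.C lam⁻¹ * (y - g ^ p) with he
  have hei : SerIn P.ring e := by
    rw [← P.serLE_one_iff, he, serLE_C_mul_iff (inv_ne_zero hlam0), map_inv₀, hlamabv,
      one_div, inv_inv]
    exact h
  have hy : y = g ^ p + HahnSeries.C lam * e := by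
    rw [he, ← mul_assoc, ← map_mul, mul_inv_cancel₀ hlam0, map_one, one_mul]; ring
  set s : ℂ := ∑ i ∈ Finset.range w, zp p ^ i with hs
  have hz1 : zp p ∈ P.ring :=
    (P.abv_eq_one_of_pow_eq_one hp.out.ne_zero (zp_spec (p := p)).pow_eq_one).le
  have hsR : s ∈ P.ring := P.ring.sum_mem fun i _ => P.ring.pow_mem hz1 i
  have hσlam : σ lam = s ^ p * lam := by
    rw [hlam, map_pow, map_sub, map_one, hw, ← geom_sum_mul, mul_pow]
  have hsred : rd (P := P) ⟨s ^ p, P.ring.pow_mem hsR p⟩ = (w : ResField P) := by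
    have h1 : rd (P := P) ⟨s, hsR⟩ = (w : ResField P) := by
      rw [← map_natCast (rd : P.ring →+* ResField P), ← sub_eq_zero, ← map_sub, rd_eq_zero_iff]
      rw [AddSubgroupClass.coe_sub, SubringClass.coe_natCast]
      show P.abv (s - (w : ℂ)) < 1
      rw [show s - (w : ℂ) = ∑ i ∈ Finset.range w, (zp p ^ i - 1) by
        simp [hs, Finset.sum_sub_distrib]]
      exact Finset.sum_induction _ (fun x => P.abv x < 1) (fun _ _ => P.add_lt) (by simp)
        fun i _ => abv_zp_pow_sub_one i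
    rw [show (⟨s ^ p, P.ring.pow_mem hsR p⟩ : P.ring) = ⟨s, hsR⟩ ^ p from rfl, map_pow, h1,
      ← frobenius_def, map_natCast]
  have hgp : SerIn P.ring (g ^ p) := hg.pow p
  have hlR : lam ∈ P.ring := by
    rw [P.mem_ring, hlamabv]; exact pow_le_one₀ rp_nonneg rp_lt_one.le
  obtain ⟨q, hq⟩ := Polynomial.powAddExpansion (⟨g ^ p, hgp⟩ : Curve.Red.serSub P.ring)
    ⟨HahnSeries.C lam * e, (SerIn.C hlR).mul hei⟩ m
  have hq' := congrArg Subtype.val hq
  push_cast at hq'
  set gs := coeffMap σ.toRingHom g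
  set es := coeffMap σ.toRingHom e
  have hgs := serIn_coeffMap hσ hg
  have hes := serIn_coeffMap hσ hei
  have hys : coeffMap σ.toRingHom y = gs ^ p + HahnSeries.C (s ^ p * lam) * es := by
    rw [hy, map_add, map_pow, map_mul, ← hσlam]
    congr 2
    ext j
    rcases eq_or_ne j 0 with rfl | hj
    · simp
    · simp [hj]
  set B := HahnSeries.C (s ^ p) * es * y ^ m +
    gs ^ p * ((m : LaurentSeries ℂ) * (g ^ p) ^ (m - 1) * e +
      HahnSeries.C lam * e ^ 2 * (q : LaurentSeries ℂ)) with hB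
  have hyi : SerIn P.ring y := hy ▸ hgp.add ((SerIn.C hlR).mul hei)
  have hm : SerIn P.ring (m : LaurentSeries ℂ) := by
    rw [← map_natCast (HahnSeries.C : ℂ →+* LaurentSeries ℂ)]
    exact SerIn.C (natCast_mem _ m)
  have h1 : SerIn P.ring (HahnSeries.C (s ^ p) * es * y ^ m) :=
    ((SerIn.C (P.ring.pow_mem hsR p)).mul hes).mul (hyi.pow m)
  have h2 : SerIn P.ring ((m : LaurentSeries ℂ) * (g ^ p) ^ (m - 1) * e) :=
    (hm.mul (hgp.pow _)).mul hei
  have h3 : SerIn P.ring (HahnSeries.C lam * e ^ 2 * (q : LaurentSeries ℂ)) :=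
    ((SerIn.C hlR).mul (hei.pow 2)).mul q.2
  have hB0 : P.SerLT B := by
    rw [← red_eq_zero_iff (h1.add ((hgs.pow p).mul (h2.add h3))),
      red_add h1 ((hgs.pow p).mul (h2.add h3)), red_mul (hgs.pow p) (h2.add h3), red_add h2 h3]
    have e1 : red (P := P) y = 1 := by
      rw [hy, red_add hgp ((SerIn.C hlR).mul hei), red_pow hg, hg1, one_pow,
        red_mul (SerIn.C hlR) hei, red_C hlR, rd_eq_zero_iff.mpr (by
          show P.abv lam < 1
          rw [hlamabv]; exact pow_lt_one₀ rp_nonneg rp_lt_one hp.out.ne_zero), map_zero, zero_mul,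
        add_zero]
    have hlam_red : red (P := P) (HahnSeries.C lam * e ^ 2 * (q : LaurentSeries ℂ)) = 0 := by
      rw [red_mul ((SerIn.C hlR).mul (hei.pow 2)) q.2, red_mul (SerIn.C hlR) (hei.pow 2),
        red_C hlR, rd_eq_zero_iff.mpr (by
          show P.abv lam < 1
          rw [hlamabv]; exact pow_lt_one₀ rp_nonneg rp_lt_one hp.out.ne_zero), map_zero, zero_mul,
        zero_mul]
    have hmred : red (P := P) (m : LaurentSeries ℂ) = HahnSeries.C (m : ResField P) := by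
      simp only [← map_natCast (HahnSeries.C : ℂ →+* LaurentSeries ℂ)]
      rw [red_C (natCast_mem P.ring m), ← map_natCast (rd : P.ring →+* ResField P)]
      rfl
    rw [red_mul ((SerIn.C (P.ring.pow_mem hsR p)).mul hes) (hyi.pow m),
      red_mul (SerIn.C (P.ring.pow_mem hsR p)) hes, red_C (P.ring.pow_mem hsR p), hsred,
      red_coeffMap hσ hσres hei, red_pow hyi, e1, one_pow, mul_one, red_pow hgs,
      red_coeffMap hσ hσres hg, hg1, one_pow, one_mul, hlam_red, add_zero,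
      red_mul (hm.mul (hgp.pow _)) hei, red_mul hm (hgp.pow _), red_pow hgp, red_pow hg, hg1,
      one_pow, one_pow, mul_one, hmred, ← add_mul, ← map_add, ← Nat.cast_add, hwm,
      CharP.cast_eq_zero, map_zero, zero_mul]
  have hfinal : coeffMap σ.toRingHom y * y ^ m - (gs * g ^ m) ^ p = HahnSeries.C lam * B := by
    have hym : y ^ m = (g ^ p) ^ m + (m : LaurentSeries ℂ) * (g ^ p) ^ (m - 1) *
        (HahnSeries.C lam * e) + (q : LaurentSeries ℂ) * (HahnSeries.C lam * e) ^ 2 := by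
      rw [hy]; exact hq'
    rw [hys, hB, mul_pow, ← pow_mul g m p, mul_comm m p, pow_mul, map_mul]
    linear_combination gs ^ p * hym
  rw [hfinal, HahnSeries.C_apply, HahnSeries.coeff_single_mul, sub_zero, map_mul, hlamabv]
  exact mul_lt_of_lt_one_right (pow_pos rp_pos p) (hB0 k)

namespace Model

variable {D : Model}

/-- **The scalar theorem.** -/
theorem Good.char_eq_pow (G : D.Good K) {φ φ' : D.Γ →* ℂˣ}
    (hlev : CongruenceSubgroup.Gamma D.lev ≤ D.Γ) (hφ : IsParChar D.Γ φ) (hφp : φ ^ p = 1)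
    (hφ' : IsParChar D.Γ φ') (hφ'p : φ' ^ p = 1) {z : ℍ → ℂ} (hz : z ∈ D.Tw φ) (hz0 : z ≠ 0)
    (hnear : G.Near φ) {σ : ℂ ≃+* ℂ} (hσ : ∀ x, P.abv (σ x) = P.abv x)
    (hσres : ∀ x, P.abv x ≤ 1 → P.abv (σ x - x) < 1) {w : ℕ} (hwp : w ≤ p)
    (hw : σ (zp p) = zp p ^ w)
    (hfun : ∀ f ∈ D.Fun, ∃ f' ∈ D.Fun, ∀ c, D.E c f' = coeffMap σ.toRingHom (D.E c f))
    (htw : ∀ u ∈ D.Tw φ, ∃ u' ∈ D.Tw φ',
      ∀ c, D.E c (u' ^ p) = coeffMap σ.toRingHom (D.E c (u ^ p))) :
    φ' = φ ^ w := by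
  classical
  have := G.nonempty
  obtain ⟨n, hn, htarget⟩ := G.exists_root_target hlev hφ hφp hz hz0 hnear.invis
  obtain ⟨u, hu, hui, hur⟩ := htarget n le_rfl 1 ⟨one_mem, fun c j hj => by
    rw [E_one, HahnSeries.coeff_one, if_neg (by omega)]⟩ integral_one
  rw [redT_one, one_pow] at hur
  have hy := pow_mem_fun hu.1 hφp
  obtain ⟨g, hg, hgi, hg1, hgerr⟩ := G.exists_rough_root hn hy hui hur
    (fun c => by rw [E_pow hφ hu.1]; exact sge_pow (hu.2 c) p)
    (fun c hc => hnear u hu.1 c hc (hui c) ((red_ne_zero_iff (hui c)).mp (by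
      rw [show red (P := P) (D.E c (u ^ p)) = 1 from congrFun hur c]; exact one_ne_zero)))
  obtain ⟨g', hg', hgE⟩ := hfun g hg.1
  obtain ⟨u', hu', huE⟩ := htw u hu.1
  set m := p - w with hm
  set χ := φ' * φ ^ m with hχdef
  have hχp : χ ^ p = 1 := MonoidHom.ext fun γ => by
    have h1 := DFunLike.congr_fun hφp γ
    have h2 := DFunLike.congr_fun hφ'p γ
    simp only [hχdef, MonoidHom.pow_apply, MonoidHom.mul_apply, MonoidHom.one_apply] at h1 h2 ⊢
    rw [mul_pow, h2, ← pow_mul, Nat.mul_comm m p, pow_mul, h1, one_pow, one_mul]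
  set v := u' * u ^ m with hv
  have hvT : v ∈ D.Tw χ := mul_mem hu' (pow_mem hu.1 m)
  have hχ : IsParChar D.Γ χ := isParChar_mul hφ' (isParChar_pow hφ m)
  have hvE : ∀ c, D.E c (v ^ p) = coeffMap σ.toRingHom (D.E c (u ^ p)) * D.E c (u ^ p) ^ m :=
    fun c => by
    rw [E_pow hχ hvT, hv, E_mul hφ' (isParChar_pow hφ m) hu' (pow_mem hu.1 m), E_pow hφ hu.1,
      ← huE, E_pow hφ' hu', mul_pow, E_pow hφ hu.1, ← pow_mul, ← pow_mul, mul_comm m p]
  set g2 := g' * g ^ m with hg2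
  have hg2F : g2 ∈ D.Fun := mul_mem_fun hg' (pow_mem_fun' hg.1 m)
  have hg2E : ∀ c, D.E c g2 = coeffMap σ.toRingHom (D.E c g) * D.E c g ^ m := fun c => by
    rw [hg2, E_mul_fun hg' (pow_mem_fun' hg.1 m), hgE, E_pow_fun hg.1]
  have hvi : D.Integral P (v ^ p) := fun c => by
    rw [hvE]; exact (serIn_coeffMap hσ (hui c)).mul ((hui c).pow m)
  have hv1 : D.redT P (v ^ p) = 1 := funext fun c => by
    have h1 : red (P := P) (D.E c (u ^ p)) = 1 := congrFun hur c
    rw [redT, hvE, red_mul (serIn_coeffMap hσ (hui c)) ((hui c).pow m),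
      red_coeffMap hσ hσres (hui c), red_pow (hui c), h1, one_pow, mul_one, Pi.one_apply]
  have hg2i : D.Integral P g2 := fun c => by
    rw [hg2E]; exact (serIn_coeffMap hσ (hgi c)).mul ((hgi c).pow m)
  have hg21 : D.redT P g2 = 1 := funext fun c => by
    have h1 : red (P := P) (D.E c g) = 1 := congrFun hg1 c
    rw [redT, hg2E, red_mul (serIn_coeffMap hσ (hgi c)) ((hgi c).pow m),
      red_coeffMap hσ hσres (hgi c), red_pow (hgi c), h1, one_pow, mul_one, Pi.one_apply]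
  have hDfun : v ^ p - g2 ^ p ∈ D.Fun :=
    sub_mem (pow_mem_fun hvT hχp) (pow_mem_fun' hg2F p)
  have hlt : ∀ c k, P.abv ((D.E c (v ^ p - g2 ^ p)).coeff k) < rp P ^ p := fun c k => by
    rw [E_sub isParChar_one (pow_mem_fun hvT hχp) (pow_mem_fun' hg2F p), E_pow_fun hg2F, hvE,
      hg2E]
    exact conj_error hσ hσres hw (by omega) (hgi c) (congrFun hg1 c) (hgerr c)
  obtain ⟨S, hS, hover⟩ := G.exists_over (f := fun _ : Unit => v ^ p - g2 ^ p) (fun _ => hDfun)
    (fun _ => integral_sub (pow_mem_fun hvT hχp) (pow_mem_fun' hg2F p) hvi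
      (integral_pow hg2F hg2i p))
  obtain ⟨c, hc0, hc⟩ : ∃ c < rp P ^ p, ∀ x, P.SerLE c (D.E x (v ^ p - g2 ^ p)) := by
    by_cases hz : ∀ x, D.E x (v ^ p - g2 ^ p) = 0
    · exact ⟨0, pow_pos rp_pos p, fun x => by rw [hz]; exact CPlace.SerLE.zero le_rfl⟩
    · push Not at hz
      obtain ⟨x0, k0, -, hmax⟩ := exists_max (K.isCDVR hS)
        (s := fun x => D.E x (v ^ p - g2 ^ p)) (hover ()) hz
      exact ⟨_, hlt x0 k0, fun x k => hmax x k⟩
  have h1 := G.char_eq_one_of_deep hlev hχ hχp hvT hvi hv1 hg2F hg2i hg21 hc0 fun x => by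
    rw [← E_pow_fun hg2F, ← E_sub isParChar_one (pow_mem_fun hvT hχp) (pow_mem_fun' hg2F p)]
    exact hc x
  refine MonoidHom.ext fun γ => ?_
  have h2 := DFunLike.congr_fun h1 γ
  have h3 := DFunLike.congr_fun hφp γ
  simp only [hχdef, MonoidHom.mul_apply, MonoidHom.pow_apply, MonoidHom.one_apply] at h2 h3 ⊢
  calc φ' γ = φ' γ * (φ γ ^ m * φ γ ^ w) := by
        rw [← pow_add, show m + w = p by omega, h3, mul_one]
    _ = φ γ ^ w := by rw [← mul_assoc, h2, one_mul]

end Model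

end FermatAgent.PSEMI
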