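import Fermat.Agent.PSEMI.PoleLoop

/-!
# Deep approximations force invariance

A twisted function with residual `p`-th power `1`, nearer than `|ζ - 1| ^ p` to the `p`-th power
of an invariant function with residue `1`, has trivial multiplier.
-/

set_option autoImplicit false

open UpperHalfPlane
open scoped MatrixGroups Manifold
open FermatAgent.Curve (SGE)

noncomputable section

namespace FermatAgent.PSEMI

open FermatAgent.ES FermatAgent.Curve.Red

variable {p : ℕ} [hp : Fact p.Prime] {P : CPlace p} {K : Coeffs P}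

theorem geom_inv {R : Type*} [CommRing R] (y : R) (N : ℕ) :
    y * ∑ i ∈ Finset.range N, (1 - y) ^ i - 1 = -((1 - y) ^ N) := by
  have h := mul_geom_sum (x := 1 - y) (n := N)
  linear_combination -h

theorem eq_root_mul {a b : LaurentSeries ℂ} (hb : b ≠ 0) (h : a ^ p = b ^ p) :
    ∃ μ : ℂ, a = HahnSeries.C μ * b := by
  have : NeZero p := ⟨hp.out.ne_zero⟩
  have hzC : IsPrimitiveRoot (HahnSeries.C (zp p) : LaurentSeries ℂ) p :=
    (zp_spec (p := p)).map_of_injective (f := (HahnSeries.C : ℂ →+* LaurentSeries ℂ))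
      HahnSeries.C_injective
  have h1 : (a / b) ^ p = 1 := by rw [div_pow, h, div_self (pow_ne_zero _ hb)]
  obtain ⟨i, -, hi⟩ := hzC.eq_pow_of_pow_eq_one h1
  exact ⟨zp p ^ i, by rw [map_pow, hi, div_mul_cancel₀ _ hb]⟩

namespace Model

variable {D : Model}

omit hp in
/-- A combination of a frame with expansions over a coefficient ring containing that of the frame
has coefficients in it. -/
theorem Frame.coeff_mem {n : ℤ} (F : Frame D K n) {S : Finset ℂ} (hS : (S : Set ℂ) ⊆ P.ring)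
    (hFS : F.S ⊆ S) {μ : Fin F.d → ℂ}
    (h : ∀ c, SerIn (K.R S) (D.E c (∑ i, μ i • F.b i))) (i : Fin F.d) : μ i ∈ K.R S := by
  set O := K.R S
  have hO := K.isCDVR hS
  have hmono : K.R F.S ≤ O := K.mono (Finset.coe_subset.mpr hFS)
  have hind : LinearIndependent ℂ fun i => coord (D := D) (F.b i) := by
    rw [Fintype.linearIndependent_iff]
    intro ν hν j
    refine P.abv.eq_zero.mp (le_antisymm (F.abv_le ν (r := 0) (fun c k => ?_) le_rfl j)
      (P.abv.nonneg _))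
    have h1 := congrFun hν (c, k)
    simp only [Finset.sum_apply, Pi.smul_apply, smul_eq_mul, coord, Pi.zero_apply] at h1
    rw [F.E_comb, HahnSeries.coeff_sum]
    simp only [HahnSeries.C_apply, HahnSeries.coeff_single_mul, sub_zero]
    rw [h1, map_zero]
  have hfield := coeff_mem_of_subfield (Subfield.closure (O : Set ℂ))
    (v := fun i => coord (D := D) (F.b i))
    (fun j x => Subfield.subset_closure (hmono (F.ovr j x.1 x.2))) hind
    (a := coord (D := D) (∑ i, μ i • F.b i)) (fun x => Subfield.subset_closure (h x.1 x.2))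
    (c := μ) (funext fun x => by
      simp [coord, F.E_comb, HahnSeries.coeff_sum, HahnSeries.C_apply, Finset.sum_apply]) i
  obtain ⟨den, hden, hden0, hdenc⟩ := exists_mul_mem_of_fracRing O hfield
  have hle : P.abv (μ i) ≤ 1 :=
    F.abv_le μ (r := 1) (fun c => serIn_mono (h c) hO.le) zero_le_one i
  have := div_mem_of_abv_le hO hdenc hden hden0
    (by rw [map_mul]; exact mul_le_of_le_one_right (P.abv.nonneg _) hle)
  rwa [mul_div_cancel_left₀ _ hden0] at this

/-- A twisted function times `u ^ (p - 1)` is integral if its `p`-th power is, and then has as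
reduction a `p`-th root of the reduction of that power. -/
private theorem Good.integral_mul_pow (G : D.Good K) {χ : D.Γ →* ℂˣ} (hχp : χ ^ p = 1) {u : ℍ → ℂ}
    (hu : u ∈ D.Tw χ) (hui : D.Integral P (u ^ p)) (hu1 : D.redT P (u ^ p) = 1) {v : ℍ → ℂ}
    (hv : v ∈ D.Tw χ) (hvi : D.Integral P (v ^ p)) :
    D.Integral P (v * u ^ (p - 1)) ∧ D.redT P (v ^ p) = D.redT P (v * u ^ (p - 1)) ^ p := by
  have hm := mul_pow_mem_fun hχp hv hu
  have hi : D.Integral P (v * u ^ (p - 1)) := fun x => by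
    obtain ⟨a, ha, hfine⟩ := G.bound _ hm x
    refine serIn_of_pow ha hfine hp.out.ne_zero ?_
    rw [E_mul_pow hχp hv hu]
    exact (hvi x).mul ((hui x).pow _)
  refine ⟨hi, funext fun x => ?_⟩
  simp only [redT, Pi.pow_apply]
  rw [← red_pow (hi x), E_mul_pow hχp hv hu, red_mul (hvi x) ((hui x).pow _), red_pow (hui x),
    show red (P := P) (D.E x (u ^ p)) = 1 from congrFun hu1 x, one_pow, mul_one]

/-- Newton's method gives arbitrarily good `p`-th roots of `y` near `g`. -/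
private theorem exists_newton {O : Subring ℂ} (hO : P.IsCDVR O) {y g : ℍ → ℂ} (hy : y ∈ D.Fun)
    (hg : g ∈ D.Fun) (hyO : ∀ x, SerIn O (D.E x y)) (hgO : ∀ x, SerIn O (D.E x g)) {c ρ : ℝ}
    (hc0 : 0 ≤ c) (hc : c < rp P ^ p) (hρ0 : 0 ≤ ρ) (hρ1 : ρ < 1)
    (hy1 : ∀ x, P.SerLE ρ (D.E x y - 1)) (h : ∀ x, P.SerLE c (D.E x y - D.E x g ^ p))
    {ε : ℝ} (hε : 0 < ε) :
    ∃ g' ∈ D.Fun, (∀ x, SerIn O (D.E x g')) ∧
      (∀ x, P.SerLE (c / P.abv p) (D.E x g' - D.E x g)) ∧
      ∀ x, P.SerLE ε (D.E x y - D.E x g' ^ p) := by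
  have hap := abv_p_pos (P := P)
  set θ := max (max ρ (c / P.abv p)) ((c / rp P ^ p) ^ (p - 1))
  have hθ1 : θ < 1 := newton_rate_lt_one hc0 hc hρ1
  have hθ0 : 0 ≤ θ := hρ0.trans ((le_max_left _ _).trans (le_max_left _ _))
  have hnewton : ∀ k : ℕ, ∃ g' ∈ D.Fun, (∀ x, SerIn O (D.E x g')) ∧
      (∀ x, P.SerLE (c / P.abv p) (D.E x g' - D.E x g)) ∧
      ∀ x, P.SerLE (c * θ ^ k) (D.E x y - D.E x g' ^ p) := by
    intro k
    induction k with
    | zero => exact ⟨g, hg, hgO, fun x => by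
        rw [sub_self]; exact CPlace.SerLE.zero (div_nonneg hc0 hap.le), by simpa using h⟩
    | succ k ih =>
      obtain ⟨g', hg', hg'O, hg'close, hg'err⟩ := ih
      have hm : g' * (y - g' ^ p) ∈ D.Fun := mul_mem_fun hg' (sub_mem hy (pow_mem_fun' hg' p))
      have hE : ∀ x, D.E x (g' + (p : ℂ)⁻¹ • (g' * (y - g' ^ p))) = D.E x g' +
          HahnSeries.C (p : ℂ)⁻¹ * (D.E x g' * (D.E x y - D.E x g' ^ p)) := fun x => by
        rw [E_add isParChar_one hg' (Submodule.smul_mem _ _ hm), E_smul isParChar_one hm,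
          E_mul_fun hg' (sub_mem hy (pow_mem_fun' hg' p)),
          E_sub isParChar_one hy (pow_mem_fun' hg' p), E_pow_fun hg']
      have hek : c * θ ^ k ≤ c := mul_le_of_le_one_right hc0 (pow_le_one₀ hθ0 hθ1.le)
      have hstep := fun x => newton_step hO (hyO x) (hg'O x) hc hek (hy1 x) (hg'err x)
      refine ⟨g' + (p : ℂ)⁻¹ • (g' * (y - g' ^ p)), add_mem hg' (Submodule.smul_mem _ _ hm),
        fun x => ?_, fun x => ?_, fun x => ?_⟩
      · rw [hE]; exact (hstep x).1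
      · rw [hE, add_sub_right_comm]
        exact (hg'close x).add (((hstep x).2.1).mono (div_le_div_of_nonneg_right hek hap.le))
      · rw [hE, pow_succ, ← mul_assoc]; exact (hstep x).2.2
  obtain ⟨k, hk⟩ := exists_pow_lt_of_lt_one hε hθ1
  obtain ⟨g', hg', hg'O, hclose, herr⟩ := hnewton k
  exact ⟨g', hg', hg'O, hclose, fun x => (herr x).mono ((mul_le_of_le_one_left (pow_nonneg hθ0 _)
    (hc.le.trans (pow_le_one₀ rp_nonneg rp_lt_one.le))).trans hk.le)⟩

omit hp in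
/-- A truncated inverse of `y`. -/
private theorem exists_inv_approx {y : ℍ → ℂ} (hy : y ∈ D.Fun) (N : ℕ) :
    ∃ z ∈ D.Fun, ∀ x, D.E x z = ∑ i ∈ Finset.range N, (1 - D.E x y) ^ i := by
  induction N with
  | zero => exact ⟨0, zero_mem _, fun x => by simp [E_zero]⟩
  | succ N ih =>
    obtain ⟨z, hz, hzE⟩ := ih
    refine ⟨z + (1 - y) ^ N, add_mem hz (pow_mem_fun' (sub_mem one_mem hy) N), fun x => ?_⟩
    rw [E_add isParChar_one hz (pow_mem_fun' (sub_mem one_mem hy) N),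
      E_pow_fun (sub_mem one_mem hy), E_sub isParChar_one one_mem hy, E_one, hzE,
      Finset.sum_range_succ]

/-- If `y` is deeply a `p`-th power of `g` and `w ^ p = z y ^ (p - 1)`, then `z` has arbitrarily
good `p`-th roots near `w g / y`. -/
private theorem exists_approx_root {O : Subring ℂ} (hO : P.IsCDVR O) {y g w z : ℍ → ℂ}
    (hy : y ∈ D.Fun) (hg : g ∈ D.Fun) (hw : w ∈ D.Fun) (hyO : ∀ x, SerIn O (D.E x y))
    (hgO : ∀ x, SerIn O (D.E x g)) (hwO : ∀ x, SerIn O (D.E x w)) (hzi : D.Integral P z)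
    (hwz : ∀ x, D.E x w ^ p = D.E x z * D.E x y ^ (p - 1)) {c ρ : ℝ} (hc0 : 0 ≤ c)
    (hc : c < rp P ^ p) (hρ0 : 0 < ρ) (hρ1 : ρ < 1) (hy1 : ∀ x, P.SerLE ρ (D.E x y - 1))
    (hg1 : ∀ x, red (P := P) (D.E x g) = 1) (h : ∀ x, P.SerLE c (D.E x y - D.E x g ^ p)) :
    ∃ (W₀ : D.C → LaurentSeries ℂ) (r : ℝ), r < rp P ∧ ∀ ε : ℝ, 0 < ε →
      ∃ W ∈ D.Fun, (∀ x, SerIn O (D.E x W)) ∧ (∀ x, P.SerLE r (D.E x W - W₀ x)) ∧
        (∀ x, P.SerLE ε (D.E x z - D.E x W ^ p)) ∧ D.redT P W = D.redT P w := by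
  obtain ⟨N0, hN0⟩ := exists_pow_lt_of_lt_one (rp_pos (P := P)) hρ1
  have hcp : c / P.abv p < rp P := by
    rw [div_lt_iff₀ (abv_p_pos (P := P)), mul_comm, abv_p_mul_rp]; exact hc
  set r := max (c / P.abv p) (ρ ^ N0)
  have hr0 : 0 ≤ r := le_max_of_le_right (pow_nonneg hρ0.le _)
  have hyi : ∀ x, SerIn P.ring (D.E x y) := fun x => serIn_mono (hyO x) hO.le
  have hgeo : ∀ x N, SerIn O (∑ i ∈ Finset.range N, (1 - D.E x y) ^ i) := fun x N =>
    SerIn.sum _ fun i _ => (SerIn.one.sub (hyO x)).pow i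
  have hpρ : ∀ N x, P.SerLE (ρ ^ N) ((1 - D.E x y) ^ N) := fun N x =>
    CPlace.SerLE.pow hρ0.le (by rw [← neg_sub]; exact (hy1 x).neg) N
  refine ⟨fun x => D.E x w * (D.E x g * ∑ i ∈ Finset.range N0, (1 - D.E x y) ^ i), r,
    max_lt hcp hN0, fun ε hε => ?_⟩
  obtain ⟨g', hg', hg'O, hclose, herr⟩ := exists_newton hO hy hg hyO hgO hc0 hc hρ0.le hρ1 hy1 h hε
  obtain ⟨N, hN⟩ := exists_pow_lt_of_lt_one hε hρ1
  obtain ⟨t, ht, htE⟩ := exists_inv_approx hy (N0 + N)
  have hti : ∀ x, SerIn P.ring (D.E x t) := fun x => htE x ▸ serIn_mono (hgeo x _) hO.le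
  have hWE : ∀ x, D.E x (w * (g' * t)) = D.E x w * (D.E x g' * D.E x t) := fun x => by
    rw [E_mul_fun hw (mul_mem_fun hg' ht), E_mul_fun hg' ht]
  refine ⟨w * (g' * t), mul_mem_fun hw (mul_mem_fun hg' ht), fun x => ?_, fun x => ?_,
    fun x => ?_, funext fun x => ?_⟩
  · rw [hWE, htE]; exact (hwO x).mul ((hg'O x).mul (hgeo x _))
  · rw [hWE, htE, ← mul_sub, show D.E x g' * (∑ i ∈ Finset.range (N0 + N), (1 - D.E x y) ^ i) -
        D.E x g * (∑ i ∈ Finset.range N0, (1 - D.E x y) ^ i) =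
      (D.E x g' - D.E x g) * (∑ i ∈ Finset.range (N0 + N), (1 - D.E x y) ^ i) +
        D.E x g * ((∑ i ∈ Finset.range (N0 + N), (1 - D.E x y) ^ i) -
          ∑ i ∈ Finset.range N0, (1 - D.E x y) ^ i) by ring]
    refine CPlace.SerLE.serIn_mul hr0 (serIn_mono (hwO x) hO.le) (CPlace.SerLE.add ?_ ?_)
    · exact ((hclose x).mono (le_max_left _ _)).mul_serIn hr0 (serIn_mono (hgeo x _) hO.le)
    · refine CPlace.SerLE.serIn_mul hr0 (serIn_mono (hgO x) hO.le) ?_
      rw [Finset.sum_range_add, add_sub_cancel_left]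
      refine CPlace.SerLE.sum hr0 _ fun i _ =>
        (hpρ (N0 + i) x).mono (le_trans ?_ (le_max_right _ _))
      exact pow_le_pow_of_le_one hρ0.le hρ1.le (Nat.le_add_right _ _)
  · have e1 : D.E x z - D.E x (w * (g' * t)) ^ p = D.E x z *
        ((1 ^ p - (D.E x y * D.E x t) ^ p) +
          D.E x y ^ (p - 1) * D.E x t ^ p * (D.E x y - D.E x g' ^ p)) := by
      have : D.E x y ^ p = D.E x y ^ (p - 1) * D.E x y := by
        rw [← pow_succ, Nat.sub_add_cancel hp.out.pos]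
      rw [hWE, mul_pow, mul_pow, hwz]
      linear_combination (D.E x z * D.E x t ^ p) * this
    rw [e1]
    refine CPlace.SerLE.serIn_mul hε.le (hzi x) (CPlace.SerLE.add ?_ ?_)
    · refine CPlace.SerLE.pow_sub_pow hε.le SerIn.one ((hyi x).mul (hti x)) ?_ p
      rw [← neg_sub, htE, geom_inv, neg_neg]
      exact (hpρ _ x).mono
        ((pow_le_pow_of_le_one hρ0.le hρ1.le (Nat.le_add_left _ _)).trans hN.le)
    · exact CPlace.SerLE.serIn_mul hε.le (((hyi x).pow _).mul ((hti x).pow p)) (herr x)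
  · have h1 : red (P := P) (D.E x g') = 1 := by
      refine Eq.trans ?_ (hg1 x)
      exact (red_eq_red_iff (serIn_mono (hg'O x) hO.le) (serIn_mono (hgO x) hO.le)).mpr
        fun i => (hclose x i).trans_lt (hcp.trans rp_lt_one)
    have h2 : red (P := P) (D.E x t) = 1 := by
      have hy' : red (P := P) (D.E x y) = 1 := by
        rw [← red_one]
        exact (red_eq_red_iff (hyi x) SerIn.one).mpr fun i => (hy1 x i).trans_lt hρ1
      have h3 : P.SerLT (D.E x y * D.E x t - 1) := fun i => by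
        rw [htE, geom_inv, HahnSeries.coeff_neg, AbsoluteValue.map_neg]
        refine (hpρ _ x i).trans_lt (pow_lt_one₀ hρ0.le hρ1 fun h0 => ?_)
        rw [show N0 = 0 by omega, pow_zero] at hN0
        exact (hN0.trans rp_lt_one).false
      rw [← red_eq_red_iff ((hyi x).mul (hti x)) SerIn.one, red_one, red_mul (hyi x) (hti x), hy',
        one_mul] at h3
      exact h3
    rw [redT, hWE, red_mul (serIn_mono (hwO x) hO.le)
        ((serIn_mono (hg'O x) hO.le).mul (hti x)),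
      red_mul (serIn_mono (hg'O x) hO.le) (hti x), h1, h2, mul_one, mul_one]
    rfl

/-- Arbitrarily good `p`-th roots near a fixed series give a Cauchy sequence of bounded ones. -/
private theorem Good.exists_root_seq (G : D.Good K) {n : ℕ} (hn : G.o0 ≤ n)
    (F : Frame D K (n : ℤ)) {S : Finset ℂ} (hS : (S : Set ℂ) ⊆ P.ring) (hFS : F.S ⊆ S)
    {z f : ℍ → ℂ} (hzord : ∀ x, SGE ((p : ℤ) * -(n : ℤ)) (D.E x z)) (hzi : D.Integral P z)
    (hzf : D.redT P z = D.redT P f ^ p)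
    (hford : ∀ x, D.redT P f x ≠ 0 ∧ (D.redT P f x).order = -(n : ℤ))
    {W₀ : D.C → LaurentSeries ℂ} {r : ℝ} (hr : r < rp P)
    (happ : ∀ ε : ℝ, 0 < ε → ∃ W ∈ D.Fun, (∀ x, SerIn (K.R S) (D.E x W)) ∧
      (∀ x, P.SerLE r (D.E x W - W₀ x)) ∧ (∀ x, P.SerLE ε (D.E x z - D.E x W ^ p)) ∧
      D.redT P W = D.redT P f)
    {q : ℝ} (hq0 : 0 < q) (hq1 : q < 1) :
    ∃ H : ℕ → ℍ → ℂ, (∀ j, H j ∈ D.LamF (n : ℤ)) ∧ (∀ j x, SerIn (K.R S) (D.E x (H j))) ∧
      (∀ j x, P.SerLE (P.abv p * q ^ (j + 1)) (D.E x z - D.E x (H j) ^ p)) ∧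
      ∀ j x, P.SerLE (q ^ (j + 1)) (D.E x (H (j + 1)) - D.E x (H j)) := by
  have hap := abv_p_pos (P := P)
  have hO := K.isCDVR hS
  have hseq : ∀ j : ℕ, ∃ H ∈ D.LamF (n : ℤ), (∀ x, SerIn (K.R S) (D.E x H)) ∧
      (∀ x, P.SerLE (max r (P.abv p * q)) (D.E x H - W₀ x)) ∧
      ∀ x, P.SerLE (P.abv p * q ^ (j + 1)) (D.E x z - D.E x H ^ p) := by
    intro j
    set e := P.abv p ^ 2 * q ^ (j + 1) with he
    have he0 : 0 < e := by positivity
    obtain ⟨W, hW, hWO, hWclose, hWe, hWred⟩ := happ e he0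
    obtain ⟨H, hH, hHO, hHclose⟩ :=
      G.exists_bounded hn F hS hFS hzord hW hWO (fun x => by rw [hWred]; exact hford x) he0 hWe
    have hep : e / P.abv p = P.abv p * q ^ (j + 1) := by rw [he]; field_simp
    rw [hep] at hHclose
    refine ⟨H, hH, hHO, fun x => ?_, fun x => ?_⟩
    · rw [show D.E x H - W₀ x = -(D.E x W - D.E x H) + (D.E x W - W₀ x) by ring]
      refine CPlace.SerLE.add (CPlace.SerLE.mono (hHclose x).neg (le_trans ?_ (le_max_right _ _)))
        ((hWclose x).mono (le_max_left _ _))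
      rw [pow_succ]
      exact mul_le_mul_of_nonneg_left (mul_le_of_le_one_left hq0.le (pow_le_one₀ hq0.le hq1.le))
        hap.le
    · rw [show D.E x z - D.E x H ^ p = (D.E x z - D.E x W ^ p) + (D.E x W ^ p - D.E x H ^ p) by
        ring]
      refine ((hWe x).mono ?_).add (CPlace.SerLE.pow_sub_pow (by positivity)
        (serIn_mono (hWO x) hO.le) (serIn_mono (hHO x) hO.le) (hHclose x) p)
      rw [he, pow_two, mul_assoc]
      exact mul_le_of_le_one_left (by positivity) (P.abv_natCast_le_one p)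
  choose H hH hHO hHclose hHerr using hseq
  refine ⟨H, hH, hHO, hHerr, fun j x => ?_⟩
  have hunit : P.UnitCoeff (D.E x (H j)) := by
    rw [← red_ne_zero_iff (serIn_mono (hHO j x) hO.le)]
    have e1 : red (P := P) (D.E x (H j)) ^ p = D.redT P f x ^ p := by
      rw [← red_pow (serIn_mono (hHO j x) hO.le)]
      refine Eq.trans ?_ (congrFun hzf x)
      refine ((red_eq_red_iff (hzi x) ((serIn_mono (hHO j x) hO.le).pow p)).mpr fun i => ?_).symm
      exact (hHerr j x i).trans_lt ((mul_lt_of_lt_one_left (pow_pos hq0 _) P.lt_one).trans_le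
        (pow_le_one₀ hq0.le hq1.le))
    intro h0
    rw [h0, zero_pow hp.out.ne_zero] at e1
    exact (hford x).1 (eq_zero_of_pow_eq_zero e1.symm)
  have h2 := root_unique hO (hHO j x) (hHO (j + 1) x) hunit
    (max_lt hr ((mul_lt_of_lt_one_right hap hq1).trans_le abv_p_le_rp))
    (e := P.abv p * q ^ (j + 1)) ?_ ?_
  · rwa [mul_div_cancel_left₀ _ hap.ne'] at h2
  · have := (hHclose (j + 1) x).sub (hHclose j x)
    rwa [sub_sub_sub_cancel_right] at this
  · have := (hHerr j x).sub ((hHerr (j + 1) x).mono (mul_le_mul_of_nonneg_left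
      (pow_le_pow_of_le_one hq0.le hq1.le (Nat.le_succ _)) hap.le))
    rwa [sub_sub_sub_cancel_left] at this

omit hp in
/-- A Cauchy sequence in a frame has a limit. -/
private theorem Frame.exists_limit_fun {n : ℤ} (F : Frame D K n) {S : Finset ℂ}
    (hS : (S : Set ℂ) ⊆ P.ring) (hFS : F.S ⊆ S) {π : K.R S} (hπ0 : 0 < P.abv (π : ℂ))
    (hπ1 : P.abv (π : ℂ) < 1) (hval : ∀ x : K.R S, (x : ℂ) ≠ 0 → ∃ i : ℕ,
      P.abv (x : ℂ) = P.abv (π : ℂ) ^ i ∧
        ∃ u : K.R S, (x : ℂ) = u * (π : ℂ) ^ i ∧ P.abv (u : ℂ) = 1)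
    {H : ℕ → ℍ → ℂ} (hH : ∀ j, H j ∈ D.LamF n) (hHO : ∀ j x, SerIn (K.R S) (D.E x (H j)))
    (hcauchy : ∀ j x, P.SerLE (P.abv (π : ℂ) ^ (j + 1)) (D.E x (H (j + 1)) - D.E x (H j))) :
    ∃ Lim ∈ D.Fun, D.Integral P Lim ∧
      ∀ j x, P.SerLE (P.abv (π : ℂ) ^ j) (D.E x Lim - D.E x (H j)) := by
  have hO := K.isCDVR hS
  choose μ hμ using fun j => F.span (H j) (hH j)
  have hμO : ∀ j i, μ j i ∈ K.R S := fun j i => F.coeff_mem hS hFS (fun x => hμ j ▸ hHO j x) i
  have hμc : ∀ j i, P.abv (μ (j + 1) i - μ j i) ≤ P.abv (π : ℂ) ^ j := by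
    intro j i
    refine F.abv_le (fun i => μ (j + 1) i - μ j i) (fun x => ?_) (by positivity) i
    have e1 : D.E x (∑ i, (μ (j + 1) i - μ j i) • F.b i) = D.E x (H (j + 1)) - D.E x (H j) := by
      rw [F.E_comb, hμ (j + 1), hμ j, F.E_comb, F.E_comb, ← Finset.sum_sub_distrib]
      exact Finset.sum_congr rfl fun i _ => by rw [map_sub, sub_mul]
    rw [e1]
    exact (hcauchy j x).mono (pow_le_pow_of_le_one hπ0.le hπ1.le (Nat.le_succ _))
  choose L hL using fun i => exists_limit hO hπ0 hπ1 hval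
    (f := fun j => (⟨μ j i, hμO j i⟩ : K.R S)) fun j => hμc j i
  refine ⟨∑ i, (L i : ℂ) • F.b i, (F.comb_mem _).1, F.integral_comb fun i => hO.le (L i).2,
    fun j x => ?_⟩
  rw [F.E_comb, hμ j, F.E_comb, ← Finset.sum_sub_distrib]
  refine CPlace.SerLE.sum (by positivity) _ fun i _ => ?_
  rw [← sub_mul, ← map_sub]
  exact CPlace.SerLE.C_mul (hL i j) (F.integral i x)

/-- A twisted function with the same `p`-th power at a cusp as an invariant one has trivial
character. -/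
private theorem char_eq_one_of_pow_eq {χ : D.Γ →* ℂˣ} (hχ : IsParChar D.Γ χ) {v f : ℍ → ℂ}
    (hv : v ∈ D.Tw χ) (hf : f ∈ D.Fun) {x : D.C} (hvE : D.E x v ≠ 0)
    (heq : D.E x v ^ p = D.E x f ^ p) : χ = 1 := by
  have hfE : D.E x f ≠ 0 := fun h0 => hvE (eq_zero_of_pow_eq_zero (n := p) (by
    rw [heq, h0, zero_pow hp.out.ne_zero]))
  obtain ⟨ζ, hζ⟩ := eq_root_mul hfE heq
  have hvfun : v = ζ • f := by
    have h1 := hasLExp_E hχ hv x
    have h2 := hasLExp_E isParChar_one (Submodule.smul_mem _ ζ hf) x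
    rw [hζ, ← E_smul isParChar_one hf] at h1
    have h3 := congrArg (act (D.rep x)⁻¹) (h1.eq_of_series h2)
    rwa [← act_mul, mul_inv_cancel, act_one, ← act_mul, mul_inv_cancel, act_one] at h3
  refine MonoidHom.ext fun γ => Units.ext ?_
  have h1 := hv.1 γ
  have h2 := (Submodule.smul_mem _ ζ hf : ζ • f ∈ D.Fun).1 γ
  rw [← hvfun, MonoidHom.one_apply, Units.val_one, one_smul] at h2
  rw [h2] at h1
  have hv0 : v ≠ 0 := fun h0 => hvE (by rw [h0, E_zero])
  obtain ⟨τ, hτ⟩ := Function.ne_iff.mp hv0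
  have h3 := congrFun h1 τ
  rw [Pi.smul_apply, smul_eq_mul] at h3
  exact mul_right_cancel₀ hτ (by rw [← h3, MonoidHom.one_apply, Units.val_one, one_mul])

/-- **Twisted functions which are deep powers are invariant.** -/
theorem Good.char_eq_one_of_deep (G : D.Good K) {χ : D.Γ →* ℂˣ}
    (hlev : CongruenceSubgroup.Gamma D.lev ≤ D.Γ) (hχ : IsParChar D.Γ χ) (hχp : χ ^ p = 1)
    {u : ℍ → ℂ} (hu : u ∈ D.Tw χ) (hui : D.Integral P (u ^ p)) (hu1 : D.redT P (u ^ p) = 1)
    {g : ℍ → ℂ} (hg : g ∈ D.Fun) (hgi : D.Integral P g) (hg1 : D.redT P g = 1) {c : ℝ}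
    (hc : c < rp P ^ p) (h : ∀ x, P.SerLE c (D.E x (u ^ p) - D.E x g ^ p)) : χ = 1 := by
  classical
  obtain ⟨x₀⟩ := G.nonempty
  have hc0 : 0 ≤ c := (P.abv.nonneg _).trans (h x₀ 0)
  have hy := pow_mem_fun hu hχp
  have hu0 : u ≠ 0 := fun h0 => by
    have h1 := congrFun hu1 x₀
    rw [h0, zero_pow hp.out.ne_zero] at h1
    simp only [redT, E_zero, red_zero, Pi.one_apply] at h1
    exact zero_ne_one h1
  have hkey := fun v => G.integral_mul_pow hχp hu hui hu1 (v := v)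
  -- a twisted `v` whose power reduces to that of an exact invariant function
  obtain ⟨n, hn, htarget⟩ := G.exists_root_target hlev hχ hχp hu hu0
    fun v hv hvi x _ => ⟨_, congrFun (hkey v hv hvi).2 x⟩
  obtain ⟨f, hf, hfi, hflead⟩ := G.exists_exact hn
  obtain ⟨v, hv, hvi, hvr⟩ := htarget n le_rfl f hf hfi
  obtain ⟨hwi, hwr⟩ := hkey v hv.1 hvi
  have hvwF := mul_pow_mem_fun hχp hv.1 hu
  have hvwred : D.redT P (v * u ^ (p - 1)) = D.redT P f := funext fun x => by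
    have h1 := congrFun (hwr.symm.trans hvr) x
    simp only [Pi.pow_apply] at h1
    refine sub_eq_zero.mp (eq_zero_of_pow_eq_zero (n := p) ?_)
    rw [sub_pow_char, h1, sub_self]
  have hford : ∀ x, D.redT P f x ≠ 0 ∧ (D.redT P f x).order = -(n : ℤ) := fun x =>
    ⟨fun h0 => hflead x (by rw [h0]; rfl),
      le_antisymm (HahnSeries.order_le_of_coeff_ne_zero (hflead x))
        ((sge_red (hfi x) (hf.2 x)).le_order fun h0 => hflead x (by rw [redT, h0]; rfl))⟩
  -- a discrete valuation ring over which everything is defined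
  obtain ⟨F⟩ := G.exists_frame (n : ℤ)
  obtain ⟨S0, hS0, hover⟩ := G.exists_over (f := ![u ^ p, g, v * u ^ (p - 1), v ^ p])
    (fun i => by fin_cases i; exacts [hy, hg, hvwF, pow_mem_fun hv.1 hχp])
    (fun i => by fin_cases i; exacts [hui, hgi, hwi, hvi])
  set S := F.S ∪ S0 with hSdef
  have hS : (S : Set ℂ) ⊆ P.ring := by
    rw [hSdef, Finset.coe_union]; exact Set.union_subset F.sub hS0
  have hO := K.isCDVR hS
  have hmono : K.R S0 ≤ K.R S := K.mono (Finset.coe_subset.mpr Finset.subset_union_right)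
  have hyO : ∀ x, SerIn (K.R S) (D.E x (u ^ p)) := fun x => serIn_mono (hover 0 x) hmono
  obtain ⟨π, hπ0, hπ1, hval⟩ := exists_unif hO
  obtain ⟨ρ, hρ0, hρ1, hρ⟩ := exists_lt_one_bound hO
  have hy1 : ∀ x, P.SerLE ρ (D.E x (u ^ p) - 1) := fun x k => by
    refine hρ _ (((hyO x).sub SerIn.one) k) ?_
    exact (red_eq_red_iff (hui x) SerIn.one).mp (by rw [red_one]; exact congrFun hu1 x) k
  -- approximate, bound, pass to the limit
  obtain ⟨W₀, r, hr, happ⟩ := exists_approx_root hO hy hg hvwF hyO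
    (fun x => serIn_mono (hover 1 x) hmono) (fun x => serIn_mono (hover 2 x) hmono) hvi
    (fun x => E_mul_pow hχp hv.1 hu x) hc0 hc hρ0 hρ1 hy1 (congrFun hg1) h
  obtain ⟨H, hH, hHO, hHerr, hcauchy⟩ := G.exists_root_seq hn F hS Finset.subset_union_left
    (fun x => by rw [E_pow hχ hv.1]; exact sge_pow (hv.2 x) p) hvi hvr hford hr
    (fun ε hε => by simpa only [hvwred] using happ ε hε) hπ0 hπ1
  obtain ⟨Lim, hLimF, hLimP, hclose⟩ :=
    F.exists_limit_fun hS Finset.subset_union_left hπ0 hπ1 hval hH hHO hcauchy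
  have heq : D.E x₀ v ^ p = D.E x₀ Lim ^ p := by
    rw [← E_pow hχ hv.1]
    refine HahnSeries.ext (funext fun k => sub_eq_zero.mp (P.abv.eq_zero.mp
      (le_antisymm ?_ (P.abv.nonneg _))))
    refine ge_of_tendsto' (tendsto_pow_atTop_nhds_zero_of_lt_one hπ0.le hπ1) fun j => ?_
    have h1 := ((hHerr j x₀).mono (le_trans (mul_le_of_le_one_left (by positivity)
      (P.abv_natCast_le_one p)) (pow_le_pow_of_le_one hπ0.le hπ1.le (Nat.le_succ j)))).sub
        (CPlace.SerLE.pow_sub_pow (by positivity) (hLimP x₀) (serIn_mono (hHO j x₀) hO.le)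
          (hclose j x₀) p)
    rw [sub_sub_sub_cancel_right] at h1
    simpa only [HahnSeries.coeff_sub] using h1 k
  refine char_eq_one_of_pow_eq hχ hv.1 hLimF (fun h0 => (hford x₀).1 ?_) heq
  have h1 := congrFun hvr x₀
  rw [redT, E_pow hχ hv.1, h0, zero_pow hp.out.ne_zero, red_zero, Pi.pow_apply] at h1
  exact eq_zero_of_pow_eq_zero h1.symm

end Model

end FermatAgent.PSEMI
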