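import Fermat.Agent.BAD.Dilate
import Fermat.Agent.ES.Ring.Cusps
import Fermat.Agent.Curve.Red.JLevel

/-!
# Shrinking the period of an expansion
-/

set_option autoImplicit false

open UpperHalfPlane Filter Topology
open scoped Manifold
open ModularCurve (qExpand qExpand_coeff_mul qExpand_coeff_of_not_dvd)

noncomputable section

namespace FermatAgent.PSEMI

open FermatAgent.ES

theorem ofPowerSeries_expand (r : ℕ) [NeZero r] (c : PowerSeries ℂ) :
    HahnSeries.ofPowerSeries ℤ ℂ (PowerSeries.expand r (NeZero.ne r) c) =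
      qExpand ℂ r (HahnSeries.ofPowerSeries ℤ ℂ c) :=
  (BAD.expandL_ofPowerSeries r c).symm

theorem hasLExp_qExpand {d r : ℕ} [NeZero r] {g : ℍ → ℂ} {t : LaurentSeries ℂ}
    (h : HasLExp d g t) : HasLExp (r * d) g (qExpand ℂ r t) := by
  obtain ⟨k, c, hc, rfl⟩ := h
  refine ⟨r * k, PowerSeries.expand r (NeZero.ne r) c, ?_, ?_⟩
  · exact ((hc.expand (NeZero.ne r)).congr_fun fun τ => by
      rw [← qm_mul_pow (M := d) (NeZero.ne r) τ, ← pow_mul])
  · rw [map_mul, ofPowerSeries_expand, ModularCurve.qExpand_single]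
    congr 2
    push_cast
    ring

/-- An expansion of a function of smaller period. -/
theorem exists_hasLExp_of_periodic {N d r : ℕ} [NeZero N] [NeZero d] [NeZero r] (hN : r * d = N)
    {g : ℍ → ℂ} {s : LaurentSeries ℂ} (h : HasLExp N g s)
    (hper : ∀ τ : ℍ, g ((d : ℝ) +ᵥ τ) = g τ) :
    ∃ t, HasLExp d g t ∧ qExpand ℂ r t = s := by
  subst hN
  have hmd := h.mdifferentiable
  obtain ⟨k, c, hc, hs⟩ := id h
  obtain ⟨r', hr'⟩ : ∃ r', r = r' + 1 := ⟨r - 1, by have := NeZero.pos r; omega⟩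
  have hf : ∀ τ : ℍ, qm d τ ^ k * g τ = qm (r * d) τ ^ (k * r') * (qm (r * d) τ ^ k * g τ) := by
    intro τ
    rw [← qm_mul_pow (M := d) (NeZero.ne r) τ, hr']
    ring
  have hexp : HasExp (r * d) (fun τ => qm d τ ^ k * g τ) (PowerSeries.X ^ (k * r') * c) :=
    ((HasExp.qm_pow (M := r * d) (k * r')).mul hc).congr_fun hf
  have hperiodic : Function.Periodic ((fun τ => qm d τ ^ k * g τ) ∘ ofComplex) (d : ℝ) := by
    refine Curve.periodic_comp_ofComplex_of_vadd fun τ => ?_
    rw [hper τ]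
    congr 2
    simp only [qm, UpperHalfPlane.coe_vadd]
    rw [add_comm]
    exact qParam_add_period d (τ : ℂ)
  have h' := HasExp.exists_of_bounded hperiodic hexp.mdifferentiable hexp.isBounded
  refine ⟨_, ⟨k, _, h', rfl⟩, ?_⟩
  exact (hasLExp_qExpand (r := r) (d := d) ⟨k, _, h', rfl⟩).series_unique h

end FermatAgent.PSEMI
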