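import Fermat.Agent.PSEMI.Descend
import Fermat.Agent.PSEMI.Division
import Fermat.Agent.ES.Forms.Classes
import Fermat.Agent.Curve.Laurent

/-!
# Models

A level structure with chosen cusps and the twisted functions on it.
-/

set_option autoImplicit false

open UpperHalfPlane CongruenceSubgroup
open scoped MatrixGroups Manifold
open FermatAgent.Curve (SGE)

noncomputable section

namespace FermatAgent.PSEMI

open FermatAgent.ES FermatAgent.Curve.Red

/-- Powers of parabolic characters are parabolic. -/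
theorem isParChar_pow {Γ : Subgroup SL(2, ℤ)} {χ : Γ →* ℂˣ} (hχ : IsParChar Γ χ) (n : ℕ) :
    IsParChar Γ (χ ^ n) := fun γ hγ => by rw [MonoidHom.pow_apply, hχ γ hγ, one_pow]

/-- A level with representatives of cusps and their widths. -/
structure Model where
  /-- A period for all cusps. -/
  lev : ℕ
  [nz : NeZero lev]
  /-- The group. -/
  Γ : Subgroup SL(2, ℤ)
  /-- The index type of the cusps. -/
  C : Type
  [fin : Fintype C]
  /-- The representative of a cusp. -/
  rep : C → SL(2, ℤ)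
  /-- The width. -/
  wd : C → ℕ
  wd_ne : ∀ c, NeZero (wd c)
  wd_dvd : ∀ c, wd c ∣ lev
  per : ∀ c, rep c * ModularGroup.T ^ wd c * (rep c)⁻¹ ∈ Γ

attribute [instance] Model.nz Model.fin

namespace Model

variable (D : Model)

instance (c : D.C) : NeZero (D.wd c) := D.wd_ne c

/-- Functions with multiplier and finite expansions. -/
def Tw (φ : D.Γ →* ℂˣ) : Submodule ℂ (ℍ → ℂ) where
  carrier := {u | (∀ γ : D.Γ, act (γ : SL(2, ℤ)) u = (φ γ : ℂ) • u) ∧
    ∀ γ : SL(2, ℤ), ∃ s, HasLExp D.lev (act γ u) s}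
  zero_mem' := ⟨fun γ => by rw [act_zeroFun, smul_zero], fun γ => ⟨0, by
    rw [act_zeroFun]; exact HasLExp.zero⟩⟩
  add_mem' {u v} hu hv := ⟨fun γ => by rw [act_add, hu.1 γ, hv.1 γ, smul_add], fun γ => by
    obtain ⟨s, hs⟩ := hu.2 γ
    obtain ⟨t, ht⟩ := hv.2 γ
    exact ⟨s + t, by rw [act_add]; exact hs.add ht⟩⟩
  smul_mem' a u hu := ⟨fun γ => by rw [act_smulFun, hu.1 γ, smul_comm], fun γ => by
    obtain ⟨s, hs⟩ := hu.2 γ
    exact ⟨_, ((HasLExp.const a).mul hs).congr_fun fun τ => rfl⟩⟩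

/-- The invariant functions. -/
abbrev Fun : Submodule ℂ (ℍ → ℂ) := D.Tw 1

open Classical in
/-- The expansion at a cusp, in the width of the cusp. -/
def E (c : D.C) (u : ℍ → ℂ) : LaurentSeries ℂ :=
  if h : ∃ t, HasLExp (D.wd c) (act (D.rep c) u) t then h.choose else 0

variable {D} {φ ψ : D.Γ →* ℂˣ} {u v : ℍ → ℂ}

/-- Twisted functions are holomorphic on the upper half plane. -/
theorem mdiff_of_mem (hu : u ∈ D.Tw φ) : MDiff u := by
  obtain ⟨s, hs⟩ := hu.2 1
  rw [act_one] at hs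
  exact hs.mdifferentiable

/-- Products of twisted functions have the product of the multipliers. -/
theorem mul_mem (hu : u ∈ D.Tw φ) (hv : v ∈ D.Tw ψ) : u * v ∈ D.Tw (φ * ψ) :=
  ⟨fun γ => by
    rw [act_mulFun, hu.1 γ, hv.1 γ, MonoidHom.mul_apply, Units.val_mul, smul_mul_smul_comm],
    fun γ => by
    obtain ⟨s, hs⟩ := hu.2 γ
    obtain ⟨t, ht⟩ := hv.2 γ
    exact ⟨s * t, by rw [act_mulFun]; exact hs.mul ht⟩⟩

/-- The constant function `1` is invariant. -/
theorem one_mem : (1 : ℍ → ℂ) ∈ D.Fun :=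
  ⟨fun γ => by rw [act_oneFun, MonoidHom.one_apply, Units.val_one, one_smul],
    fun γ => ⟨1, by rw [act_oneFun]; exact HasLExp.one⟩⟩

/-- The `n`-th power of a twisted function has the `n`-th power of the multiplier. -/
theorem pow_mem (hu : u ∈ D.Tw φ) (n : ℕ) : u ^ n ∈ D.Tw (φ ^ n) := by
  induction n with
  | zero =>
    rw [pow_zero, show φ ^ 0 = 1 from MonoidHom.ext fun γ => by simp]
    exact one_mem
  | succ n ih =>
    rw [pow_succ, show φ ^ (n + 1) = φ ^ n * φ from MonoidHom.ext fun γ => by simp [pow_succ]]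
    exact mul_mem ih hu

/-- The `n`-th power of a twisted function is invariant when the multiplier has order dividing `n`.
-/
theorem pow_mem_fun (hu : u ∈ D.Tw φ) {n : ℕ} (hφ : φ ^ n = 1) : u ^ n ∈ D.Fun := by
  have h := pow_mem hu n
  rwa [hφ] at h

/-- The trivial character is parabolic. -/
theorem isParChar_one : IsParChar D.Γ (1 : D.Γ →* ℂˣ) := fun _ _ => rfl

theorem periodic_act (hφ : IsParChar D.Γ φ) (hu : u ∈ D.Tw φ) (c : D.C) (τ : ℍ) :
    act (D.rep c) u ((D.wd c : ℝ) +ᵥ τ) = act (D.rep c) u τ := by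
  set g : D.Γ := ⟨_, D.per c⟩
  have htr : ((g : SL(2, ℤ)) : Matrix (Fin 2) (Fin 2) ℤ).trace ^ 2 = 4 := by
    show ((D.rep c * ModularGroup.T ^ D.wd c * (D.rep c)⁻¹ : SL(2, ℤ)) :
      Matrix (Fin 2) (Fin 2) ℤ).trace ^ 2 = 4
    rw [Matrix.SpecialLinearGroup.coe_mul, Matrix.SpecialLinearGroup.coe_mul,
      Matrix.trace_mul_cycle,
      ← Matrix.SpecialLinearGroup.coe_mul, inv_mul_cancel, Matrix.SpecialLinearGroup.coe_one,
      one_mul, T_pow_coe]
    simp [Matrix.trace_fin_two]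
  have h := hu.1 g
  rw [hφ g htr, Units.val_one, one_smul] at h
  have e : act (ModularGroup.T ^ D.wd c) (act (D.rep c) u) = act (D.rep c) u := by
    rw [← act_mul, show D.rep c * ModularGroup.T ^ D.wd c = (g : SL(2, ℤ)) * D.rep c by
      simp [g], act_mul, h]
  have := congrFun e τ
  rwa [act_T_pow] at this

theorem exists_E (hφ : IsParChar D.Γ φ) (hu : u ∈ D.Tw φ) (c : D.C) :
    ∃ t, HasLExp (D.wd c) (act (D.rep c) u) t := by
  obtain ⟨s, hs⟩ := hu.2 (D.rep c)
  have : NeZero (D.lev / D.wd c) := ⟨(Nat.div_pos (Nat.le_of_dvd (NeZero.pos _) (D.wd_dvd c))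
    (NeZero.pos _)).ne'⟩
  obtain ⟨t, ht, -⟩ := exists_hasLExp_of_periodic (Nat.div_mul_cancel (D.wd_dvd c)) hs
    (periodic_act hφ hu c)
  exact ⟨t, ht⟩

/-- A function with parabolic multiplier has the expansion `E c` at the cusp `c`, in its width. -/
theorem hasLExp_E (hφ : IsParChar D.Γ φ) (hu : u ∈ D.Tw φ) (c : D.C) :
    HasLExp (D.wd c) (act (D.rep c) u) (D.E c u) := by
  have h := exists_E hφ hu c
  rw [E, dif_pos h]
  exact h.choose_spec

/-- The expansion at a cusp is unique. -/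
theorem E_eq {c : D.C} {t : LaurentSeries ℂ} (h : HasLExp (D.wd c) (act (D.rep c) u) t) :
    D.E c u = t := by
  have hex : ∃ t, HasLExp (D.wd c) (act (D.rep c) u) t := ⟨t, h⟩
  rw [E, dif_pos hex]
  exact hex.choose_spec.series_unique h

/-- The constant function `1` has expansion `1`. -/
theorem E_one (c : D.C) : D.E c 1 = 1 := E_eq (by rw [act_oneFun]; exact HasLExp.one)

/-- Expansions are multiplicative. -/
theorem E_mul (hφ : IsParChar D.Γ φ) (hψ : IsParChar D.Γ ψ) (hu : u ∈ D.Tw φ) (hv : v ∈ D.Tw ψ)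
    (c : D.C) : D.E c (u * v) = D.E c u * D.E c v :=
  E_eq (by rw [act_mulFun]; exact (hasLExp_E hφ hu c).mul (hasLExp_E hψ hv c))

/-- Expansions are additive. -/
theorem E_add (hφ : IsParChar D.Γ φ) (hu : u ∈ D.Tw φ) (hv : v ∈ D.Tw φ)
    (c : D.C) : D.E c (u + v) = D.E c u + D.E c v :=
  E_eq (by rw [act_add]; exact (hasLExp_E hφ hu c).add (hasLExp_E hφ hv c))

/-- The expansion of a difference is the difference of the expansions. -/
theorem E_sub (hφ : IsParChar D.Γ φ) (hu : u ∈ D.Tw φ) (hv : v ∈ D.Tw φ)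
    (c : D.C) : D.E c (u - v) = D.E c u - D.E c v :=
  E_eq (by rw [act_sub]; exact (hasLExp_E hφ hu c).sub (hasLExp_E hφ hv c))

/-- Expansions commute with scalars. -/
theorem E_smul (hφ : IsParChar D.Γ φ) (hu : u ∈ D.Tw φ) (a : ℂ) (c : D.C) :
    D.E c (a • u) = HahnSeries.C a * D.E c u :=
  E_eq (by
    rw [act_smulFun]
    exact ((HasLExp.const a).mul (hasLExp_E hφ hu c)).congr_fun fun τ => rfl)

/-- The expansion of zero is zero. -/
theorem E_zero (c : D.C) : D.E c 0 = 0 := E_eq (by rw [act_zeroFun]; exact HasLExp.zero)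

/-- The expansion of a power is the power of the expansion. -/
theorem E_pow (hφ : IsParChar D.Γ φ) (hu : u ∈ D.Tw φ) (c : D.C) (n : ℕ) :
    D.E c (u ^ n) = D.E c u ^ n := by
  induction n with
  | zero => simpa using E_one c
  | succ n ih =>
    rw [pow_succ, pow_succ, E_mul (isParChar_pow hφ n) hφ (pow_mem hu n) hu, ih]

/-- A twisted function with zero expansion at one cusp vanishes. -/
theorem E_injective (hφ : IsParChar D.Γ φ) (hu : u ∈ D.Tw φ) {c : D.C} (h : D.E c u = 0) :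
    u = 0 := by
  have h1 := hasLExp_E hφ hu c
  rw [h] at h1
  have h2 := congrArg (act (D.rep c)⁻¹) (h1.eq_of_series HasLExp.zero)
  rwa [← act_mul, mul_inv_cancel, act_one, act_zeroFun] at h2

end Model

end FermatAgent.PSEMI
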