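import Fermat.Agent.PSEMI.Normalize

/-!
# Rough roots

An invariant function which is near a `p`-th power at the basic cusps is near one everywhere.
-/

set_option autoImplicit false

open UpperHalfPlane
open scoped MatrixGroups Manifold
open FermatAgent.Curve (SGE)

noncomputable section

namespace FermatAgent.PSEMI

open FermatAgent.ES FermatAgent.Curve.Red

variable {p : ℕ} [hp : Fact p.Prime] {P : CPlace p} {K : Coeffs P}

/-- The leading part of a difference of `p`-th powers. -/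
theorem pow_diff_estimate {g t : LaurentSeries ℂ} (hg : SerIn P.ring g) (ht : SerIn P.ring t)
    {d : ℝ} (hd : 0 ≤ d) (htd : P.SerLE d t) :
    P.SerLE (P.abv p * d) ((g + t) ^ p - g ^ p - t ^ p) := by
  obtain ⟨q, hq, e⟩ := exists_binom hg ht
  rw [e, show g ^ p + t ^ p + (p : LaurentSeries ℂ) * g * t * q - g ^ p - t ^ p =
    (p : LaurentSeries ℂ) * (g * t * q) by ring]
  refine serLE_natCast_mul p ?_
  exact (htd.serIn_mul hd hg).mul_serIn hd hq

omit hp in
/-- `C a * s` is bounded by `c` exactly if `s` is bounded by `c / |a|`. -/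
theorem serLE_C_mul_iff {a : ℂ} (ha : a ≠ 0) {c : ℝ} {s : LaurentSeries ℂ} :
    P.SerLE c (HahnSeries.C a * s) ↔ P.SerLE (c / P.abv a) s := by
  refine forall_congr' fun k => ?_
  rw [HahnSeries.C_apply, HahnSeries.coeff_single_mul, sub_zero, map_mul,
    le_div_iff₀' (P.abv.pos ha)]

/-- A difference of `p`-th powers which exceeds `|ζ - 1|^p` is exactly a `p`-th power. -/
theorem pow_diff_exact {O : Subring ℂ} (hO : P.IsCDVR O) {g s : LaurentSeries ℂ}
    (hg : SerIn O g) (hs : SerIn O s) {c : ℝ} (hc : rp P ^ p < c)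
    (hle : P.SerLE c (s ^ p - g ^ p)) {k : ℤ} (hk : P.abv ((s ^ p - g ^ p).coeff k) = c) :
    ∃ δ ∈ O, δ ≠ 0 ∧ P.abv δ ^ p = c ∧ rp P < P.abv δ ∧ P.SerLE (P.abv δ) (s - g) := by
  have hgP := serIn_mono hg hO.le
  have hsP := serIn_mono hs hO.le
  have hne : s - g ≠ 0 := fun h0 => by
    rw [sub_eq_zero.mp h0, sub_self, HahnSeries.coeff_zero, map_zero] at hk
    linarith [pow_nonneg (rp_nonneg (P := P)) p]
  obtain ⟨δ, hδ, hδ0, t, ht, hu, e, hd⟩ := exists_content hO (hs.sub hg) hne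
  have htP := serIn_mono ht hO.le
  have hrem := pow_diff_estimate hgP (hsP.sub hgP) (P.abv.nonneg δ) hd
  rw [add_sub_cancel] at hrem
  have hpowle : P.SerLE (P.abv δ ^ p) ((s - g) ^ p) := CPlace.SerLE.pow (P.abv.nonneg _) hd p
  have hlarge : rp P < P.abv δ := by
    by_contra hsmall
    push Not at hsmall
    have h1 : P.SerLE (rp P ^ p) (s ^ p - g ^ p) := by
      have h2 := (hrem.mono ((le_max_right _ _).trans (max_le_rp_pow (P.abv.nonneg δ) hsmall))).add
        (hpowle.mono ((le_max_left _ _).trans (max_le_rp_pow (P.abv.nonneg δ) hsmall)))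
      rwa [sub_add_cancel] at h2
    exact (hk ▸ h1 k).not_gt hc
  have hlt := abv_p_mul_lt_pow hlarge
  refine ⟨δ, hδ, hδ0, le_antisymm ?_ ?_, hlarge, hd⟩
  · obtain ⟨i, hi⟩ := CPlace.UnitCoeff.pow htP hu p
    have h1 : P.abv (((s - g) ^ p).coeff i) = P.abv δ ^ p := by
      rw [e, mul_pow, ← map_pow, HahnSeries.C_apply, HahnSeries.coeff_single_mul, sub_zero,
        map_mul, map_pow, hi, mul_one]
    have h2 : P.abv (((s - g) ^ p).coeff i) ≤ max c (P.abv p * P.abv δ) := by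
      have h3 := (hle.mono (le_max_left c (P.abv p * P.abv δ))).sub
        (hrem.mono (le_max_right c (P.abv p * P.abv δ)))
      rw [sub_sub_cancel] at h3
      exact h3 i
    rw [h1] at h2
    exact (le_max_iff.mp h2).resolve_right (not_le.mpr hlt)
  · rw [← hk]
    have h2 := (hrem.mono hlt.le).add hpowle
    rw [sub_add_cancel] at h2
    exact h2 k

omit hp in
/-- A small perturbation keeps a coefficient of the largest absolute value. -/
private lemma exists_abv_coeff_eq {u v : LaurentSeries ℂ} {c₀ c : ℝ} (hu : P.SerLE c₀ u)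
    (hc : c₀ < c) (hv : P.SerLE c v) {k : ℤ} (hk : P.abv ((u + v).coeff k) = c) :
    P.abv (v.coeff k) = c := by
  refine le_antisymm (hv k) ?_
  by_contra hlt
  push Not at hlt
  have h1 := P.add_lt ((hu k).trans_lt hc) hlt
  rw [← HahnSeries.coeff_add, hk] at h1
  exact lt_irrefl _ h1

/-- A small difference of `p`-th powers bounds the difference. -/
private lemma serLE_sub_of_pow_sub {O : Subring ℂ} (hO : P.IsCDVR O) {g s : LaurentSeries ℂ}
    (hg : SerIn O g) (hs : SerIn O s) {δ : ℂ} (hδ : rp P < P.abv δ)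
    (hle : P.SerLE (P.abv δ ^ p) (s ^ p - g ^ p)) : P.SerLE (P.abv δ) (s - g) := by
  by_contra hno
  rcases eq_or_ne (s - g) 0 with h0 | h0
  · exact hno (h0 ▸ CPlace.SerLE.zero (P.abv.nonneg δ))
  obtain ⟨δ', hδ', hδ'0, t, ht, hu, e, hd⟩ := exists_content hO (hs.sub hg) h0
  have hgt : P.abv δ < P.abv δ' := not_le.mp fun h => hno (hd.mono h)
  have hrem := pow_diff_estimate (serIn_mono hg hO.le) (serIn_mono (hs.sub hg) hO.le)
    (P.abv.nonneg δ') hd
  rw [add_sub_cancel] at hrem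
  obtain ⟨i, hi⟩ := CPlace.UnitCoeff.pow (serIn_mono ht hO.le) hu p
  have h1 : P.abv (((s - g) ^ p).coeff i) = P.abv δ' ^ p := by
    rw [e, mul_pow, ← map_pow, HahnSeries.C_apply, HahnSeries.coeff_single_mul, sub_zero,
      map_mul, map_pow, hi, mul_one]
  have h3 := (hle.mono (le_max_left _ (P.abv p * P.abv δ'))).sub
    (hrem.mono (le_max_right (P.abv δ ^ p) (P.abv p * P.abv δ')))
  rw [sub_sub_cancel] at h3
  have h4 := h3 i
  rw [h1] at h4
  rcases le_max_iff.mp h4 with h5 | h5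
  · exact (pow_lt_pow_left₀ hgt (P.abv.nonneg δ) hp.out.ne_zero).not_ge h5
  · exact (abv_p_mul_lt_pow (hδ.trans hgt)).not_ge h5

/-- If `Y` is close to `s ^ p` then `(Y - g ^ p) / δ ^ p` reduces to the `p`-th power of
`(s - g) / δ`. -/
private lemma red_eq_pow_of_near {Y g s e : LaurentSeries ℂ} {δ : ℂ} {c₀ : ℝ}
    (hg : SerIn P.ring g) (hs : SerIn P.ring s) (hδ0 : δ ≠ 0) (hδ : rp P < P.abv δ)
    (hle : P.SerLE (P.abv δ) (s - g)) (hY : P.SerLE c₀ (Y - s ^ p)) (hc₀ : c₀ < P.abv δ ^ p)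
    (he : SerIn P.ring e) (hecoef : ∀ k, e.coeff k = (δ ^ p)⁻¹ * (Y - g ^ p).coeff k) :
    red e = red (P := P) (HahnSeries.C δ⁻¹ * (s - g)) ^ p := by
  set t := HahnSeries.C δ⁻¹ * (s - g) with ht
  have hti : SerIn P.ring t := by
    rw [← P.serLE_one_iff, ht, serLE_C_mul_iff (inv_ne_zero hδ0), map_inv₀, one_div, inv_inv]
    exact hle
  rw [← red_pow hti, red_eq_red_iff he (hti.pow p)]
  intro k
  rw [HahnSeries.coeff_sub, hecoef, ht, mul_pow, ← map_pow, inv_pow, HahnSeries.C_apply,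
    HahnSeries.coeff_single_mul, sub_zero, ← mul_sub, map_mul, map_inv₀, map_pow,
    inv_mul_lt_one₀ (pow_pos (P.abv.pos hδ0) p), ← HahnSeries.coeff_sub]
  have hrem := pow_diff_estimate hg (hs.sub hg) (P.abv.nonneg δ) hle
  rw [add_sub_cancel] at hrem
  rw [show Y - g ^ p - (s - g) ^ p = (Y - s ^ p) + (s ^ p - g ^ p - (s - g) ^ p) by ring,
    HahnSeries.coeff_add]
  exact P.add_lt ((hY k).trans_lt hc₀) ((hrem k).trans_lt (abv_p_mul_lt_pow hδ))

/-- Adding `δ H` to `g` lowers `Y - g ^ p` when `H ^ p` reduces to `(Y - g ^ p) / δ ^ p`. -/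
private lemma abv_coeff_step_lt {Y g H e : LaurentSeries ℂ} {δ : ℂ} (hg : SerIn P.ring g)
    (hH : SerIn P.ring H) (hδP : δ ∈ P.ring) (hδ0 : δ ≠ 0) (hδ : rp P < P.abv δ)
    (he : SerIn P.ring e) (hecoef : ∀ k, e.coeff k = (δ ^ p)⁻¹ * (Y - g ^ p).coeff k)
    (hred : red (P := P) e = red H ^ p) (k : ℤ) :
    P.abv ((Y - (g + HahnSeries.C δ * H) ^ p).coeff k) < P.abv δ ^ p := by
  have hrem := pow_diff_estimate hg ((SerIn.C hδP).mul hH) (P.abv.nonneg δ)
    (CPlace.SerLE.C_mul le_rfl hH)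
  rw [show Y - (g + HahnSeries.C δ * H) ^ p = (Y - g ^ p - (HahnSeries.C δ * H) ^ p) -
      ((g + HahnSeries.C δ * H) ^ p - g ^ p - (HahnSeries.C δ * H) ^ p) by ring,
    HahnSeries.coeff_sub, sub_eq_add_neg]
  refine P.add_lt ?_ ?_
  · rw [← red_pow hH] at hred
    have h4 := (red_eq_red_iff he (hH.pow p)).mp hred k
    rw [HahnSeries.coeff_sub, hecoef] at h4
    have hδp : δ ^ p ≠ 0 := pow_ne_zero _ hδ0
    rw [HahnSeries.coeff_sub, mul_pow, ← map_pow, HahnSeries.C_apply,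
      HahnSeries.coeff_single_mul, sub_zero,
      show (Y - g ^ p).coeff k - δ ^ p * (H ^ p).coeff k =
        δ ^ p * ((δ ^ p)⁻¹ * (Y - g ^ p).coeff k - (H ^ p).coeff k) by field_simp,
      map_mul, map_pow]
    exact mul_lt_of_lt_one_right (pow_pos (P.abv.pos hδ0) p) h4
  · rw [AbsoluteValue.map_neg]
    exact (hrem k).trans_lt (abv_p_mul_lt_pow hδ)

namespace Model

variable {D : Model}

/-- The largest coefficient of a function is attained at a basic cusp. -/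
private lemma Good.exists_basic_max (G : D.Good K) {u : ℍ → ℂ} (hu : u ∈ D.Fun) {cm : D.C} {km : ℤ}
    (hne : (D.E cm u).coeff km ≠ 0)
    (hmax : ∀ c k, P.abv ((D.E c u).coeff k) ≤ P.abv ((D.E cm u).coeff km)) :
    ∃ cs ∈ G.basic, ∃ k, P.abv ((D.E cs u).coeff k) = P.abv ((D.E cm u).coeff km) := by
  by_contra hno
  push Not at hno
  set f := ((D.E cm u).coeff km)⁻¹ • u with hf
  have hfF : f ∈ D.Fun := Submodule.smul_mem _ _ hu
  have hfcoef : ∀ c k, (D.E c f).coeff k = ((D.E cm u).coeff km)⁻¹ * (D.E c u).coeff k :=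
    fun c k => by rw [hf, coeff_E_smul isParChar_one hu]
  have hfi : D.Integral P f := fun c k => by
    rw [hfcoef, CPlace.mem_ring, map_mul, map_inv₀, inv_mul_le_one₀ (P.abv.pos hne)]
    exact hmax c k
  have hz : ∀ c ∈ G.basic, D.redT P f c = 0 := fun c hc => by
    rw [redT, red_eq_zero_iff (hfi c)]
    intro k
    rw [hfcoef, map_mul, map_inv₀, inv_mul_lt_one₀ (P.abv.pos hne)]
    exact lt_of_le_of_ne (hmax c k) (hno c hc k)
  have h0 := G.basic_zero hfF hfi hz cm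
  rw [redT, red_eq_zero_iff (hfi cm)] at h0
  have h1 := h0 km
  rw [hfcoef, inv_mul_cancel₀ hne, map_one] at h1
  exact lt_irrefl _ h1

omit hp in
/-- One coefficient ring for the frame, the function and its roots at the basic cusps. -/
private lemma Good.exists_ring (G : D.Good K) {y : ℍ → ℂ} (hy : y ∈ D.Fun) (hyi : D.Integral P y)
    {T : Finset ℂ} (hT : (T : Set ℂ) ⊆ P.ring) {s : ∀ c ∈ G.basic, LaurentSeries ℂ}
    (hs : ∀ c hc, ∃ S : Finset ℂ, (S : Set ℂ) ⊆ P.ring ∧ SerIn (K.R S) (s c hc)) :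
    ∃ S : Finset ℂ, (S : Set ℂ) ⊆ P.ring ∧ T ⊆ S ∧ (∀ c, SerIn (K.R S) (D.E c y)) ∧
      ∀ c hc, SerIn (K.R S) (s c hc) := by
  classical
  choose Ss hSs hsin using hs
  obtain ⟨Sy, hSy, hyin⟩ := G.exists_over (f := fun _ : Unit => y) (fun _ => hy) (fun _ => hyi)
  set S : Finset ℂ := T ∪ Sy ∪ G.basic.attach.biUnion fun c => Ss c.1 c.2 with hS
  refine ⟨S, fun x hx => ?_, fun x hx => by simp [hS, hx], fun c => serIn_mono (hyin () c)
    (K.mono (Finset.coe_subset.mpr (fun x hx => by simp [hS, hx]))), fun c hc =>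
    serIn_mono (hsin c hc) (K.mono (Finset.coe_subset.mpr (fun x hx => by
      simp only [hS, Finset.mem_union, Finset.mem_biUnion]
      exact Or.inr ⟨⟨c, hc⟩, Finset.mem_attach _ _, hx⟩)))⟩
  simp only [hS, Finset.coe_union, Set.mem_union, Finset.mem_coe, Finset.mem_biUnion] at hx
  rcases hx with (h | h) | ⟨c, -, h⟩
  exacts [hT h, hSy h, hSs c.1 c.2 h]

/-- A root which is not yet rough can be improved. -/
private lemma Good.exists_better_root (G : D.Good K) {n : ℕ} (hn : G.o0 ≤ n) {y : ℍ → ℂ}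
    (hy : y ∈ D.Fun) (hyi : D.Integral P y) (hy1 : D.redT P y = 1)
    (hord : ∀ c, SGE ((p : ℤ) * -(n : ℤ)) (D.E c y)) (F : Frame D K (n : ℤ)) {S : Finset ℂ}
    (hS : (S : Set ℂ) ⊆ P.ring) (hFS : F.S ⊆ S) (hyO : ∀ c, SerIn (K.R S) (D.E c y))
    {s : ∀ c ∈ G.basic, LaurentSeries ℂ} (hsO : ∀ c hc, SerIn (K.R S) (s c hc))
    (hsle : ∀ c hc, P.SerLE (rp P ^ p) (D.E c y - s c hc ^ p))
    {g : ℍ → ℂ} (hg : g ∈ D.LamF (n : ℤ)) (hgO : ∀ c, SerIn (K.R S) (D.E c g))
    (hg1 : D.redT P g = 1) {cm : D.C} {km : ℤ}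
    (hne : (D.E cm y - D.E cm g ^ p).coeff km ≠ 0)
    (hmax : ∀ c k, P.abv ((D.E c y - D.E c g ^ p).coeff k) ≤
      P.abv ((D.E cm y - D.E cm g ^ p).coeff km))
    (hbig : rp P ^ p < P.abv ((D.E cm y - D.E cm g ^ p).coeff km)) :
    ∃ g' ∈ D.LamF (n : ℤ), (∀ c, SerIn (K.R S) (D.E c g')) ∧ D.redT P g' = 1 ∧
      ∀ c k, P.abv ((D.E c y - D.E c g' ^ p).coeff k) <
        P.abv ((D.E cm y - D.E cm g ^ p).coeff km) := by
  have hO := K.isCDVR hS
  have hgP : ∀ c, SerIn P.ring (D.E c g) := fun c => serIn_mono (hgO c) hO.le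
  have hsP : ∀ c hc, SerIn P.ring (s c hc) := fun c hc => serIn_mono (hsO c hc) hO.le
  set c := P.abv ((D.E cm y - D.E cm g ^ p).coeff km) with hc
  have hDfun : y - g ^ p ∈ D.Fun := sub_mem hy (pow_mem_fun' hg.1 p)
  have hDE : ∀ c', D.E c' (y - g ^ p) = D.E c' y - D.E c' g ^ p := fun c' => by
    rw [E_sub isParChar_one hy (pow_mem_fun' hg.1 p), E_pow_fun hg.1]
  obtain ⟨cs, hcs, ks, hks⟩ := G.exists_basic_max hDfun (cm := cm) (km := km) (by rwa [hDE])
    fun c' k => by rw [hDE, hDE]; exact hmax c' k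
  have hsg : ∀ c' hc', P.SerLE c (s c' hc' ^ p - D.E c' g ^ p) := fun c' hc' => by
    simpa using CPlace.SerLE.sub (fun k => hmax c' k) ((hsle c' hc').mono hbig.le)
  have hk' := exists_abv_coeff_eq (hsle cs hcs) hbig (hsg cs hcs) (k := ks)
    (by rw [sub_add_sub_cancel, hc, ← hDE, ← hDE]; exact hks)
  obtain ⟨δ, hδ, hδ0, hδc, hδlarge, -⟩ :=
    pow_diff_exact hO (hgO cs) (hsO cs hcs) hbig (hsg cs hcs) hk'
  -- the scaled error is a `p`-th power
  set e := (δ ^ p)⁻¹ • (y - g ^ p) with he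
  have heF : e ∈ D.Fun := Submodule.smul_mem _ _ hDfun
  have hecoef : ∀ c' k,
      (D.E c' e).coeff k = (δ ^ p)⁻¹ * (D.E c' y - D.E c' g ^ p).coeff k := fun c' k => by
    rw [he, coeff_E_smul isParChar_one hDfun, hDE]
  have heO : ∀ c', SerIn (K.R S) (D.E c' e) := fun c' k => by
    rw [hecoef, inv_mul_eq_div]
    exact div_mem_of_abv_le hO ((hyO c').sub ((hgO c').pow p) k) (Subring.pow_mem _ hδ p)
      (pow_ne_zero _ hδ0) (by rw [map_pow, hδc]; exact hmax c' k)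
  have hei : D.Integral P e := fun c' => serIn_mono (heO c') hO.le
  have hbas : ∀ c' ∈ G.basic, ∃ r, D.redT P e c' = r ^ p := fun c' hc' =>
    ⟨_, red_eq_pow_of_near (hgP c') (hsP c' hc') hδ0 hδlarge
      (serLE_sub_of_pow_sub hO (hgO c') (hsO c' hc') hδlarge (hδc ▸ hsg c' hc'))
      (hsle c' hc') (hbig.trans_eq hδc.symm) (hei c') (hecoef c')⟩
  choose r hr using G.basic_spec e heF hei hbas
  obtain ⟨H0, hH0, hH0i, eH0⟩ := G.exists_root_pole hn heF hei (a := r) (funext hr) fun c' =>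
    sge_red (hei c') (fun j hj => by
      rw [hecoef, HahnSeries.coeff_sub, hord c' j hj, sge_pow (hg.2 c') p j hj, sub_zero, mul_zero])
  obtain ⟨H, hH, hHO, eH⟩ := F.exists_lift_over hS hFS hH0 hH0i fun c' i => by
    refine mem_resImage_of_pow K hO ?_
    rw [← coeff_pow_char, eH0, ← hr c']
    exact coeff_red_mem hO (heO c') _
  have hHP : ∀ c', SerIn P.ring (D.E c' H) := fun c' => serIn_mono (hHO c') hO.le
  have hred : ∀ c', red (P := P) (D.E c' e) = red (D.E c' H) ^ p := fun c' => by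
    have h2 := congrFun eH c'
    have h3 := congrFun eH0 c'
    simp only [redT] at h2 h3
    rw [h2, h3]
    exact hr c'
  -- the improved root
  have hg'E : ∀ c', D.E c' (g + δ • H) = D.E c' g + HahnSeries.C δ * D.E c' H := fun c' => by
    rw [E_add isParChar_one hg.1 (Submodule.smul_mem _ _ hH.1), E_smul isParChar_one hH.1]
  have hd1 : P.abv δ < 1 := by
    rw [← pow_lt_one_iff_of_nonneg (P.abv.nonneg δ) hp.out.ne_zero, hδc, hc]
    refine (red_eq_red_iff (hyi cm) ((hgP cm).pow p)).mp ?_ km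
    rw [red_pow (hgP cm), show red (P := P) (D.E cm y) = 1 from congrFun hy1 cm,
      show red (P := P) (D.E cm g) = 1 from congrFun hg1 cm, one_pow]
  have hC : ∀ c', SerIn P.ring (HahnSeries.C δ * D.E c' H) := fun c' =>
    (SerIn.C (hO.le hδ)).mul (hHP c')
  refine ⟨g + δ • H, add_mem hg (Submodule.smul_mem _ _ hH), fun c' => ?_, funext fun c' => ?_,
    fun c' k => ?_⟩
  · rw [hg'E]; exact (hgO c').add ((SerIn.C hδ).mul (hHO c'))
  · simp only [redT, hg'E]
    rw [red_add (hgP c') (hC c'), (red_eq_zero_iff (hC c')).mpr fun k =>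
      (CPlace.SerLE.C_mul le_rfl (hHP c') k).trans_lt hd1, add_zero]
    exact congrFun hg1 c'
  · rw [hg'E, ← hδc]
    exact abv_coeff_step_lt (hgP c') (hHP c') (hO.le hδ) hδ0 hδlarge (hei c') (hecoef c')
      (hred c') k

/-- **A rough root.** -/
theorem Good.exists_rough_root (G : D.Good K) {n : ℕ} (hn : G.o0 ≤ n) {y : ℍ → ℂ} (hy : y ∈ D.Fun)
    (hyi : D.Integral P y) (hy1 : D.redT P y = 1)
    (hord : ∀ c, SGE ((p : ℤ) * -(n : ℤ)) (D.E c y))
    (hnear : ∀ c ∈ G.basic, PowApprox K p (rp P ^ p) (D.E c y)) :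
    ∃ g ∈ D.LamF (n : ℤ), D.Integral P g ∧ D.redT P g = 1 ∧
      ∀ c, P.SerLE (rp P ^ p) (D.E c y - D.E c g ^ p) := by
  classical
  have := G.nonempty
  set c0 := rp P ^ p
  have hc0pos : 0 < c0 := pow_pos rp_pos p
  choose s hs hsle using hnear
  obtain ⟨F⟩ := G.exists_frame (n : ℤ)
  obtain ⟨S, hS, hFS, hyO, hsO⟩ := G.exists_ring hy hyi F.sub hs
  set O := K.R S
  have hO := K.isCDVR hS
  set V : Finset ℝ := (finite_values hO hc0pos).toFinset
  set Err : (ℍ → ℂ) → D.C → LaurentSeries ℂ := fun g c => D.E c y - D.E c g ^ p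
  set Nb : (ℍ → ℂ) → ℕ := fun g =>
    (V.filter fun v => ∃ c k, v ≤ P.abv ((Err g c).coeff k)).card
  set Q : (ℍ → ℂ) → Prop := fun g =>
    g ∈ D.LamF (n : ℤ) ∧ (∀ c, SerIn O (D.E c g)) ∧ D.redT P g = 1
  have hQ1 : Q 1 := ⟨⟨one_mem, fun c j hj => by
      rw [E_one, HahnSeries.coeff_one, if_neg (by omega)]⟩,
    fun c => by rw [E_one]; exact SerIn.one, redT_one⟩
  have hexN : ∃ m, ∃ g, Q g ∧ Nb g = m := ⟨_, 1, hQ1, rfl⟩
  obtain ⟨g, hQg, hNg⟩ := Nat.find_spec hexN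
  refine ⟨g, hQg.1, fun c => serIn_mono (hQg.2.1 c) hO.le, hQg.2.2, ?_⟩
  by_contra hbad
  push Not at hbad
  obtain ⟨cb, hbad⟩ := hbad
  have hErrO : ∀ c, SerIn O (Err g c) := fun c => (hyO c).sub ((hQg.2.1 c).pow p)
  obtain ⟨cm, km, hne, hmax⟩ := exists_max hO (s := Err g) hErrO
    ⟨cb, fun h0 => hbad (by show P.SerLE c0 (Err g cb); rw [h0]; exact CPlace.SerLE.zero hc0pos.le)⟩
  have hcc : c0 < P.abv ((Err g cm).coeff km) := by
    by_contra hle
    push Not at hle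
    exact hbad fun k => (hmax cb k).trans hle
  obtain ⟨g', hgF, hgO, hg1, hsmall⟩ := G.exists_better_root hn hy hyi hy1 hord F hS hFS hyO hsO
    hsle hQg.1 hQg.2.1 hQg.2.2 hne hmax hcc
  have hlt : Nb g' < Nat.find hexN := by
    rw [← hNg]
    refine Finset.card_lt_card (Finset.ssubset_iff_of_subset ?_ |>.mpr
      ⟨P.abv ((Err g cm).coeff km), ?_, ?_⟩)
    · intro v hv
      simp only [Finset.mem_filter] at hv ⊢
      obtain ⟨hv, c', k, hk⟩ := hv
      exact ⟨hv, cm, km, hk.trans (hsmall c' k).le⟩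
    · simp only [Finset.mem_filter, V, Set.Finite.mem_toFinset]
      exact ⟨⟨hcc.le, _, hErrO cm km, rfl⟩, cm, km, le_rfl⟩
    · simp only [Finset.mem_filter, not_and]
      rintro - ⟨c', k, hk⟩
      exact (hsmall c' k).not_ge hk
  exact Nat.find_min hexN hlt ⟨g', ⟨hgF, hgO, hg1⟩, rfl⟩

end Model

end FermatAgent.PSEMI
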