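import Fermat.Agent.PSEMI.Basics
import Fermat.Agent.PSEMI.Approx

/-!
# Normalisation of twisted functions

Invisibility at the basic cusps gives twisted functions with every prescribed reduction.
-/

set_option autoImplicit false

open UpperHalfPlane
open scoped MatrixGroups Manifold
open FermatAgent.Curve (SGE)

noncomputable section

namespace FermatAgent.PSEMI

open FermatAgent.ES FermatAgent.Curve.Red

variable {p : ℕ} {P : CPlace p} {K : Coeffs P}

namespace Model

variable {D : Model} {φ : D.Γ →* ℂˣ}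

/-- The powers of twisted functions reduce to `p`-th powers at the basic cusps. -/
def Good.Invis (G : D.Good K) (φ : D.Γ →* ℂˣ) : Prop :=
  ∀ u ∈ D.Tw φ, D.Integral P (u ^ p) → ∀ c ∈ G.basic, ∃ a, D.redT P (u ^ p) c = a ^ p

/-- The powers of twisted functions are, at the basic cusps, `p`-th powers to within `|ζ-1|^p`. -/
def Good.Near (G : D.Good K) (φ : D.Γ →* ℂˣ) : Prop :=
  ∀ u ∈ D.Tw φ, ∀ c ∈ G.basic, SerIn P.ring (D.E c (u ^ p)) → P.UnitCoeff (D.E c (u ^ p)) →
    PowApprox K p (rp P ^ p) (D.E c (u ^ p))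

/-- Nearness at the basic cusps implies invisibility of the residual roots. -/
theorem Good.Near.invis {G : D.Good K} [hp : Fact p.Prime] (h : G.Near φ) : G.Invis φ := by
  intro u hu hi c hc
  by_cases hun : P.UnitCoeff (D.E c (u ^ p))
  · obtain ⟨s, hs, hle⟩ := h u hu c hc (hi c) hun
    refine ⟨red s, ?_⟩
    rw [redT, ← red_pow hs.serIn, red_eq_red_iff (hi c) (hs.serIn.pow p)]
    exact fun k => (hle k).trans_lt (pow_lt_one₀ rp_nonneg rp_lt_one hp.out.ne_zero)
  · exact ⟨0, by
      rw [zero_pow hp.out.ne_zero, redT, red_eq_zero_iff (hi c)]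
      exact CPlace.serLT_of_not_unitCoeff (hi c) hun⟩

theorem twist_cancel [hp : Fact p.Prime] (hφp : φ ^ p = 1) : φ * φ ^ (p - 1) = 1 := by
  refine MonoidHom.ext fun γ => ?_
  have h := DFunLike.congr_fun hφp γ
  simp only [MonoidHom.mul_apply, MonoidHom.pow_apply, MonoidHom.one_apply] at h ⊢
  rw [← pow_succ', Nat.sub_add_cancel hp.out.pos, h]

/-- `u z ^ (p - 1)` is invariant for two functions twisted by a character of order dividing `p`. -/
theorem mul_pow_mem_fun [Fact p.Prime] (hφp : φ ^ p = 1) {u z : ℍ → ℂ} (hu : u ∈ D.Tw φ)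
    (hz : z ∈ D.Tw φ) : u * z ^ (p - 1) ∈ D.Fun := by
  have h := mul_mem hu (pow_mem hz (p - 1))
  rwa [twist_cancel hφp] at h

/-- The `p`-th power of the expansion of `u z ^ (p - 1)` in terms of those of `u ^ p` and `z ^ p`.
-/
theorem E_mul_pow [Fact p.Prime] (hφp : φ ^ p = 1) {u z : ℍ → ℂ} (hu : u ∈ D.Tw φ)
    (hz : z ∈ D.Tw φ) (c : D.C) :
    D.E c (u * z ^ (p - 1)) ^ p = D.E c (u ^ p) * D.E c (z ^ p) ^ (p - 1) := by
  rw [← E_pow_fun (mul_pow_mem_fun hφp hu hz), mul_pow, ← pow_mul z (p - 1) p,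
    Nat.mul_comm (p - 1) p, pow_mul, ← E_pow_fun (pow_mem_fun hz hφp),
    ← E_mul_fun (pow_mem_fun hu hφp) (pow_mem_fun' (pow_mem_fun hz hφp) _)]

theorem Good.exists_serLE (G : D.Good K) {f : ℍ → ℂ} (hf : f ∈ D.Fun) :
    ∃ B, 0 ≤ B ∧ ∀ c, P.SerLE B (D.E c f) := by
  rcases eq_or_ne f 0 with rfl | hf0
  · exact ⟨0, le_rfl, fun c => by rw [E_zero]; exact CPlace.SerLE.zero le_rfl⟩
  obtain ⟨a, ha, hi, -⟩ := G.exists_scale hf hf0
  refine ⟨(P.abv a)⁻¹, inv_nonneg.mpr (P.abv.nonneg a), fun c k => ?_⟩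
  have h := hi c k
  rw [coeff_E_smul isParChar_one hf, CPlace.mem_ring, map_mul] at h
  rwa [← one_div, le_div_iff₀' (P.abv.pos ha)]

/-- The normalised series of a twisted function. -/
private def normSer (p : ℕ) (α : D.C → ℂ) (z u : ℍ → ℂ) (c : D.C) : LaurentSeries ℂ :=
  HahnSeries.C (α c) * D.E c (u * z ^ (p - 1))

/-- The coefficients of the normalised series. -/
private def normCoeff [Fact p.Prime] (hφ : IsParChar D.Γ φ) (hφp : φ ^ p = 1) {z : ℍ → ℂ}
    (hz : z ∈ D.Tw φ) (α : D.C → ℂ) (n : ℤ) : D.Lam hφ n →ₗ[ℂ] (D.C × ℤ → ℂ) where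
  toFun u x := (normSer p α z (u : ℍ → ℂ) x.1).coeff x.2
  map_add' u v := funext fun x => by
    simp only [normSer, Submodule.coe_add, add_mul,
      E_add isParChar_one (mul_pow_mem_fun hφp u.2.1 hz) (mul_pow_mem_fun hφp v.2.1 hz), mul_add,
      HahnSeries.coeff_add, Pi.add_apply]
  map_smul' a u := funext fun x => by
    simp only [normSer, SetLike.val_smul, smul_mul_assoc, HahnSeries.C_apply,
      HahnSeries.coeff_single_mul, coeff_E_smul isParChar_one (mul_pow_mem_fun hφp u.2.1 hz),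
      Pi.smul_apply, RingHom.id_apply, smul_eq_mul, mul_left_comm]

/-- The normalised series determines the function. -/
private theorem normCoeff_injective [Nonempty D.C] [Fact p.Prime] (hφ : IsParChar D.Γ φ)
    (hφp : φ ^ p = 1) {z : ℍ → ℂ} (hz : z ∈ D.Tw φ) (hz0 : z ≠ 0) {α : D.C → ℂ}
    (hα0 : ∀ c, α c ≠ 0) (n : ℤ) : Function.Injective (normCoeff hφ hφp hz α n) := by
  rw [← LinearMap.ker_eq_bot, Submodule.eq_bot_iff]
  intro u hu
  have hE : D.E (Classical.arbitrary D.C) ((u : ℍ → ℂ) * z ^ (p - 1)) = 0 := by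
    have h0 : normSer p α z (u : ℍ → ℂ) (Classical.arbitrary D.C) = 0 :=
      HahnSeries.ext (funext fun k => congrFun (LinearMap.mem_ker.mp hu) (_, k))
    exact (mul_eq_zero.mp h0).resolve_left
      fun h => hα0 _ (HahnSeries.C_injective (h.trans (map_zero _).symm))
  have h0 := E_injective isParChar_one (mul_pow_mem_fun hφp u.2.1 hz) hE
  refine Subtype.ext (funext fun τ => ?_)
  by_contra hne
  have hzm : MDiff (z ^ (p - 1)) := mdiff_of_mem (pow_mem hz (p - 1))
  refine mul_ne_zero_of_mdiff hzm (mdiff_of_mem u.2.1) (fun h => hne (congrFun h τ)) ?_ h0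
  exact fun h => hz0 (funext fun σ => eq_zero_of_pow_eq_zero (congrFun h σ))

/-- The normalised series has bounded coefficients over some finite set. -/
private theorem Good.exists_normCoeff_bound (G : D.Good K) [Fact p.Prime] (hφ : IsParChar D.Γ φ)
    (hφp : φ ^ p = 1) {z : ℍ → ℂ} (hz : z ∈ D.Tw φ) {α : D.C → ℂ} (hα0 : ∀ c, α c ≠ 0) {n : ℤ}
    (u : D.Lam hφ n) : ∃ a : ℂ, a ≠ 0 ∧ ∃ S : Finset ℂ, (S : Set ℂ) ⊆ P.ring ∧
      ∀ x, a * normCoeff hφ hφp hz α n u x ∈ K.R S := by
  classical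
  have := G.nonempty
  have hm := mul_pow_mem_fun hφp u.2.1 hz
  obtain ⟨c1, -, hc1⟩ := Finset.exists_max_image Finset.univ (fun c => P.abv (α c))
    Finset.univ_nonempty
  obtain ⟨A, hA0, hAi⟩ : ∃ A : ℂ, A ≠ 0 ∧ D.Integral P (A • ((u : ℍ → ℂ) * z ^ (p - 1))) := by
    rcases eq_or_ne ((u : ℍ → ℂ) * z ^ (p - 1)) 0 with h | h
    · exact ⟨1, one_ne_zero, fun c => by rw [h, smul_zero, E_zero]; exact SerIn.zero⟩
    · obtain ⟨A, hA, hi, -⟩ := G.exists_scale hm h
      exact ⟨A, hA, hi⟩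
  obtain ⟨T, hT, hover⟩ := G.exists_over (f := fun _ : Unit => A • ((u : ℍ → ℂ) * z ^ (p - 1)))
    (fun _ => Submodule.smul_mem _ _ hm) (fun _ => hAi)
  set U : Finset ℂ := T ∪ Finset.univ.image fun c => (α c1)⁻¹ * α c
  have hU : (U : Set ℂ) ⊆ P.ring := by
    intro x hx
    rcases Finset.mem_union.mp (Finset.mem_coe.mp hx) with h | h
    · exact hT h
    · obtain ⟨c, -, rfl⟩ := Finset.mem_image.mp h
      show P.abv _ ≤ 1
      rw [map_mul, map_inv₀, inv_mul_le_one₀ (P.abv.pos (hα0 c1))]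
      exact hc1 c (Finset.mem_univ c)
  refine ⟨A * (α c1)⁻¹, mul_ne_zero hA0 (inv_ne_zero (hα0 c1)), U, hU, fun x => ?_⟩
  have h1 := K.mono (Finset.coe_subset.mpr (Finset.subset_union_left : T ⊆ U)) (hover () x.1 x.2)
  rw [coeff_E_smul isParChar_one hm] at h1
  have h2 : (α c1)⁻¹ * α x.1 ∈ K.R U :=
    K.subset hU (Finset.mem_coe.mpr (Finset.mem_union_right _
      (Finset.mem_image_of_mem (fun c => (α c1)⁻¹ * α c) (Finset.mem_univ _))))
  have := (K.R U).mul_mem h2 h1
  show _ * (HahnSeries.C (α x.1) * D.E x.1 ((u : ℍ → ℂ) * z ^ (p - 1))).coeff x.2 ∈ _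
  rw [HahnSeries.C_apply, HahnSeries.coeff_single_mul, sub_zero]
  convert this using 1
  ring

/-- If the normalised series of `u` is integral then so is `u ^ p`, with reduction its `p`-th
power divided by that of the normalising series. -/
private theorem Good.integral_of_normSer (G : D.Good K) [Fact p.Prime] (hφp : φ ^ p = 1)
    {z u : ℍ → ℂ} (hu : u ∈ D.Tw φ) {α : D.C → ℂ} {t : D.C → LaurentSeries ℂ}
    (ht : ∀ c, SerIn P.ring (t c)) (hut : ∀ c, P.UnitCoeff (t c))
    (key : ∀ c, normSer p α z u c ^ p = D.E c (u ^ p) * t c ^ (p - 1))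
    (hi : ∀ c, SerIn P.ring (normSer p α z u c)) :
    D.Integral P (u ^ p) ∧ ∀ c,
      red (P := P) (normSer p α z u c) ^ p = D.redT P (u ^ p) c * red (t c) ^ (p - 1) := by
  have hpi : D.Integral P (u ^ p) := by
    intro c
    obtain ⟨B, hB0, hB⟩ := G.exists_serLE (pow_mem_fun hu hφp)
    refine (P.serLE_one_iff).mp (CPlace.SerLE.of_mul_unitCoeff zero_le_one
      ((ht c).pow (p - 1)) (CPlace.UnitCoeff.pow (ht c) (hut c) _) ?_ (hB c))
    rw [← key, P.serLE_one_iff]
    exact (hi c).pow p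
  refine ⟨hpi, fun c => ?_⟩
  rw [← red_pow (hi c), key, red_mul (hpi c) ((ht c).pow _), red_pow (ht c)]
  rfl

/-- Roots of the reductions of a basis span those of all integral invariant functions. -/
private theorem Good.redT_mem_span (G : D.Good K) [hp : Fact p.Prime] {n : ℤ} {d : ℕ}
    {gr : Fin d → ℍ → ℂ} (hgr : ∀ i, gr i ∈ D.LamF n) (hgri : ∀ i, D.Integral P (gr i))
    {Φ : Fin d → D.C → LaurentSeries (ResField P)} {T : D.C → LaurentSeries (ResField P)}
    (hΦ : ∀ i c, Φ i c ^ p = D.redT P (gr i) c ^ p * T c)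
    (hind : LinearIndependent (ResField P) fun i (x : D.C × ℤ) => (Φ i x.1).coeff x.2)
    (hd : Module.finrank ℂ (D.LamF n) ≤ d) {g : ℍ → ℂ} (hg : g ∈ D.LamF n)
    (hgi : D.Integral P g) :
    ∃ lam : Fin d → ResField P, D.redT P g = ∑ i, lam i • D.redT P (gr i) ∧
      ∀ c, (∑ i, lam i • Φ i c) ^ p = D.redT P g c ^ p * T c := by
  classical
  obtain ⟨F⟩ := G.exists_frame n
  set r : Fin d → D.C → LaurentSeries (ResField P) := fun i => D.redT P (gr i)
  have hpow : ∀ lam : Fin d → ResField P, ∀ c,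
      (∑ i, lam i • Φ i c) ^ p = (∑ i, lam i • r i c) ^ p * T c := by
    intro lam c
    rw [sum_pow_char, sum_pow_char, Finset.sum_mul]
    refine Finset.sum_congr rfl fun i _ => ?_
    rw [← HahnSeries.C_mul_eq_smul, ← HahnSeries.C_mul_eq_smul, mul_pow, mul_pow, hΦ, mul_assoc]
  have hri : LinearIndependent (ResField P) r := by
    rw [Fintype.linearIndependent_iff]
    intro lam hlam
    refine Fintype.linearIndependent_iff.mp hind lam (funext fun x => ?_)
    have h0 : (∑ i, lam i • Φ i x.1) = 0 := by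
      refine eq_zero_of_pow_eq_zero (n := p) ?_
      rw [hpow, show (∑ i, lam i • r i x.1) = 0 from by
        simpa [Finset.sum_apply] using congrFun hlam x.1, zero_pow hp.out.ne_zero, zero_mul]
    simpa [Finset.sum_apply, HahnSeries.coeff_sum] using congrArg (HahnSeries.coeff · x.2) h0
  have hsub : Submodule.span (ResField P) (Set.range r) ≤
      Submodule.span (ResField P) (Set.range fun i => D.redT P (F.b i)) := by
    rw [Submodule.span_le, Set.range_subset_iff]
    intro i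
    obtain ⟨μ, hμ, -, e⟩ := F.exists_repr (hgr i) (hgri i)
    simp only [r, SetLike.mem_coe, e]
    exact Submodule.sum_mem _ fun j _ => Submodule.smul_mem _ _
      (Submodule.subset_span (Set.mem_range_self j))
  have : FiniteDimensional (ResField P)
      (Submodule.span (ResField P) (Set.range fun i => D.redT P (F.b i))) :=
    FiniteDimensional.span_of_finite _ (Set.finite_range _)
  have heq : Submodule.span (ResField P) (Set.range r) =
      Submodule.span (ResField P) (Set.range fun i => D.redT P (F.b i)) := by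
    refine Submodule.eq_of_le_of_finrank_le hsub ?_
    rw [finrank_span_eq_card hri, finrank_span_eq_card F.indep, Fintype.card_fin,
      Fintype.card_fin, F.card]
    exact hd
  obtain ⟨ν, hν, _, eg⟩ := F.exists_repr hg hgi
  have hgspan : D.redT P g ∈ Submodule.span (ResField P) (Set.range r) := by
    rw [heq, eg]
    exact Submodule.sum_mem _ fun j _ => Submodule.smul_mem _ _
      (Submodule.subset_span (Set.mem_range_self j))
  obtain ⟨lam, hlam⟩ := (Submodule.mem_span_range_iff_exists_fun _).mp hgspan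
  exact ⟨lam, hlam.symm, fun c => by rw [hpow, ← hlam, Finset.sum_apply]; rfl⟩

/-- **Every reduction is the root of the reduction of a power of a twisted function.** -/
theorem Good.exists_root_target (G : D.Good K) [hp : Fact p.Prime]
    (hlev : CongruenceSubgroup.Gamma D.lev ≤ D.Γ) (hφ : IsParChar D.Γ φ) (hφp : φ ^ p = 1)
    {z : ℍ → ℂ} (hz : z ∈ D.Tw φ) (hz0 : z ≠ 0) (hinv : G.Invis φ) :
    ∃ N0 : ℕ, G.o0 ≤ N0 ∧ ∀ n : ℕ, N0 ≤ n → ∀ g ∈ D.LamF (n : ℤ), D.Integral P g →
      ∃ u ∈ D.Lam hφ (n : ℤ), D.Integral P (u ^ p) ∧ D.redT P (u ^ p) = D.redT P g ^ p := by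
  classical
  have := G.nonempty
  have hzp0 : z ^ p ≠ 0 := fun h => hz0 (funext fun τ =>
    (pow_eq_zero_iff hp.out.ne_zero).mp (congrFun h τ))
  choose β t hβ ht hut hzE using G.exists_unit_factor (pow_mem_fun hz hφp) hzp0
  choose α hα using fun c => IsAlgClosed.exists_pow_nat_eq (β c ^ (p - 1))⁻¹ hp.out.pos
  have hα0 : ∀ c, α c ≠ 0 := fun c h => by
    have := hα c
    rw [h, zero_pow hp.out.ne_zero] at this
    exact inv_ne_zero (pow_ne_zero _ (hβ c)) this.symm
  have key : ∀ {u : ℍ → ℂ}, u ∈ D.Tw φ → ∀ c,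
      normSer p α z u c ^ p = D.E c (u ^ p) * t c ^ (p - 1) := by
    intro u hu c
    rw [normSer, mul_pow, E_mul_pow hφp hu hz, hzE c, mul_pow, ← map_pow, ← map_pow, hα c,
      mul_left_comm, ← mul_assoc (HahnSeries.C _), ← map_mul,
      inv_mul_cancel₀ (pow_ne_zero _ (hβ c)), map_one, one_mul]
  obtain ⟨N0, hN0, hdim⟩ := G.exists_finrank_le hlev hφ hφp hz hz0
  refine ⟨N0, hN0, fun n hn g hg hgi => ?_⟩
  -- an orthogonal basis for the normalised series, and roots of its reductions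
  have := G.finiteDimensional hφ hφp (n : ℤ)
  set W := normCoeff hφ hφp hz α (n : ℤ)
  obtain ⟨S, hS, d, b, hb, hd, -, -, hind⟩ := exists_orthoBasis (K := K) W
    (normCoeff_injective hφ hφp hz hz0 hα0 _) (G.exists_normCoeff_bound hφ hφp hz hα0)
  have hΨb : ∀ i c, SerIn P.ring (normSer p α z (b i) c) := fun i c k => hb i (c, k)
  have hint := fun {u : ℍ → ℂ} (hu : u ∈ D.Tw φ) =>
    G.integral_of_normSer hφp hu ht hut (key hu)
  have hroot : ∀ i, ∃ gi ∈ D.LamF (n : ℤ), D.Integral P gi ∧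
      D.redT P ((b i : ℍ → ℂ) ^ p) = D.redT P gi ^ p := by
    intro i
    have hi := (hint (b i).2.1 (hΨb i)).1
    have hf := pow_mem_fun (b i).2.1 hφp
    choose a ha using G.basic_spec _ hf hi (hinv _ (b i).2.1 hi)
    obtain ⟨gi, hgi, hgii, e⟩ := G.exists_root_pole (hN0.trans hn) hf hi
      (a := a) (funext ha) fun c => sge_red (hi c) (by
        rw [E_pow hφ (b i).2.1]; exact sge_pow ((b i).2.2 c) p)
    exact ⟨gi, hgi, hgii, by rw [e]; exact funext ha⟩
  choose gr hgr hgri hgre using hroot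
  obtain ⟨lam, -, hlam⟩ := G.redT_mem_span hgr hgri (Φ := fun i c => red (normSer p α z (b i) c))
    (T := fun c => red (t c) ^ (p - 1))
    (fun i c => by rw [(hint (b i).2.1 (hΨb i)).2 c, hgre]; rfl)
    (by
      convert hind using 1
      exact funext fun i => funext fun x => by rw [coeff_red (hΨb i x.1)]; rfl)
    ((hdim n hn).trans hd.ge) hg hgi
  -- the combination
  choose μ hμ using fun i => Ideal.Quotient.mk_surjective (I := maxIdeal P) (lam i)
  set u : D.Lam hφ (n : ℤ) := ∑ i, (μ i : ℂ) • b i with hu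
  have hΨu : ∀ c, normSer p α z (u : ℍ → ℂ) c =
      ∑ i, HahnSeries.C (μ i : ℂ) * normSer p α z (b i) c := fun c => by
    refine HahnSeries.ext (funext fun k => ?_)
    show W u (c, k) = _
    rw [hu, map_sum, Finset.sum_apply, HahnSeries.coeff_sum]
    refine Finset.sum_congr rfl fun i _ => ?_
    rw [map_smul, Pi.smul_apply, smul_eq_mul, HahnSeries.C_apply,
      HahnSeries.coeff_single_mul, sub_zero]
    rfl
  have hui : ∀ c, SerIn P.ring (normSer p α z (u : ℍ → ℂ) c) := fun c => by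
    rw [hΨu]; exact SerIn.sum _ fun i _ => (SerIn.C (μ i).2).mul (hΨb i c)
  refine ⟨u, u.2, (hint u.2.1 hui).1, funext fun c => ?_⟩
  have hred : red (P := P) (normSer p α z (u : ℍ → ℂ) c) =
      ∑ i, lam i • red (normSer p α z (b i) c) := by
    refine HahnSeries.ext (funext fun k => ?_)
    simp only [coeff_red (hui c), HahnSeries.coeff_sum, HahnSeries.coeff_smul, smul_eq_mul,
      coeff_red (hΨb _ c), ← hμ, ← map_mul, ← map_sum]
    congr 1
    refine Subtype.ext ?_
    show (normSer p α z (u : ℍ → ℂ) c).coeff k = _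
    rw [hΨu, AddSubmonoidClass.coe_finsetSum]
    simp only [HahnSeries.coeff_sum, HahnSeries.C_apply, HahnSeries.coeff_single_mul,
      sub_zero]
    rfl
  have h := (hint u.2.1 hui).2 c
  rw [hred, hlam] at h
  exact (mul_right_cancel₀ (pow_ne_zero _ ((red_ne_zero_iff (ht c)).mpr (hut c))) h).symm

end Model

end FermatAgent.PSEMI
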