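import Fermat.Agent.PSEMI.Ord.Eigen
import Fermat.Agent.PSEMI.Ord.Supersingular
import Fermat.Agent.PSEMI.EC.OrdinaryInertia
import Fermat.Agent.Assembly.IndexTwo.Main
import Fermat.Agent.Assembly.Residual

/-!
# An ordinary congruence has a unit eigenvalue at `p`

The curve's torsion gives the residual Hecke action, and its inertia trace `1 + χ` forces the
unit eigenvalue.
-/

set_option autoImplicit false

noncomputable section

open WeierstrassCurve Polynomial
open scoped WeierstrassCurve.Affine TensorProduct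

namespace FermatAgent.PSEMI

local notation "ZC" => integralClosure ℤ ℂ

/-- A base change of a representation with spanning image is irreducible. -/
theorem isIrreducible_baseChangeAlong {k k' : Type} [Field k] [Field k'] (φ : k →+* k')
    (ρ : ResidualGaloisRep k) (b : Module.Basis (Fin 2) k ρ.V)
    (hspan : Submodule.span k (Set.range fun σ => LinearMap.toMatrixAlgEquiv b (ρ.ρ σ)) = ⊤) :
    (ρ.baseChangeAlong φ).IsIrreducible := by
  let : Algebra k k' := φ.toAlgebra
  show (ρ.baseChange k').IsIrreducible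
  intro W hW
  by_cases hW0 : W = ⊥
  · exact Or.inl hW0
  right
  obtain ⟨w, hw, hw0⟩ := Submodule.exists_mem_ne_zero_of_ne_bot hW0
  let b' : Module.Basis (Fin 2) k' (k' ⊗[k] ρ.V) := Algebra.TensorProduct.basis k' b
  have hstab : ∀ m : Matrix (Fin 2) (Fin 2) k, ∀ x ∈ W,
      Matrix.toLinAlgEquiv b' (m.map (algebraMap k k')) x ∈ W := by
    intro m
    have hm : m ∈ Submodule.span k (Set.range fun σ => LinearMap.toMatrixAlgEquiv b (ρ.ρ σ)) :=
      hspan ▸ Submodule.mem_top
    induction hm using Submodule.span_induction with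
    | mem m hm =>
      obtain ⟨σ, rfl⟩ := hm
      intro x hx
      have e : Matrix.toLinAlgEquiv b'
          ((LinearMap.toMatrixAlgEquiv b (ρ.ρ σ)).map (algebraMap k k')) =
          (ρ.ρ σ).baseChange k' := by
        refine (LinearMap.toMatrixAlgEquiv b').injective ?_
        rw [LinearMap.toMatrixAlgEquiv_toLinAlgEquiv]
        exact (LinearMap.toMatrix_baseChange k' (ρ.ρ σ) b b).symm
      rw [e]
      exact hW σ x hx
    | zero => intro x hx; simp
    | add m m' _ _ hm hm' =>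
      intro x hx
      rw [Matrix.map_add _ (map_add _), map_add, LinearMap.add_apply]
      exact add_mem (hm x hx) (hm' x hx)
    | smul r m _ hm =>
      intro x hx
      rw [Matrix.map_smul' _ r _ (map_mul (algebraMap k k')), map_smul, LinearMap.smul_apply]
      exact W.smul_mem _ (hm x hx)
  have hall : ∀ m : Matrix (Fin 2) (Fin 2) k', ∀ x ∈ W, Matrix.toLinAlgEquiv b' m x ∈ W := by
    intro m x hx
    rw [Matrix.matrix_eq_sum_single m, map_sum, LinearMap.sum_apply]
    refine sum_mem fun i _ => ?_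
    rw [map_sum, LinearMap.sum_apply]
    refine sum_mem fun j _ => ?_
    rw [show Matrix.single i j (m i j) =
      m i j • (Matrix.single i j (1 : k)).map (algebraMap k k') by
        ext a b; simp [Matrix.single_apply], map_smul, LinearMap.smul_apply]
    exact W.smul_mem _ (hstab _ x hx)
  refine Submodule.eq_top_iff'.mpr fun x => ?_
  obtain ⟨f, hf⟩ := LinearMap.exists_extend
    (f := (LinearEquiv.toSpanNonzeroSingleton k' _ w hw0).symm.toLinearMap)
  have h := hall (LinearMap.toMatrixAlgEquiv b' (f.smulRight x)) w hw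
  rw [Matrix.toLinAlgEquiv_toMatrixAlgEquiv, LinearMap.smulRight_apply] at h
  have h1 : f w = 1 := by
    have := LinearMap.congr_fun hf ⟨w, Submodule.mem_span_singleton_self w⟩
    rw [LinearMap.comp_apply, Submodule.subtype_apply] at this
    rw [this]
    exact (LinearEquiv.symm_apply_eq _).mpr (by ext; simp [LinearEquiv.toSpanNonzeroSingleton])
  rwa [h1, one_smul] at h

variable {W : WeierstrassCurve ℤ} {p : ℕ} [hp : Fact p.Prime]

/-- The torsion of an irreducible curve has spanning image. -/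
theorem exists_basis_span_torRep (hΔ : W.Δ ≠ 0) (hp2 : p ≠ 2) (hirr : W.ModRepIsIrreducible p) :
    ∃ b : Module.Basis (Fin 2) (ZMod p) (Assembly.torRep W hΔ p).V,
      Submodule.span (ZMod p)
        (Set.range fun σ => LinearMap.toMatrixAlgEquiv b ((Assembly.torRep W hΔ p).ρ σ)) = ⊤ := by
  classical
  have h2 : (2 : ZMod p) ≠ 0 := fun h => hp2 ((Nat.prime_dvd_prime_iff_eq hp.out Nat.prime_two).mp
    ((ZMod.natCast_eq_zero_iff 2 p).mp (by exact_mod_cast h)))
  have hV := (Assembly.torRep W hΔ p).finrank_eq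
  obtain ⟨b, hb⟩ := Assembly.IndexTwo.exists_basis_span_eq_top (Assembly.torRep W hΔ p).ρ h2 hV
    (EC.exists_forall_ne_smul hΔ hirr)
    (c := complexConjugation) (by rw [← map_mul, complexConjugation_mul_self, map_one])
    (EC.det_complexConjugation hΔ)
  exact ⟨b, hb⟩

/-- The residual trace in terms of the Tate matrices. -/
theorem galoisTrace_eq_toZMod (hΔ : W.Δ ≠ 0) (σ : AlgebraicClosure ℚ ≃ₐ[ℚ] AlgebraicClosure ℚ) :
    Affine.Point.galoisTrace ℚ (W.map (Int.castRingHom ℚ)).toAffine p σ =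
      PadicInt.toZMod (Lifting.tateMat (p := p) hΔ σ).trace := by
  obtain ⟨t, ht⟩ := Lifting.exists_torsion_basis (p := p) hΔ
  show LinearMap.trace (ZMod p) _ (Affine.Point.galoisRepModuleEnd (K := AlgebraicClosure ℚ) ℚ
    (W.map (Int.castRingHom ℚ)).toAffine p σ) = _
  rw [LinearMap.trace_eq_matrix_trace _ t, ht]
  simp [Matrix.trace_fin_two]

/-- The trace and determinant of the torsion over a field of characteristic `p`. -/
theorem trace_det_matRho (hΔ : W.Δ ≠ 0) {k : Type} [Field k] [CharP k p]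
    (b : Module.Basis (Fin 2) k (Assembly.torRepK W hΔ p k).V)
    (g : AlgebraicClosure ℚ ≃ₐ[ℚ] AlgebraicClosure ℚ) :
    (matRho (Assembly.torRepK W hΔ p k) b g).trace = ZMod.castHom (dvd_refl p) k
        (Affine.Point.galoisTrace ℚ (W.map (Int.castRingHom ℚ)).toAffine p g) ∧
      (matRho (Assembly.torRepK W hΔ p k) b g).det =
        ZMod.castHom (dvd_refl p) k (PadicInt.toZMod (ES.padCyclo p g)) := by
  obtain ⟨t, ht⟩ := Lifting.exists_torsion_basis (p := p) hΔ
  have hd : LinearMap.det (Affine.Point.galoisRepModuleEnd (K := AlgebraicClosure ℚ) ℚ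
      (W.map (Int.castRingHom ℚ)).toAffine p g) = PadicInt.toZMod (ES.padCyclo p g) := by
    rw [← LinearMap.det_toMatrix t, ht, ← RingHom.mapMatrix_apply, ← RingHom.map_det,
      Lifting.det_tateMat]
  have h := charpoly_matRho (Assembly.torRepK W hΔ p k) b g
  rw [Assembly.charpoly_torRepK, Assembly.charpoly_torRep, Matrix.charpoly_fin_two, hd] at h
  have e1 := congrArg (fun f : Polynomial k => f.coeff 1) h
  have e0 := congrArg (fun f : Polynomial k => f.coeff 0) h
  simp [Polynomial.coeff_X_pow] at e1 e0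
  exact ⟨e1, e0⟩

open CongruenceSubgroup ModularFormClass in
/-- The residual action of an eigenform with the Hecke eigenvalues of a congruent one. -/
theorem exists_torAct (hΔ : W.Δ ≠ 0) (hp2 : p ≠ 2) (hirr : W.ModRepIsIrreducible p) {k : Type}
    [Field k] [IsAlgClosed k] [CharP k p] {M N : ℕ} [NeZero M] [NeZero N] (hMN : M ∣ N)
    {g : CuspForm (Gamma0 M) 2} {𝔪 : Ideal ZC} (hcg : Assembly.Congr W p M g 𝔪) (ι : ZC →+* k)
    (hι : ∀ x ∈ 𝔪, ι x = 0) {g' : CuspForm (Gamma0 N) 2} (hg' : g'.IsNormalizedEigenform)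
    (hgg : ∀ ℓ : ℕ, ℓ.Prime → ℓ ≠ p → qCoeff g' ℓ = qCoeff g ℓ) :
    ∃ (A : HeckeAct p (Fin (FermatAgent.Period.parRank (Gamma0 N))) k
        (AlgebraicClosure ℚ ≃ₐ[ℚ] AlgebraicClosure ℚ))
      (b : Module.Basis (Fin 2) k (Assembly.torRepK W hΔ p k).V) (a : ZC)
      (hU : matU p N ∈ A.R0), A.G = ES.galMat p N ∧ A.cyc = ES.padCyclo p ∧
        A.M = matRho (Assembly.torRepK W hΔ p k) b ∧ (a : ℂ) = qCoeff g' p ∧
        A.φ ⟨_, hU⟩ = ι a := by
  set c := ZMod.castHom (dvd_refl p) k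
  have hatt : (Assembly.torRepK W hΔ p k).IsAttachedTo g' ι := by
    intro ℓ hℓ hℓM hℓ0 A hA σ hσ
    have hℓp : ℓ ≠ p := fun h => hℓ0 (by rw [h, CharP.cast_eq_zero])
    obtain ⟨a, ha, hb⟩ := (hcg.galoisCongr hΔ hp.out).attached ℓ hℓ
      (fun h => hℓM (h.trans hMN)) hℓp A hA σ hσ
    refine ⟨a, ha.trans (hgg ℓ hℓ hℓp).symm, ?_⟩
    rw [Assembly.charpoly_torRepK_frobenius hΔ k hℓ hℓp hA hσ]
    set x := Affine.Point.galoisTrace ℚ (W.map (Int.castRingHom ℚ)).toAffine p σ
    have h := hι _ (hb (x.val : ℤ) (by rw [Int.cast_natCast, ZMod.natCast_zmod_val]))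
    rw [map_sub, sub_eq_zero] at h
    rw [h, Int.cast_natCast, map_natCast ι x.val, ← map_natCast c x.val, ZMod.natCast_zmod_val]
  obtain ⟨b₀, hb₀⟩ := exists_basis_span_torRep hΔ hp2 hirr
  obtain ⟨A, b, a, hU, -, h⟩ := exists_residualAct (p := p) ι hg' _ hatt
    (isIrreducible_baseChangeAlong c _ b₀ hb₀)
  exact ⟨A, b, a, hU, h⟩

/-- **An ordinary congruence has a unit eigenvalue at `p`.** -/
theorem ordinaryUnit (W : WeierstrassCurve ℤ) (p M : ℕ)
    (g : CuspForm (CongruenceSubgroup.Gamma0 M) 2) (𝔪 : Ideal ZC) (hΔ : W.Δ ≠ 0)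
    (hW : W.IsSemistableModel) (hp' : p.Prime) (hp2 : p ≠ 2) (hirr : W.ModRepIsIrreducible p)
    (hM : Squarefree M) (hpM : ¬ p ∣ M) (hord : Assembly.OrdinaryAt W p)
    (hcg : Assembly.Congr W p M g 𝔪) : Assembly.UnitCoeff g p 𝔪 := by
  classical
  have := Fact.mk hp'
  have : NeZero M := ⟨hM.ne_zero⟩
  have := hcg.2.1
  let : Field (ZC ⧸ 𝔪) := Ideal.Quotient.field 𝔪
  have := Assembly.charP_quotient hp' hcg.2.1 hcg.2.2.1
  let k := AlgebraicClosure (ZC ⧸ 𝔪)
  have : CharP k p := charP_of_injective_algebraMap' (ZC ⧸ 𝔪) p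
  let ι : ZC →+* k := (algebraMap (ZC ⧸ 𝔪) k).comp (Ideal.Quotient.mk 𝔪)
  obtain ⟨A, b, a, hU, hAG, hcyc, hAM, ha, hφ⟩ := exists_torAct hΔ hp2 hirr dvd_rfl hcg ι
    (fun x hx => by rw [RingHom.comp_apply, Ideal.Quotient.eq_zero_iff_mem.mpr hx, map_zero])
    hcg.1 fun _ _ _ => rfl
  refine ⟨a, ha, fun ham => ?_⟩
  obtain ⟨P, hP⟩ := GaloisBasic.exists_liesOverPrime hp'
  refine theta_ne_zero_of_ordinary hpM A hAG hcyc hU hp2
    (by rw [← map_natCast (IsLocalRing.residue k), CharP.cast_eq_zero, map_zero]) hP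
    (fun σ hσ => ?_) ?_
  · rw [← map_one (IsLocalRing.residue k), ← map_add]
    congr 1
    rw [hAM, (trace_det_matRho hΔ b σ).1, (trace_det_matRho hΔ b σ).2,
      galoisTrace_eq_toZMod hΔ, toZMod_trace_tateMat hΔ hW hp2 hord hP hσ, map_add, map_one,
      add_comm]
  · show IsLocalRing.residue k (A.φ ⟨_, hU⟩) = 0
    rw [hφ, show ι a = algebraMap (ZC ⧸ 𝔪) k (Ideal.Quotient.mk 𝔪 a) from rfl,
      Ideal.Quotient.eq_zero_iff_mem.mpr ham, map_zero, map_zero]

end FermatAgent.PSEMI
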