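import Fermat.Agent.PSEMI.Refine

/-!
# Bounded poles for approximate roots

An approximate `p`-th root of a function with poles of order at most `p n` is congruent to one
with poles of order at most `n`.
-/

set_option autoImplicit false

open UpperHalfPlane
open scoped MatrixGroups Manifold
open FermatAgent.Curve (SGE)

noncomputable section

namespace FermatAgent.PSEMI

open FermatAgent.ES FermatAgent.Curve.Red

variable {p : ℕ} [hp : Fact p.Prime] {P : CPlace p} {K : Coeffs P}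

/-- A series `α t ^ p + β f ^ (p-1) t` has poles of order at most `p n` only if `t` has poles of
order at most `n`. -/
theorem sge_of_comb {k : Type*} [Field k] {t f : LaurentSeries k} {α β : k} {n : ℕ}
    (hne : α ≠ 0 ∨ β ≠ 0) (hf : β ≠ 0 → f ≠ 0 ∧ f.order = -(n : ℤ))
    (h : SGE ((p : ℤ) * -(n : ℤ)) (α • t ^ p + β • (f ^ (p - 1) * t))) : SGE (-(n : ℤ)) t := by
  refine Curve.sge_iff.mpr ?_
  rcases eq_or_ne t 0 with ht | ht
  · exact Or.inl ht
  refine Or.inr ?_
  by_contra hlt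
  push Not at hlt
  set o := t.order with ho
  have hp1 := hp.out.two_le
  have hpo : (p : ℤ) * o < (p : ℤ) * -(n : ℤ) := mul_lt_mul_of_pos_left hlt (by omega)
  by_cases hα : α = 0
  · have hβ := hne.resolve_left (not_not.mpr hα)
    obtain ⟨hf0, hfo⟩ := hf hβ
    have hne' : f ^ (p - 1) * t ≠ 0 := mul_ne_zero (pow_ne_zero _ hf0) ht
    rw [hα, zero_smul, zero_add] at h
    have hord : (f ^ (p - 1) * t).order = ((p - 1 : ℕ) : ℤ) * -(n : ℤ) + o := by
      rw [HahnSeries.order_mul (pow_ne_zero _ hf0) ht, Curve.order_pow, hfo]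
    have h1 := h (f ^ (p - 1) * t).order (by
      rw [hord, Nat.cast_sub (by omega)]
      push_cast
      linarith)
    rw [HahnSeries.coeff_smul, smul_eq_zero] at h1
    exact HahnSeries.coeff_order_eq_zero.not.mpr hne' (h1.resolve_left hβ)
  · have h1 := h ((p : ℤ) * o) hpo
    rw [HahnSeries.coeff_add, HahnSeries.coeff_smul, HahnSeries.coeff_smul] at h1
    have h2 : β • (f ^ (p - 1) * t).coeff ((p : ℤ) * o) = 0 := by
      by_cases hβ : β = 0
      · rw [hβ, zero_smul]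
      obtain ⟨hf0, hfo⟩ := hf hβ
      refine smul_eq_zero.mpr (Or.inr (HahnSeries.coeff_eq_zero_of_lt_order ?_))
      rw [HahnSeries.order_mul (pow_ne_zero _ hf0) ht, Curve.order_pow, hfo, ← ho,
        Nat.cast_sub (by omega)]
      push_cast
      have : ((p : ℤ) - 1) * o < ((p : ℤ) - 1) * -(n : ℤ) :=
        mul_lt_mul_of_pos_left hlt (by omega)
      linarith
    rw [h2, add_zero, smul_eq_zero, or_iff_right hα] at h1
    have h3 : (t ^ p).coeff ((p : ℤ) * o) ≠ 0 := by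
      rw [show (p : ℤ) * o = (t ^ p).order by rw [Curve.order_pow]]
      exact HahnSeries.coeff_order_eq_zero.not.mpr (pow_ne_zero _ ht)
    exact h3 h1

/-- The comparison of `(h + a t)^p - h^p` with its leading part. -/
theorem comb_estimate {O : Subring ℂ} (hO : P.IsCDVR O) {h t : LaurentSeries ℂ} (hh : SerIn O h)
    (ht : SerIn O t) {a b : ℂ} (hb : b = a ^ p ∨ b = p * a) (ha : P.abv a ≤ 1) (hb0 : b ≠ 0)
    (haO : a ∈ O) (hap : P.abv (a ^ p) ≤ P.abv b) (hpa : P.abv ((p : ℂ) * a) ≤ P.abv b) :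
    ∃ R : LaurentSeries ℂ, P.SerLT R ∧ SerIn P.ring R ∧
      HahnSeries.C b⁻¹ * ((h + HahnSeries.C a * t) ^ p - h ^ p) =
        HahnSeries.C (a ^ p / b) * t ^ p +
          HahnSeries.C ((p : ℂ) * a / b) * (h ^ (p - 1) * t) + R := by
  obtain ⟨r, hr, e⟩ := exists_binom_two_ser (p := p) hh ((SerIn.C haO).mul ht)
  refine ⟨HahnSeries.C ((p : ℂ) * a ^ 2 / b) * (t ^ 2 * r), ?_, ?_, ?_⟩
  · intro k
    rw [HahnSeries.C_apply, HahnSeries.coeff_single_mul, sub_zero, map_mul]
    refine (mul_le_of_le_one_right (P.abv.nonneg _)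
      (serIn_mono ((ht.pow 2).mul hr) hO.le k)).trans_lt ?_
    rw [map_div₀, map_mul, map_pow, div_lt_one (P.abv.pos hb0)]
    rcases lt_or_eq_of_le ha with ha1 | ha1
    · rcases eq_or_ne a 0 with rfl | ha0
      · simpa using P.abv.pos hb0
      refine lt_of_lt_of_le ?_ hpa
      rw [map_mul]
      exact mul_lt_mul_of_pos_left (by nlinarith [P.abv.pos ha0]) abv_p_pos
    · rw [map_pow, ha1, one_pow] at hap
      rw [ha1, one_pow, mul_one]
      exact lt_of_lt_of_le P.lt_one hap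
  · intro k
    rw [HahnSeries.C_apply, HahnSeries.coeff_single_mul, sub_zero, CPlace.mem_ring, map_mul]
    refine mul_le_one₀ ?_ (P.abv.nonneg _) (serIn_mono ((ht.pow 2).mul hr) hO.le k)
    rw [map_div₀, map_mul, map_pow, div_le_one (P.abv.pos hb0)]
    refine le_trans ?_ hpa
    rw [map_mul]
    exact mul_le_mul_of_nonneg_left (by nlinarith [P.abv.nonneg a]) (P.abv.nonneg _)
  · rw [e]
    simp only [div_eq_mul_inv, map_mul, map_pow, map_natCast, mul_pow]
    ring

/-- Of `a ^ p` and `p a`, the larger one is the scale of `(h + a t) ^ p - h ^ p`. -/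
private lemma exists_dominant_scale {a : ℂ} (ha : a ≠ 0) :
    ∃ b : ℂ, (b = a ^ p ∨ b = p * a) ∧
      (P.abv (a ^ p) ≤ P.abv b ∧ P.abv ((p : ℂ) * a) ≤ P.abv b) ∧ b ≠ 0 := by
  rcases le_total (P.abv ((p : ℂ) * a)) (P.abv (a ^ p)) with h | h
  · exact ⟨_, Or.inl rfl, ⟨le_rfl, h⟩, pow_ne_zero _ ha⟩
  · exact ⟨_, Or.inr rfl, ⟨h, le_rfl⟩, mul_ne_zero (Nat.cast_ne_zero.mpr hp.out.ne_zero) ha⟩

/-- If `Y` is close to `w ^ p`, where `w = h + a t`, and `Y`, `h` have poles of order at most `p n`,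
`n`, then so has the reduction of `t`. -/
private lemma sge_red_scaled_diff {O : Subring ℂ} (hO : P.IsCDVR O) {Y w h t : LaurentSeries ℂ}
    {a b : ℂ} {n : ℕ} {e : ℝ} (hh : SerIn O h) (ht : SerIn O t)
    (hw : w = h + HahnSeries.C a * t) (hbor : b = a ^ p ∨ b = p * a)
    (hap : P.abv (a ^ p) ≤ P.abv b) (hpa : P.abv ((p : ℂ) * a) ≤ P.abv b) (hb0 : b ≠ 0)
    (haO : a ∈ O) (hd1 : P.abv a ≤ 1) (hhord : SGE (-(n : ℤ)) h)
    (hYord : SGE ((p : ℤ) * -(n : ℤ)) Y) (he : P.SerLE e (Y - w ^ p)) (heb : e < P.abv b)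
    (hwred : red (P := P) w ≠ 0 ∧ (red (P := P) w).order = -(n : ℤ)) :
    SGE (-(n : ℤ)) (red (P := P) t) := by
  have hmem1 : a ^ p / b ∈ P.ring := by
    rw [P.mem_ring, map_div₀, div_le_one (P.abv.pos hb0)]; exact hap
  have hmem2 : (p : ℂ) * a / b ∈ P.ring := by
    rw [P.mem_ring, map_div₀, div_le_one (P.abv.pos hb0)]; exact hpa
  have hhP : SerIn P.ring h := serIn_mono hh hO.le
  have htP : SerIn P.ring t := serIn_mono ht hO.le
  obtain ⟨R, hR, hRP, eR⟩ := comb_estimate hO hh ht hbor hd1 hb0 haO hap hpa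
  rw [← hw] at eR
  set Z := HahnSeries.C b⁻¹ * (Y - h ^ p) with hZ
  have hZord : SGE ((p : ℤ) * -(n : ℤ)) Z := fun j hj => by
    rw [hZ, HahnSeries.C_apply, HahnSeries.coeff_single_mul, sub_zero, HahnSeries.coeff_sub,
      hYord j hj, sge_pow hhord p j hj, sub_zero, mul_zero]
  have hZs : P.SerLT (HahnSeries.C b⁻¹ * (Y - w ^ p)) := fun k => by
    rw [HahnSeries.C_apply, HahnSeries.coeff_single_mul, sub_zero, map_mul, map_inv₀,
      inv_mul_lt_one₀ (P.abv.pos hb0)]
    exact (he k).trans_lt heb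
  have hA : SerIn P.ring (HahnSeries.C (a ^ p / b) * t ^ p) := (SerIn.C hmem1).mul (htP.pow p)
  have hB : SerIn P.ring (HahnSeries.C ((p : ℂ) * a / b) * (h ^ (p - 1) * t)) :=
    (SerIn.C hmem2).mul ((hhP.pow _).mul htP)
  have hZeq : Z = HahnSeries.C (a ^ p / b) * t ^ p +
      HahnSeries.C ((p : ℂ) * a / b) * (h ^ (p - 1) * t) +
      (R + HahnSeries.C b⁻¹ * (Y - w ^ p)) := by
    rw [← add_assoc, ← eR, hZ]; ring
  have hsmall : SerIn P.ring (R + HahnSeries.C b⁻¹ * (Y - w ^ p)) := hRP.add fun k => (hZs k).le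
  have hred := sge_red (hZeq ▸ (hA.add hB).add hsmall : SerIn P.ring Z) hZord
  rw [hZeq, red_add (hA.add hB) hsmall, (red_eq_zero_iff hsmall).mpr (fun k => by
      rw [HahnSeries.coeff_add]; exact P.add_lt (hR k) (hZs k)), add_zero, red_add hA hB,
    red_mul (SerIn.C hmem1) (htP.pow p), red_C hmem1, red_pow htP,
    red_mul (SerIn.C hmem2) ((hhP.pow _).mul htP), red_C hmem2, red_mul (hhP.pow _) htP,
    red_pow hhP, HahnSeries.C_mul_eq_smul, HahnSeries.C_mul_eq_smul] at hred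
  refine sge_of_comb ?_ ?_ hred
  · rw [rd_ne_zero_iff, rd_ne_zero_iff]
    rcases hbor with h1 | h1
    · exact Or.inl (by rw [map_div₀, h1, div_self (P.abv.ne_zero_iff.mpr (h1 ▸ hb0))])
    · exact Or.inr (by rw [map_div₀, h1, div_self (P.abv.ne_zero_iff.mpr (h1 ▸ hb0))])
  · intro hβ
    have hdlt : P.abv a < 1 := by
      refine lt_of_le_of_ne hd1 fun hd' => hβ (rd_eq_zero_iff.mpr ?_)
      show P.abv ((p : ℂ) * a / b) < 1
      rw [map_div₀, div_lt_one (P.abv.pos hb0)]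
      refine lt_of_lt_of_le ?_ hap
      rw [map_mul, map_pow, hd', one_pow, mul_one]
      exact P.lt_one
    have e1 : red (P := P) h = red (P := P) w := by
      rw [hw, red_add hhP ((SerIn.C (hO.le haO)).mul htP),
        (red_eq_zero_iff ((SerIn.C (hO.le haO)).mul htP)).mpr fun k => ?_, add_zero]
      exact (CPlace.SerLE.C_mul le_rfl htP k).trans_lt hdlt
    rw [e1]
    exact hwred

omit hp in
/-- Lowering the largest value below `d` removes `d` from the levels still reached. -/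
private lemma card_filter_lt {ι κ : Type*} {V : Finset ℝ} {d : ℝ} {f f' : ι → κ → ℝ}
    [DecidablePred fun v => ∃ i k, v ≤ f i k] [DecidablePred fun v => ∃ i k, v ≤ f' i k]
    {i₀ : ι} {k₀ : κ} (hdV : d ∈ V) (hd : d ≤ f i₀ k₀) (hlt : ∀ i k, f' i k < d) :
    (V.filter fun v => ∃ i k, v ≤ f' i k).card < (V.filter fun v => ∃ i k, v ≤ f i k).card := by
  refine Finset.card_lt_card (Finset.ssubset_iff_of_subset ?_ |>.mpr ⟨d, ?_, ?_⟩)
  · intro v hv
    simp only [Finset.mem_filter] at hv ⊢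
    obtain ⟨hv, i, k, hk⟩ := hv
    exact ⟨hv, i₀, k₀, hk.trans ((hlt i k).le.trans hd)⟩
  · simp only [Finset.mem_filter]
    exact ⟨hdV, i₀, k₀, hd⟩
  · simp only [Finset.mem_filter, not_and]
    rintro - ⟨i, k, hk⟩
    exact (hlt i k).not_ge hk

namespace Model

variable {D : Model}

/-- **The pole loop.** -/
theorem Good.exists_bounded (G : D.Good K) {n : ℕ} (hn : G.o0 ≤ n) (F : Frame D K (n : ℤ))
    {S : Finset ℂ} (hS : (S : Set ℂ) ⊆ P.ring) (hFS : F.S ⊆ S) {Y W : ℍ → ℂ}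
    (hYord : ∀ c, SGE ((p : ℤ) * -(n : ℤ)) (D.E c Y))
    (hW : W ∈ D.Fun) (hWO : ∀ c, SerIn (K.R S) (D.E c W))
    (hWred : ∀ c, (D.redT P W c) ≠ 0 ∧ (D.redT P W c).order = -(n : ℤ))
    {e : ℝ} (he0 : 0 < e) (he : ∀ c, P.SerLE e (D.E c Y - D.E c W ^ p)) :
    ∃ h ∈ D.LamF (n : ℤ), (∀ c, SerIn (K.R S) (D.E c h)) ∧
      ∀ c, P.SerLE (e / P.abv p) (D.E c W - D.E c h) := by
  classical
  have := G.nonempty
  set O := K.R S
  have hO := K.isCDVR hS
  have hap := abv_p_pos (P := P)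
  set V : Finset ℝ := (finite_values hO (div_pos he0 hap)).toFinset
  set Nb : (ℍ → ℂ) → ℕ := fun h =>
    (V.filter fun v => ∃ c k, v ≤ P.abv ((D.E c W - D.E c h).coeff k)).card
  set Q : (ℍ → ℂ) → Prop := fun h => h ∈ D.LamF (n : ℤ) ∧ ∀ c, SerIn O (D.E c h)
  have hQ0 : Q 0 := ⟨zero_mem _, fun c => by rw [E_zero]; exact SerIn.zero⟩
  have hexN : ∃ m, ∃ h, Q h ∧ Nb h = m := ⟨_, 0, hQ0, rfl⟩
  obtain ⟨h, hQh, hNh⟩ := Nat.find_spec hexN
  refine ⟨h, hQh.1, hQh.2, ?_⟩
  by_contra hbad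
  push Not at hbad
  obtain ⟨cb, hbad⟩ := hbad
  have hTO : ∀ c, SerIn O (D.E c W - D.E c h) := fun c => (hWO c).sub (hQh.2 c)
  obtain ⟨cm, km, hne, hmax⟩ := exists_max hO (s := fun c => D.E c W - D.E c h) hTO
    ⟨cb, fun h0 => hbad (by rw [h0]; exact CPlace.SerLE.zero (div_nonneg he0.le hap.le))⟩
  set a := (D.E cm W - D.E cm h).coeff km with ha
  set d := P.abv a with hd
  have hde : e / P.abv p < d := by
    by_contra hle
    push Not at hle
    exact hbad fun k => (hmax cb k).trans hle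
  have hd1 : d ≤ 1 := hO.le (hTO cm km)
  have haO : a ∈ O := hTO cm km
  obtain ⟨b, hbor, hap', hb0⟩ := exists_dominant_scale (P := P) hne
  have heb : e < P.abv b := by
    refine lt_of_lt_of_le ?_ hap'.2
    rw [map_mul, ← div_lt_iff₀' hap]
    exact hde
  -- the scaled difference
  have hDfun : W - h ∈ D.Fun := sub_mem hW hQh.1.1
  set T := a⁻¹ • (W - h)
  have hTF : T ∈ D.Fun := Submodule.smul_mem _ _ hDfun
  have hTcoef : ∀ c k, (D.E c T).coeff k = a⁻¹ * (D.E c W - D.E c h).coeff k := fun c k => by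
    rw [coeff_E_smul isParChar_one hDfun, E_sub isParChar_one hW hQh.1.1]
  have hTE : ∀ c, D.E c W = D.E c h + HahnSeries.C a * D.E c T := fun c => by
    refine HahnSeries.ext (funext fun k => ?_)
    rw [HahnSeries.coeff_add, HahnSeries.C_apply, HahnSeries.coeff_single_mul, sub_zero, hTcoef,
      mul_inv_cancel_left₀ hne, HahnSeries.coeff_sub, add_sub_cancel]
  have hT1 : ∀ c, SerIn O (D.E c T) := fun c k => by
    rw [hTcoef, inv_mul_eq_div]
    exact div_mem_of_abv_le hO (hTO c k) haO hne (hmax c k)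
  have hTP : D.Integral P T := fun c => serIn_mono (hT1 c) hO.le
  have hpole : ∀ c, SGE (-(n : ℤ)) (D.redT P T c) := fun c =>
    sge_red_scaled_diff hO (hQh.2 c) (hT1 c) (hTE c) hbor hap'.1 hap'.2 hb0 haO hd1 (hQh.1.2 c)
      (hYord c) (he c) heb (hWred c)
  obtain ⟨g1, hg1, hg1i, eg1⟩ := G.exists_lift_pole hn hTF hTP hpole
  obtain ⟨H, hH, hHO, eH⟩ := F.exists_lift_over hS hFS hg1 hg1i fun c i => by
    rw [eg1]; exact coeff_red_mem hO (hT1 c) i
  set h' := h + a • H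
  have hE' : ∀ c, D.E c h' = D.E c h + HahnSeries.C a * D.E c H := fun c => by
    rw [E_add isParChar_one hQh.1.1 (Submodule.smul_mem _ _ hH.1), E_smul isParChar_one hH.1]
  have hQ' : Q h' := ⟨add_mem hQh.1 (Submodule.smul_mem _ _ hH), fun c => by
    rw [hE']; exact (hQh.2 c).add ((SerIn.C haO).mul (hHO c))⟩
  have hsmall : ∀ c k, P.abv ((D.E c W - D.E c h').coeff k) < d := by
    intro c k
    have hr : red (P := P) (D.E c T) = red (D.E c H) := by
      have h1 := congrFun eH c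
      have h2 := congrFun eg1 c
      simp only [redT] at h1 h2
      rw [h1, h2]
    have h4 := (red_eq_red_iff (hTP c) (serIn_mono (hHO c) hO.le)).mp hr k
    rw [show D.E c W - D.E c h' = HahnSeries.C a * (D.E c T - D.E c H) by rw [hE', hTE c]; ring,
      HahnSeries.C_apply, HahnSeries.coeff_single_mul, sub_zero, map_mul]
    exact mul_lt_of_lt_one_right (P.abv.pos hne) h4
  have hlt : Nb h' < Nat.find hexN := by
    rw [← hNh]
    exact card_filter_lt (f := fun c k => P.abv ((D.E c W - D.E c h).coeff k))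
      (f' := fun c k => P.abv ((D.E c W - D.E c h').coeff k))
      ((Set.Finite.mem_toFinset _).mpr ⟨hde.le, a, haO, rfl⟩) (le_refl d) hsmall
  exact Nat.find_min hexN hlt ⟨h', hQ', rfl⟩

end Model

end FermatAgent.PSEMI
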