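import Fermat.Agent.GaloisBasic.AdicLimit
import Fermat.Agent.PSEMI.Loop

/-!
# Refining roots

The second order binomial expansion, Newton iteration and limits in complete coefficient rings.
-/

set_option autoImplicit false

open UpperHalfPlane
open scoped MatrixGroups Manifold
open FermatAgent.Curve (SGE)

noncomputable section

namespace FermatAgent.PSEMI

open FermatAgent.ES FermatAgent.Curve.Red

theorem exists_binom_two {R : Type*} [CommRing R] {p : ℕ} (hp : p.Prime) (a b : R) :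
    ∃ r, (a + b) ^ p = a ^ p + (p : R) * a ^ (p - 1) * b + b ^ p + (p : R) * b ^ 2 * r := by
  obtain ⟨m, rfl⟩ : ∃ m, p = m + 2 := ⟨p - 2, by have := hp.two_le; omega⟩
  refine ⟨∑ k ∈ Finset.range m, a ^ (m - k) * b ^ k * (((m + 2).choose (k + 2) / (m + 2) : ℕ) : R),
    ?_⟩
  rw [add_comm a b, add_pow, Finset.sum_range_succ, Finset.sum_range_succ', Finset.sum_range_succ',
    Finset.mul_sum]
  have h : ∀ k ∈ Finset.range m,
      b ^ (k + 1 + 1) * a ^ (m + 2 - (k + 1 + 1)) * (((m + 2).choose (k + 1 + 1) : ℕ) : R) =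
      ((m + 2 : ℕ) : R) * b ^ 2 *
        (a ^ (m - k) * b ^ k * (((m + 2).choose (k + 2) / (m + 2) : ℕ) : R)) := by
    intro k hk
    rw [Finset.mem_range] at hk
    obtain ⟨c, hc⟩ := hp.dvd_choose_self (k := k + 2) (by omega) (by omega)
    rw [show m + 2 - (k + 1 + 1) = m - k by omega, show k + 1 + 1 = k + 2 from rfl, hc,
      Nat.mul_div_cancel_left _ (by omega), Nat.cast_mul]
    ring
  rw [Finset.sum_congr rfl h]
  simp
  ring

variable {p : ℕ} [hp : Fact p.Prime] {P : CPlace p} {K : Coeffs P}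

/-- `|p|` is positive. -/
theorem abv_p_pos : 0 < P.abv p := P.abv.pos (Nat.cast_ne_zero.mpr hp.out.ne_zero)

/-- `(a + b) ^ p = a ^ p + p a ^ (p - 1) b + b ^ p + p b ^ 2 r` with `r` over the ring of `a` and
`b`. -/
theorem exists_binom_two_ser {O : Subring ℂ} {a b : LaurentSeries ℂ} (ha : SerIn O a)
    (hb : SerIn O b) : ∃ r, SerIn O r ∧ (a + b) ^ p = a ^ p +
      (p : LaurentSeries ℂ) * a ^ (p - 1) * b + b ^ p + (p : LaurentSeries ℂ) * b ^ 2 * r := by
  obtain ⟨r, hr⟩ := exists_binom_two hp.out (⟨a, ha⟩ : Curve.Red.serSub O) ⟨b, hb⟩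
  refine ⟨r, r.2, ?_⟩
  have h := congrArg Subtype.val hr
  push_cast at h
  exact h

/-- **One Newton step.** -/
theorem newton_step {O : Subring ℂ} (hO : P.IsCDVR O) {y g : LaurentSeries ℂ} (hy : SerIn O y)
    (hg : SerIn O g) {c e ρ : ℝ} (hc : c < rp P ^ p) (he : e ≤ c) (hρ : P.SerLE ρ (y - 1))
    (h : P.SerLE e (y - g ^ p)) :
    SerIn O (g + HahnSeries.C (p : ℂ)⁻¹ * (g * (y - g ^ p))) ∧
    P.SerLE (e / P.abv p) (HahnSeries.C (p : ℂ)⁻¹ * (g * (y - g ^ p))) ∧
    P.SerLE (e * max (max ρ (c / P.abv p)) ((c / rp P ^ p) ^ (p - 1)))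
      (y - (g + HahnSeries.C (p : ℂ)⁻¹ * (g * (y - g ^ p))) ^ p) := by
  have hp0 : (p : ℂ) ≠ 0 := Nat.cast_ne_zero.mpr hp.out.ne_zero
  have hap := abv_p_pos (P := P)
  have he0 : 0 ≤ e := (P.abv.nonneg _).trans (h 0)
  have hep : e ≤ P.abv p := he.trans (hc.le.trans pow_p_lt_abv_p.le)
  have hgP := serIn_mono hg hO.le
  have hstep : P.SerLE e (g * (y - g ^ p)) := CPlace.SerLE.serIn_mul he0 hgP h
  have hTO : SerIn O (HahnSeries.C (p : ℂ)⁻¹ * (g * (y - g ^ p))) := fun k => by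
    rw [HahnSeries.C_apply, HahnSeries.coeff_single_mul, sub_zero, inv_mul_eq_div]
    exact div_mem_of_abv_le hO (hg.mul (hy.sub (hg.pow p)) k) (natCast_mem O p) hp0
      ((hstep k).trans hep)
  have hεle : P.SerLE (e / P.abv p) (HahnSeries.C (p : ℂ)⁻¹ * (y - g ^ p)) := by
    rw [serLE_C_mul_iff (inv_ne_zero hp0), map_inv₀, div_inv_eq_mul, div_mul_cancel₀ _ hap.ne']
    exact h
  refine ⟨hg.add hTO, ?_, ?_⟩
  · rw [serLE_C_mul_iff (inv_ne_zero hp0), map_inv₀, div_inv_eq_mul, div_mul_cancel₀ _ hap.ne']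
    exact hstep
  set ε := HahnSeries.C (p : ℂ)⁻¹ * (y - g ^ p) with hε
  have hεO : SerIn O ε := fun k => by
    rw [hε, HahnSeries.C_apply, HahnSeries.coeff_single_mul, sub_zero, inv_mul_eq_div]
    exact div_mem_of_abv_le hO (hy.sub (hg.pow p) k) (natCast_mem O p) hp0 ((h k).trans hep)
  obtain ⟨r, hr, e2⟩ := exists_binom_two_ser (p := p) (SerIn.one (A := O)) hεO
  rw [one_pow, one_pow, mul_one] at e2
  have hpε : (p : LaurentSeries ℂ) * ε = y - g ^ p := by
    rw [hε, ← map_natCast (HahnSeries.C : ℂ →+* LaurentSeries ℂ), ← mul_assoc, ← map_mul,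
      mul_inv_cancel₀ hp0, map_one, one_mul]
  have eq : y - (g + HahnSeries.C (p : ℂ)⁻¹ * (g * (y - g ^ p))) ^ p =
      (y - g ^ p) * ((y - g ^ p) - (y - 1)) -
        g ^ p * (ε ^ p + (p : LaurentSeries ℂ) * ε ^ 2 * r) := by
    rw [show g + HahnSeries.C (p : ℂ)⁻¹ * (g * (y - g ^ p)) = g * (1 + ε) by rw [hε]; ring,
      mul_pow, e2]
    linear_combination -(g ^ p) * hpε
  rw [eq]
  set θ := max (max ρ (c / P.abv p)) ((c / rp P ^ p) ^ (p - 1)) with hθ
  have hc0 : 0 ≤ c := he0.trans he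
  have hcθ : c / P.abv p ≤ θ := (le_max_right _ _).trans (le_max_left _ _)
  have hθ0 : 0 ≤ θ := (div_nonneg hc0 hap.le).trans hcθ
  have he_le : e ≤ θ := by
    refine he.trans (le_trans ?_ hcθ)
    rw [le_div_iff₀ hap]
    exact mul_le_of_le_one_right hc0 (P.abv_natCast_le_one p)
  refine CPlace.SerLE.sub (h.mul he0 hθ0 ((h.mono he_le).sub
    (hρ.mono ((le_max_left _ _).trans (le_max_left _ _)))))
    (CPlace.SerLE.serIn_mul (mul_nonneg he0 hθ0) (hgP.pow p) (CPlace.SerLE.add ?_ ?_))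
  · refine (CPlace.SerLE.pow (div_nonneg he0 hap.le) hεle p).mono ?_
    obtain ⟨q, hq⟩ : ∃ q, p = q + 1 := ⟨p - 1, by have := hp.out.pos; omega⟩
    have hrq : rp P ^ q = P.abv p := by rw [← rp_pow (P := P), show p - 1 = q by omega]
    have key : (e / P.abv p) ^ p = e * (e / rp P ^ p) ^ (p - 1) := by
      rw [show p - 1 = q by omega, div_pow, div_pow, ← pow_mul, mul_comm p q, pow_mul, hrq,
        show e ^ p = e * e ^ q by rw [← pow_succ', ← hq]]
      ring
    rw [key]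
    exact mul_le_mul_of_nonneg_left ((pow_le_pow_left₀ (div_nonneg he0 (pow_nonneg rp_nonneg _))
      (div_le_div_of_nonneg_right he (pow_nonneg rp_nonneg _)) _).trans (le_max_right _ _)) he0
  · rw [mul_assoc]
    have h2 := serLE_natCast_mul (P := P) p
      ((CPlace.SerLE.pow (div_nonneg he0 hap.le) hεle 2).mul_serIn (by positivity)
        (serIn_mono hr hO.le))
    refine h2.mono ?_
    rw [show P.abv p * (e / P.abv p) ^ 2 = e * (e / P.abv p) by field_simp]
    exact mul_le_mul_of_nonneg_left ((div_le_div_of_nonneg_right he hap.le).trans hcθ) he0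

/-- The contraction rate of Newton's method below the precision `|ζ - 1| ^ p` is `< 1`. -/
theorem newton_rate_lt_one {c ρ : ℝ} (hc0 : 0 ≤ c) (hc : c < rp P ^ p) (hρ : ρ < 1) :
    max (max ρ (c / P.abv p)) ((c / rp P ^ p) ^ (p - 1)) < 1 :=
  max_lt (max_lt hρ ((div_lt_one abv_p_pos).mpr (hc.trans pow_p_lt_abv_p)))
    (pow_lt_one₀ (div_nonneg hc0 (pow_nonneg rp_nonneg _))
      ((div_lt_one (pow_pos rp_pos _)).mpr hc) (by have := hp.out.two_le; omega))

omit hp in
/-- Limits in a complete coefficient ring. -/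
theorem exists_limit {O : Subring ℂ} (hO : P.IsCDVR O) {π : O} (hπ0 : 0 < P.abv (π : ℂ))
    (hπ1 : P.abv (π : ℂ) < 1) (hval : ∀ x : O, (x : ℂ) ≠ 0 → ∃ i : ℕ,
      P.abv (x : ℂ) = P.abv (π : ℂ) ^ i ∧ ∃ u : O, (x : ℂ) = u * (π : ℂ) ^ i ∧ P.abv (u : ℂ) = 1)
    {f : ℕ → O} (h : ∀ k, P.abv ((f (k + 1) : ℂ) - f k) ≤ P.abv (π : ℂ) ^ k) :
    ∃ L : O, ∀ k, P.abv ((L : ℂ) - f k) ≤ P.abv (π : ℂ) ^ k := by
  have := hO.dvr
  have := hO.complete
  set I := IsLocalRing.maximalIdeal O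
  have hπI : π ∈ I := (hO.mem_maximalIdeal_iff π).mpr hπ1
  have hI : I = Ideal.span {π} := by
    refine le_antisymm (fun x hx => ?_) ((Ideal.span_singleton_le_iff_mem I).mpr hπI)
    rcases eq_or_ne (x : ℂ) 0 with h0 | h0
    · rw [show x = 0 from Subtype.ext h0]; exact zero_mem _
    · obtain ⟨i, hi, u, hu, -⟩ := hval x h0
      rcases Nat.eq_zero_or_pos i with rfl | hpos
      · rw [hO.mem_maximalIdeal_iff, hi, pow_zero] at hx
        exact absurd hx (lt_irrefl _)
      · refine Ideal.mem_span_singleton.mpr ⟨u * π ^ (i - 1), Subtype.ext ?_⟩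
        push_cast
        rw [hu, mul_left_comm, ← pow_succ', Nat.sub_add_cancel hpos]
  have hmem : ∀ (n : ℕ) (x : O), x ∈ I ^ n ↔ P.abv (x : ℂ) ≤ P.abv (π : ℂ) ^ n := by
    intro n x
    rw [hI, Ideal.span_singleton_pow, Ideal.mem_span_singleton]
    refine ⟨?_, fun hx => ?_⟩
    · rintro ⟨q, rfl⟩
      push_cast
      rw [map_mul, map_pow]
      exact mul_le_of_le_one_right (pow_nonneg (P.abv.nonneg _) _) (hO.le q.2)
    · have hπn : (π : ℂ) ^ n ≠ 0 :=
        pow_ne_zero _ fun h0 => by rw [h0, map_zero] at hπ0; exact lt_irrefl _ hπ0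
      refine ⟨⟨_, div_mem_of_abv_le hO x.2 (O.pow_mem π.2 n) hπn (by rwa [map_pow])⟩,
        Subtype.ext ?_⟩
      push_cast
      rw [mul_div_cancel₀ _ hπn]
  obtain ⟨L, hL⟩ := GaloisBasic.exists_limit_of_succ I f fun k => (hmem k _).mpr
    (by push_cast; exact h k)
  exact ⟨L, fun k => by simpa using (hmem k _).mp (hL k)⟩

/-- Two roots near each other are very near each other. -/
theorem root_unique {O : Subring ℂ} (hO : P.IsCDVR O) {w w' : LaurentSeries ℂ} (hw : SerIn O w)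
    (hw' : SerIn O w') (hu : P.UnitCoeff w) {r e : ℝ} (hr : r < rp P)
    (hclose : P.SerLE r (w' - w)) (he : P.SerLE e (w' ^ p - w ^ p)) :
    P.SerLE (e / P.abv p) (w' - w) := by
  have he0 : 0 ≤ e := (P.abv.nonneg _).trans (he 0)
  have hap := abv_p_pos (P := P)
  rcases eq_or_ne (w' - w) 0 with h0 | h0
  · rw [h0]; exact CPlace.SerLE.zero (div_nonneg he0 hap.le)
  obtain ⟨δ, hδ, hδ0, t, ht, hut, eT, hd⟩ := exists_content hO (hw'.sub hw) h0
  have hwP := serIn_mono hw hO.le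
  have htP := serIn_mono ht hO.le
  obtain ⟨i0, hi0⟩ := hut
  have hdr : P.abv δ ≤ r := by
    have h1 := hclose i0
    rwa [eT, HahnSeries.C_apply, HahnSeries.coeff_single_mul, sub_zero, map_mul, hi0, mul_one] at h1
  set d := P.abv δ with hd'
  have hd0 : 0 < d := P.abv.pos hδ0
  have hd1 : d < 1 := (hdr.trans_lt hr).trans rp_lt_one
  have hdp : d ^ p < P.abv p * d := by
    rw [← rp_pow, show d ^ p = d ^ (p - 1) * d by
      rw [← pow_succ]; congr 1; have := hp.out.pos; omega]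
    exact mul_lt_mul_of_pos_right
      (pow_lt_pow_left₀ (hdr.trans_lt hr) hd0.le (by have := hp.out.two_le; omega)) hd0
  obtain ⟨q, hq, e2⟩ := exists_binom_two_ser (p := p) hw (hw'.sub hw)
  rw [add_sub_cancel] at e2
  obtain ⟨i, hi⟩ := CPlace.UnitCoeff.mul (hwP.pow (p - 1)) htP
    (CPlace.UnitCoeff.pow hwP hu _) ⟨i0, hi0⟩
  have hmain : P.abv (((p : LaurentSeries ℂ) * w ^ (p - 1) * (w' - w)).coeff i) = P.abv p * d := by
    rw [eT, show (p : LaurentSeries ℂ) * w ^ (p - 1) * (HahnSeries.C δ * t) =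
      HahnSeries.C ((p : ℂ) * δ) * (w ^ (p - 1) * t) by rw [map_mul, map_natCast]; ring,
      HahnSeries.C_apply, HahnSeries.coeff_single_mul, sub_zero, map_mul, map_mul, hi, mul_one]
  have hother : P.SerLE (max (d ^ p) (P.abv p * (d ^ 2)))
      ((w' - w) ^ p + (p : LaurentSeries ℂ) * (w' - w) ^ 2 * q) := by
    refine ((CPlace.SerLE.pow hd0.le hd p).mono (le_max_left _ _)).add
      (CPlace.SerLE.mono ?_ (le_max_right _ _))
    rw [mul_assoc]
    exact serLE_natCast_mul p ((CPlace.SerLE.pow hd0.le hd 2).mul_serIn (by positivity)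
      (serIn_mono hq hO.le))
  have hlt : max (d ^ p) (P.abv p * d ^ 2) < P.abv p * d :=
    max_lt hdp (mul_lt_mul_of_pos_left (by nlinarith) hap)
  have hbound : P.abv p * d ≤ e := by
    by_contra hno
    push Not at hno
    have h2 : P.abv (((p : LaurentSeries ℂ) * w ^ (p - 1) * (w' - w)).coeff i) < P.abv p * d := by
      rw [show (p : LaurentSeries ℂ) * w ^ (p - 1) * (w' - w) = (w' ^ p - w ^ p) -
        ((w' - w) ^ p + (p : LaurentSeries ℂ) * (w' - w) ^ 2 * q) by rw [e2]; ring,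
        HahnSeries.coeff_sub, sub_eq_add_neg]
      refine P.add_lt ((he i).trans_lt hno) ?_
      rw [AbsoluteValue.map_neg]
      exact (hother i).trans_lt hlt
    exact h2.ne hmain
  exact hd.mono (by rw [le_div_iff₀ hap, mul_comm]; exact hbound)

end FermatAgent.PSEMI
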